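import Mathlib.Tactic

/-!
Arithmetic in `ℤ[φ]`, `φ³ - 2φ² + 2 = 0` (the cubic field of discriminant -44), on triples
`(A, B, C) = A + Bφ + Cφ²`, and the finite checks of the 2-descent on `X₁(11)`.
-/

set_option autoImplicit false

namespace FLTA.EllPoints.Eleven

variable {R : Type*} [CommRing R]

/-- Product in `R[φ]`. -/
def mulC (u v : R × R × R) : R × R × R :=
  (u.1 * v.1 - 2 * (u.2.1 * v.2.2 + u.2.2 * v.2.1) - 4 * (u.2.2 * v.2.2),
   u.1 * v.2.1 + u.2.1 * v.1 - 2 * (u.2.2 * v.2.2),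
   u.1 * v.2.2 + u.2.1 * v.2.1 + u.2.2 * v.1 + 2 * (u.2.1 * v.2.2 + u.2.2 * v.2.1)
     + 4 * (u.2.2 * v.2.2))

/-- Cofactor (product of the other two conjugates). -/
def adjC (u : R × R × R) : R × R × R :=
  (u.1 * (u.1 + 2 * (u.2.1 + 2 * u.2.2)) + 2 * u.2.2 * (u.2.1 + 2 * u.2.2),
   -(u.2.1 * (u.1 + 2 * (u.2.1 + 2 * u.2.2)) + 2 * u.2.2 * u.2.2),
   u.2.1 * (u.2.1 + 2 * u.2.2) - u.1 * u.2.2)

/-- Norm form. -/
def nmC (u : R × R × R) : R :=
  u.1 * (adjC u).1 - 2 * u.2.2 * (adjC u).2.1 - 2 * (u.2.1 + 2 * u.2.2) * (adjC u).2.2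

/-- Evaluation at a number. -/
def evC (u : R × R × R) (p : R) : R := u.1 + u.2.1 * p + u.2.2 * p ^ 2

/-- Scalar multiple. -/
def smC (k : R) (u : R × R × R) : R × R × R := (k * u.1, k * u.2.1, k * u.2.2)

theorem mulC_assoc (u v w : R × R × R) : mulC (mulC u v) w = mulC u (mulC v w) := by
  simp only [mulC, Prod.mk.injEq]; refine ⟨?_, ?_, ?_⟩ <;> ring

theorem mulC_comm (u v : R × R × R) : mulC u v = mulC v u := by
  simp only [mulC, Prod.mk.injEq]; refine ⟨?_, ?_, ?_⟩ <;> ring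

theorem smC_mulC (k : R) (u v : R × R × R) : mulC (smC k u) v = smC k (mulC u v) := by
  simp only [mulC, smC, Prod.mk.injEq]; refine ⟨?_, ?_, ?_⟩ <;> ring

theorem mulC_smC (k : R) (u v : R × R × R) : mulC u (smC k v) = smC k (mulC u v) := by
  simp only [mulC, smC, Prod.mk.injEq]; refine ⟨?_, ?_, ?_⟩ <;> ring

theorem smC_smC (k l : R) (u : R × R × R) : smC k (smC l u) = smC (k * l) u := by
  simp only [smC, Prod.mk.injEq]; refine ⟨?_, ?_, ?_⟩ <;> ring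

theorem mulC_adjC (u : R × R × R) : mulC u (adjC u) = (nmC u, 0, 0) := by
  simp only [mulC, nmC, adjC, Prod.mk.injEq]; refine ⟨?_, ?_, ?_⟩ <;> ring

theorem evC_mulC (u v : R × R × R) {p : R} (hp : p ^ 3 - 2 * p ^ 2 + 2 = 0) :
    evC (mulC u v) p = evC u p * evC v p := by
  simp only [evC, mulC]
  linear_combination -((u.2.1 * v.2.2 + u.2.2 * v.2.1) + u.2.2 * v.2.2 * (p + 2)) * hp

theorem evC_smC (k : R) (u : R × R × R) (p : R) : evC (smC k u) p = k * evC u p := by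
  simp only [evC, smC]; ring

theorem nmC_mulC (u v : R × R × R) : nmC (mulC u v) = nmC u * nmC v := by
  simp only [nmC, adjC, mulC]; ring

theorem nmC_smC (k : R) (u : R × R × R) : nmC (smC k u) = k ^ 3 * nmC u := by
  simp only [nmC, adjC, smC]; ring

/-- `N(a - bφ)`. -/
def lineNorm (a b : R) : R := a ^ 3 - 2 * a ^ 2 * b + 2 * b ^ 3

theorem nmC_line (a b : R) : nmC (a, -b, 0) = lineNorm a b := by
  simp only [nmC, adjC, lineNorm]; ring

theorem evC_mul_adjC (u : R × R × R) (r : R) :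
    evC u r * evC (adjC u) r = nmC u + (r ^ 3 - 2 * r ^ 2 + 2) *
      (u.2.1 * (adjC u).2.2 + u.2.2 * (adjC u).2.1 + u.2.2 * (adjC u).2.2 * (r + 2)) := by
  simp only [evC, nmC, adjC]; ring

theorem nmC_map {S : Type*} [CommRing S] (f : R →+* S) (u : R × R × R) :
    nmC (f u.1, f u.2.1, f u.2.2) = f (nmC u) := by
  simp only [nmC, adjC]; simp [map_add, map_sub, map_mul, map_ofNat, map_neg]

theorem nmC_shift (a B C : R) : nmC (2 * a, B, C) = -2 * nmC (B, C + 2 * a, -a) := by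
  simp only [nmC, adjC]; ring

theorem two_dvd_of_nmC {A B C : ℤ} (h : nmC (A, B, C) = 0) : 2 ∣ A := by
  have key : ∀ x y z : ZMod 2, nmC (x, y, z) = 0 → x = 0 := by unfold nmC adjC; decide
  have h2 := nmC_map (Int.castRingHom (ZMod 2)) (A, B, C)
  rw [h, map_zero] at h2
  exact (ZMod.intCast_zmod_eq_zero_iff_dvd A 2).1 (key _ _ _ h2)

theorem nmC_ne_zero : ∀ u : ℤ × ℤ × ℤ, u ≠ 0 → nmC u ≠ 0 := by
  suffices H : ∀ (n : ℕ) (A B C : ℤ), A.natAbs + B.natAbs + C.natAbs ≤ n → nmC (A, B, C) = 0 →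
      A = 0 ∧ B = 0 ∧ C = 0 by
    rintro ⟨A, B, C⟩ hu h
    obtain ⟨rfl, rfl, rfl⟩ := H _ A B C le_rfl h
    exact hu rfl
  intro n
  induction n with
  | zero => intro A B C h _; omega
  | succ n ih =>
    intro A B C hn h
    obtain ⟨a, rfl⟩ := two_dvd_of_nmC h
    have h1 : nmC (B, C + 2 * a, -a) = 0 := by
      have e := nmC_shift a B C
      rw [h] at e; linarith
    obtain ⟨b, rfl⟩ := two_dvd_of_nmC h1
    have h2 : nmC (C + 2 * a, -a + 2 * b, -b) = 0 := by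
      have e := nmC_shift b (C + 2 * a) (-a)
      rw [h1] at e; linarith
    obtain ⟨c, hc⟩ : (2 : ℤ) ∣ C :=
      (dvd_add_left (dvd_mul_right 2 a)).1 (two_dvd_of_nmC h2)
    subst hc
    by_cases h0 : a = 0 ∧ b = 0 ∧ c = 0
    · obtain ⟨rfl, rfl, rfl⟩ := h0; simp
    have h3 : nmC (a, b, c) = 0 := by
      have e := nmC_smC 2 (a, b, c)
      simp only [smC] at e; rw [h] at e; linarith
    obtain ⟨rfl, rfl, rfl⟩ := ih a b c (by omega) h3
    simp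

/-- Residues mod 4 of the non-square candidates, with norm one. -/
def badOne : List (ZMod 4 × ZMod 4 × ZMod 4) := [(3, 3, 1), (1, 3, 0), (1, 1, 0), (3, 1, 1)]

/-- Residues mod 4 of the non-square candidates, with norm four. -/
def badTwo : List (ZMod 4 × ZMod 4 × ZMod 4) := [(2, 0, 3), (2, 2, 1)]

/-- Square roots of the norm-one candidates. -/
def rootOne : List (ℤ × ℤ × ℤ) :=
  [(1, 0, -1), (1, -1, 0), (1, 1, -1), (1, 0, 0), (1, 1, 0), (1, -2, 1)]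

/-- Square roots of the norm-four candidates. -/
def rootTwo : List (ℤ × ℤ × ℤ) :=
  [(2, 1, -2), (0, 1, -1), (0, 1, 0), (2, -1, 0), (2, 1, -1)]

theorem obstruction_one : ∀ u ∈ badOne, ∀ a b z₀ z₁ z₂ : ZMod 4, a.val % 2 = 1 → b.val % 2 = 0 →
    mulC (a, -b, 0) u ≠ mulC (z₀, z₁, z₂) (z₀, z₁, z₂) := by
  unfold badOne mulC; decide +kernel

theorem obstruction_two : ∀ u ∈ badTwo, ∀ a b z₀ z₁ z₂ : ZMod 4, a.val % 2 = 0 → b.val % 2 = 1 →
    mulC (a, -b, 0) u ≠ smC 2 (mulC (z₀, z₁, z₂) (z₀, z₁, z₂)) := by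
  unfold badTwo mulC smC; decide +kernel

theorem candidates_one : ∀ A ∈ Finset.Icc (-12 : ℤ) 12, ∀ B ∈ Finset.Icc (-3 : ℤ) 3,
    ∀ C ∈ Finset.Icc (-3 : ℤ) 3, nmC (A, B, C) = 1 →
      (∃ d ∈ rootOne, mulC d d = (A, B, C)) ∨ ((A : ZMod 4), (B : ZMod 4), (C : ZMod 4)) ∈ badOne := by
  decide +kernel

theorem candidates_two : ∀ A ∈ Finset.Icc (-12 : ℤ) 12, ∀ B ∈ Finset.Icc (-3 : ℤ) 3,
    ∀ C ∈ Finset.Icc (-3 : ℤ) 3, nmC (A, B, C) = 4 →
      (∃ d ∈ rootTwo, mulC d d = (A, B, C)) ∨ ((A : ZMod 4), (B : ZMod 4), (C : ZMod 4)) ∈ badTwo := by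
  decide +kernel

end FLTA.EllPoints.Eleven
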