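import Mathlib.Tactic

/-!
Hermite's bound on the minimum of a positive definite quadratic form in two and in three
variables.
-/

set_option autoImplicit false

namespace FLTA.EllPoints.Eleven

/-- Binary quadratic form. -/
def qf2 (p q r : ℝ) (y z : ℤ) : ℝ := p * (y : ℝ) ^ 2 + 2 * q * y * z + r * (z : ℝ) ^ 2

/-- Ternary quadratic form. -/
def qf3 (a b c d e f : ℝ) (x y z : ℤ) : ℝ :=
  a * (x : ℝ) ^ 2 + 2 * b * x * y + 2 * c * x * z + d * (y : ℝ) ^ 2 + 2 * e * y * z + f * (z : ℝ) ^ 2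

theorem mem_Icc_of_sq_le {n : ℤ} {B : ℝ} (h : (n : ℝ) ^ 2 ≤ B) :
    n ∈ Set.Icc (-⌈B⌉ - 1) (⌈B⌉ + 1) := by
  have h1 := Int.le_ceil B
  have h2 : |(n : ℝ)| ≤ B + 1 := by
    nlinarith [sq_nonneg (|(n : ℝ)| - 1), sq_abs (n : ℝ), abs_nonneg (n : ℝ)]
  constructor <;> · rw [← Int.cast_le (R := ℝ)]; push_cast; linarith [abs_le.mp h2]

theorem finite_qf2_le {p q r : ℝ} (hp : 0 < p) (hd : 0 < p * r - q ^ 2) (B : ℝ) :
    {v : ℤ × ℤ | qf2 p q r v.1 v.2 ≤ B}.Finite := by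
  have hr : 0 < r := by nlinarith [sq_nonneg q]
  set D := p * r - q ^ 2
  set K := (p + r) * B / D
  refine ((Set.finite_Icc (-⌈K⌉ - 1) (⌈K⌉ + 1)).prod
    (Set.finite_Icc (-⌈K⌉ - 1) (⌈K⌉ + 1))).subset ?_
  rintro ⟨y, z⟩ hv
  simp only [Set.mem_ofPred_eq, qf2] at hv
  have key : D * ((y : ℝ) ^ 2 + (z : ℝ) ^ 2) ≤ (p + r) * B := by
    have := mul_le_mul_of_nonneg_left hv (by linarith : (0:ℝ) ≤ p + r)
    nlinarith [sq_nonneg (p * y + q * z), sq_nonneg (q * y + r * z)]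
  have k2 : (y : ℝ) ^ 2 + (z : ℝ) ^ 2 ≤ K := by
    rw [le_div_iff₀ hd]; linarith
  exact ⟨mem_Icc_of_sq_le (by nlinarith [sq_nonneg (z : ℝ)]),
    mem_Icc_of_sq_le (by nlinarith [sq_nonneg (y : ℝ)])⟩

theorem exists_qf2_small {p q r : ℝ} (hp : 0 < p) (hd : 0 < p * r - q ^ 2) :
    ∃ y z : ℤ, (y ≠ 0 ∨ z ≠ 0) ∧ 3 * qf2 p q r y z ^ 2 ≤ 4 * (p * r - q ^ 2) := by
  have pos : ∀ y z : ℤ, (y ≠ 0 ∨ z ≠ 0) → 0 < qf2 p q r y z := by
    intro y z h
    simp only [qf2]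
    by_contra hc
    have h1 : p * (p * (y : ℝ) ^ 2 + 2 * q * y * z + r * (z : ℝ) ^ 2) ≤ 0 :=
      mul_nonpos_of_nonneg_of_nonpos hp.le (not_lt.mp hc)
    have hz : (z : ℝ) ^ 2 * (p * r - q ^ 2) ≤ 0 := by nlinarith [sq_nonneg (p * y + q * z)]
    have hz' : (z : ℝ) ^ 2 ≤ 0 := nonpos_of_mul_nonpos_left hz hd
    have hz0 : (z : ℝ) = 0 := by nlinarith [sq_nonneg (z : ℝ)]
    have hy0 : (y : ℝ) = 0 := by
      rw [hz0] at h1
      have : (y : ℝ) ^ 2 * p ^ 2 ≤ 0 := by linarith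
      have := nonpos_of_mul_nonpos_left this (by positivity)
      nlinarith
    rcases h with h | h
    · exact h (by exact_mod_cast hy0)
    · exact h (by exact_mod_cast hz0)
  set S := {v : ℤ × ℤ | (v.1 ≠ 0 ∨ v.2 ≠ 0) ∧ qf2 p q r v.1 v.2 ≤ qf2 p q r 1 0}
  obtain ⟨⟨y₀, z₀⟩, ⟨hne, hle⟩, hmin'⟩ :=
    S.exists_min_image (fun v => qf2 p q r v.1 v.2)
      ((finite_qf2_le hp hd _).subset fun v hv => hv.2)
      ⟨(1, 0), Or.inl one_ne_zero, le_rfl⟩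
  simp only at hne hle hmin'
  have hmin : ∀ y z : ℤ, (y ≠ 0 ∨ z ≠ 0) → qf2 p q r y₀ z₀ ≤ qf2 p q r y z := by
    intro y z h
    by_cases hc : qf2 p q r y z ≤ qf2 p q r 1 0
    · exact hmin' (y, z) ⟨h, hc⟩
    · linarith [not_le.mp hc]
  have hg : Int.gcd y₀ z₀ = 1 := by
    obtain ⟨g, hgeq⟩ : ∃ g : ℕ, Int.gcd y₀ z₀ = g := ⟨_, rfl⟩
    have g0 : g ≠ 0 := by
      rintro rfl
      rw [Int.gcd_eq_zero_iff] at hgeq
      simp [hgeq.1, hgeq.2] at hne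
    obtain ⟨y', hy⟩ := Int.gcd_dvd_left y₀ z₀
    obtain ⟨z', hz⟩ := Int.gcd_dvd_right y₀ z₀
    rw [hgeq] at hy hz ⊢
    have hne' : y' ≠ 0 ∨ z' ≠ 0 := by
      by_contra hc
      simp only [ne_eq, not_or, not_not] at hc
      simp [hy, hz, hc.1, hc.2] at hne
    have heq : qf2 p q r y₀ z₀ = (g : ℝ) ^ 2 * qf2 p q r y' z' := by
      simp only [qf2]; rw [hy, hz]; push_cast; ring
    by_contra hg1
    have h2g : (2 : ℝ) ≤ g := by exact_mod_cast (show 2 ≤ g by omega)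
    have hp2 := pos _ _ hne'
    have := hmin _ _ hne'
    have : (4 : ℝ) ≤ (g : ℝ) ^ 2 := by nlinarith
    have := mul_le_mul_of_nonneg_right this hp2.le
    linarith
  obtain ⟨u, v, huv⟩ : ∃ u v : ℤ, y₀ * v - z₀ * u = 1 := by
    refine ⟨-Int.gcdB y₀ z₀, Int.gcdA y₀ z₀, ?_⟩
    have := Int.gcd_eq_gcd_ab y₀ z₀
    rw [hg] at this; push_cast at this; linarith
  set c := qf2 p q r y₀ z₀ with hc
  have cpos : 0 < c := pos _ _ hne
  set m := p * (y₀ : ℝ) * u + q * (y₀ * v + z₀ * u) + r * z₀ * v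
  set k : ℤ := round (-m / c)
  have hk : |(-m / c) - k| ≤ 1 / 2 := abs_sub_round _
  have hne2 : k * y₀ + u ≠ 0 ∨ k * z₀ + v ≠ 0 := by
    by_contra hcon
    simp only [ne_eq, not_or, not_not] at hcon
    have : y₀ * v - z₀ * u = 0 := by linear_combination y₀ * hcon.2 - z₀ * hcon.1
    omega
  have h1 := hmin _ _ hne2
  have huvR : (y₀ : ℝ) * v - z₀ * u = 1 := by exact_mod_cast huv
  have ident : c * qf2 p q r (k * y₀ + u) (k * z₀ + v) = (c * k + m) ^ 2 + (p * r - q ^ 2) := by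
    have : c * qf2 p q r (k * y₀ + u) (k * z₀ + v)
        = (c * k + m) ^ 2 + (p * r - q ^ 2) * ((y₀ : ℝ) * v - z₀ * u) ^ 2 := by
      simp only [hc, qf2, m]; push_cast; ring
    rw [huvR] at this; linarith
  have hsq : (c * k + m) ^ 2 ≤ c ^ 2 / 4 := by
    have e : c * k + m = -c * (-m / c - k) := by field_simp; ring
    rw [e, mul_pow, neg_sq]
    have : (-m / c - k) ^ 2 ≤ (1 / 2 : ℝ) ^ 2 := sq_le_sq' (abs_le.mp hk).1 (abs_le.mp hk).2
    nlinarith [sq_nonneg c]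
  refine ⟨y₀, z₀, hne, ?_⟩
  nlinarith [mul_le_mul_of_nonneg_left h1 cpos.le]

theorem qf3_completion (a b c d e f : ℝ) (x y z : ℤ) :
    a * qf3 a b c d e f x y z = (a * x + b * y + c * z) ^ 2
      + qf2 (a * d - b ^ 2) (a * e - b * c) (a * f - c ^ 2) y z := by
  simp only [qf3, qf2]; ring

/-- Determinant of the Gram matrix. -/
def det3 (a b c d e f : ℝ) : ℝ :=
  a * (d * f - e ^ 2) - b * (b * f - c * e) + c * (b * e - c * d)

theorem det3_binary (a b c d e f : ℝ) :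
    (a * d - b ^ 2) * (a * f - c ^ 2) - (a * e - b * c) ^ 2 = a * det3 a b c d e f := by
  simp only [det3]; ring

theorem finite_qf3_le {a b c d e f : ℝ} (h1 : 0 < a) (h2 : 0 < a * d - b ^ 2)
    (h3 : 0 < det3 a b c d e f) (B : ℝ) :
    {v : ℤ × ℤ × ℤ | qf3 a b c d e f v.1 v.2.1 v.2.2 ≤ B}.Finite := by
  have hD : 0 < (a * d - b ^ 2) * (a * f - c ^ 2) - (a * e - b * c) ^ 2 := by
    rw [det3_binary]; positivity
  have hS := finite_qf2_le h2 hD (a * B)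
  set T := fun w : ℤ × ℤ => 2 * (a * B) / a ^ 2 + 2 * ((b * w.1 + c * w.2) / a) ^ 2
  refine (hS.biUnion (t := fun w => (Set.Icc (-⌈T w⌉ - 1) (⌈T w⌉ + 1)) ×ˢ {w})
    fun w _ => (Set.finite_Icc _ _).prod (Set.finite_singleton w)).subset ?_
  rintro ⟨x, y, z⟩ hv
  simp only [Set.mem_ofPred_eq] at hv
  have := qf3_completion a b c d e f x y z
  have hR : (0:ℝ) ≤ qf2 (a * d - b ^ 2) (a * e - b * c) (a * f - c ^ 2) y z := by
    simp only [qf2]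
    refine nonneg_of_mul_nonneg_right ?_ h2
    nlinarith [sq_nonneg ((a * d - b ^ 2) * y + (a * e - b * c) * z), sq_nonneg (z : ℝ)]
  have hv' := mul_le_mul_of_nonneg_left hv h1.le
  refine Set.mem_biUnion (x := (y, z)) ?_ ⟨mem_Icc_of_sq_le ?_, rfl⟩
  · simp only [Set.mem_ofPred_eq]; nlinarith [sq_nonneg (a * x + b * y + c * z)]
  · simp only [T]
    have h5 : (a * x + b * y + c * z) ^ 2 ≤ a * B := by linarith
    have key : (x : ℝ) ^ 2 * a ^ 2 ≤ 2 * (a * B) + 2 * (b * y + c * z) ^ 2 := by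
      nlinarith [sq_nonneg (a * x + 2 * (b * y + c * z))]
    have : 2 * (a * B) / a ^ 2 + 2 * ((b * y + c * z) / a) ^ 2
        = (2 * (a * B) + 2 * (b * y + c * z) ^ 2) / a ^ 2 := by field_simp
    rw [this, le_div_iff₀ (by positivity)]; exact key

theorem exists_basis_of_primitive {x y z : ℤ}
    (hprim : ∀ (g x' y' z' : ℤ), x = g * x' → y = g * y' → z = g * z' → g = 1 ∨ g = -1) :
    ∃ u₁ u₂ u₃ w₁ w₂ w₃ : ℤ,
      x * (u₂ * w₃ - u₃ * w₂) - y * (u₁ * w₃ - u₃ * w₁) + z * (u₁ * w₂ - u₂ * w₁) = 1 ∨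
      x * (u₂ * w₃ - u₃ * w₂) - y * (u₁ * w₃ - u₃ * w₁) + z * (u₁ * w₂ - u₂ * w₁) = -1 := by
  by_cases h0 : y = 0 ∧ z = 0
  · obtain ⟨rfl, rfl⟩ := h0
    refine ⟨0, 1, 0, 0, 0, 1, ?_⟩
    simpa using hprim x 1 0 0 (by ring) (by ring) (by ring)
  · obtain ⟨g, hgdef⟩ : ∃ g : ℤ, g = ((Int.gcd y z : ℕ) : ℤ) := ⟨_, rfl⟩
    have g0 : g ≠ 0 := by
      simpa [hgdef, Int.gcd_eq_zero_iff] using h0
    obtain ⟨y', hy⟩ : g ∣ y := hgdef ▸ Int.gcd_dvd_left y z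
    obtain ⟨z', hz⟩ : g ∣ z := hgdef ▸ Int.gcd_dvd_right y z
    have hst : y' * Int.gcdA y z + z' * Int.gcdB y z = 1 := by
      apply mul_left_cancel₀ g0
      linear_combination -(Int.gcd_eq_gcd_ab y z) - Int.gcdA y z * hy - Int.gcdB y z * hz - hgdef
    have hk : Int.gcd x g = 1 := by
      obtain ⟨x', hx⟩ : ((Int.gcd x g : ℤ)) ∣ x := Int.gcd_dvd_left x g
      obtain ⟨g', hg'⟩ : ((Int.gcd x g : ℤ)) ∣ g := Int.gcd_dvd_right x g
      rcases hprim _ x' (g' * y') (g' * z') hx (by rw [← mul_assoc, ← hg', ← hy])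
        (by rw [← mul_assoc, ← hg', ← hz]) with h | h <;> omega
    have hhk := Int.gcd_eq_gcd_ab x g
    rw [hk] at hhk; push_cast at hhk
    set s := Int.gcdA y z
    set t := Int.gcdB y z
    set h := Int.gcdA x g
    set k := Int.gcdB x g
    refine ⟨-k, h * y', h * z', 0, -t, s, Or.inl ?_⟩
    linear_combination (x * h) * hst + (k * s) * hy + (k * t) * hz + (g * k) * hst - hhk

theorem sq_round_le {V : ℝ} (hV : V ≠ 0) (m : ℝ) :
    (V * (round (-m / V) : ℤ) + m) ^ 2 ≤ V ^ 2 / 4 := by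
  have h := abs_sub_round (-m / V)
  have e : V * (round (-m / V) : ℤ) + m = -V * (-m / V - (round (-m / V) : ℤ)) := by
    field_simp; ring
  rw [e, mul_pow, neg_sq]
  have := sq_le_sq' (abs_le.mp h).1 (abs_le.mp h).2
  nlinarith [sq_nonneg V]

/-- The bound, for a form taking its minimum at the first basis vector. -/
theorem qf3_min_bound {a b c d e f : ℝ} (ha : 0 < a) (hdet : 0 < det3 a b c d e f)
    (hmin : ∀ x y z : ℤ, (y ≠ 0 ∨ z ≠ 0) → a ≤ qf3 a b c d e f x y z) :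
    27 * a ^ 3 ≤ 64 * det3 a b c d e f := by
  have key : ∀ y z : ℤ, (y ≠ 0 ∨ z ≠ 0) →
      3 * a ^ 2 / 4 ≤ qf2 (a * d - b ^ 2) (a * e - b * c) (a * f - c ^ 2) y z := by
    intro y z hyz
    have h1 := hmin (round (-(b * y + c * z) / a)) y z hyz
    have h2 := qf3_completion a b c d e f (round (-(b * y + c * z) / a)) y z
    have h3 := sq_round_le ha.ne' (b * y + c * z)
    nlinarith [mul_le_mul_of_nonneg_left h1 ha.le]
  have hp : 0 < a * d - b ^ 2 := by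
    have := key 1 0 (Or.inl one_ne_zero)
    simp [qf2] at this
    nlinarith
  obtain ⟨y, z, hyz, hsmall⟩ := exists_qf2_small (r := a * f - c ^ 2) (q := a * e - b * c) hp
    (by rw [det3_binary]; positivity)
  rw [det3_binary] at hsmall
  have hR2 := pow_le_pow_left₀ (by positivity) (key y z hyz) 2
  have : a * (27 * a ^ 3) ≤ a * (64 * det3 a b c d e f) := by nlinarith
  exact le_of_mul_le_mul_left this ha

/-- Hermite: a positive definite ternary form has a nonzero integer value `Q` with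
`Q³ ≤ 64/27 det`. -/
theorem exists_qf3_small {a b c d e f : ℝ} (h1 : 0 < a) (h2 : 0 < a * d - b ^ 2)
    (h3 : 0 < det3 a b c d e f) :
    ∃ x y z : ℤ, (x ≠ 0 ∨ y ≠ 0 ∨ z ≠ 0) ∧
      27 * qf3 a b c d e f x y z ^ 3 ≤ 64 * det3 a b c d e f := by
  have hD : 0 < (a * d - b ^ 2) * (a * f - c ^ 2) - (a * e - b * c) ^ 2 := by
    rw [det3_binary]; positivity
  have pos : ∀ x y z : ℤ, (x ≠ 0 ∨ y ≠ 0 ∨ z ≠ 0) → 0 < qf3 a b c d e f x y z := by
    intro x y z h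
    refine pos_of_mul_pos_right (a := a) ?_ h1.le
    rw [qf3_completion]
    by_cases hyz : y = 0 ∧ z = 0
    · obtain ⟨rfl, rfl⟩ := hyz
      have : (x : ℝ) ≠ 0 := by simpa using h
      simp [qf2]; positivity
    · have hR : 0 < qf2 (a * d - b ^ 2) (a * e - b * c) (a * f - c ^ 2) y z := by
        refine pos_of_mul_pos_right (a := a * d - b ^ 2) ?_ h2.le
        by_cases hz : z = 0
        · have hy : (y : ℝ) ≠ 0 := by simp [hz] at hyz; exact_mod_cast hyz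
          simp [qf2, hz]; positivity
        · have hz' : (0 : ℝ) < (z : ℝ) ^ 2 := by positivity
          simp only [qf2]
          nlinarith [sq_nonneg ((a * d - b ^ 2) * y + (a * e - b * c) * z), mul_pos hz' hD]
      positivity
  set S := {v : ℤ × ℤ × ℤ | (v.1 ≠ 0 ∨ v.2.1 ≠ 0 ∨ v.2.2 ≠ 0) ∧
    qf3 a b c d e f v.1 v.2.1 v.2.2 ≤ qf3 a b c d e f 1 0 0}
  obtain ⟨⟨x₀, y₀, z₀⟩, ⟨hne, hle⟩, hmin'⟩ :=
    S.exists_min_image (fun v => qf3 a b c d e f v.1 v.2.1 v.2.2)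
      ((finite_qf3_le h1 h2 h3 _).subset fun v hv => hv.2)
      ⟨(1, 0, 0), Or.inl one_ne_zero, le_rfl⟩
  simp only at hne hle hmin'
  have hmin : ∀ x y z : ℤ, (x ≠ 0 ∨ y ≠ 0 ∨ z ≠ 0) →
      qf3 a b c d e f x₀ y₀ z₀ ≤ qf3 a b c d e f x y z := by
    intro x y z h
    by_cases hc : qf3 a b c d e f x y z ≤ qf3 a b c d e f 1 0 0
    · exact hmin' (x, y, z) ⟨h, hc⟩
    · linarith [not_le.mp hc]
  have hprim : ∀ (g x' y' z' : ℤ), x₀ = g * x' → y₀ = g * y' → z₀ = g * z' → g = 1 ∨ g = -1 := by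
    intro g x' y' z' hx hy hz
    have g0 : g ≠ 0 := by rintro rfl; simp [hx, hy, hz] at hne
    have hne' : x' ≠ 0 ∨ y' ≠ 0 ∨ z' ≠ 0 := by
      by_contra hc
      simp only [ne_eq, not_or, not_not] at hc
      simp [hx, hy, hz, hc.1, hc.2.1, hc.2.2] at hne
    have heq : qf3 a b c d e f x₀ y₀ z₀ = (g : ℝ) ^ 2 * qf3 a b c d e f x' y' z' := by
      simp only [qf3]; rw [hx, hy, hz]; push_cast; ring
    by_contra hg1
    simp only [not_or] at hg1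
    have h4 : (4 : ℤ) ≤ g ^ 2 := by
      rcases (show g ≤ -2 ∨ 2 ≤ g by omega) with hg | hg <;> nlinarith
    have h4' : (4 : ℝ) ≤ (g : ℝ) ^ 2 := by exact_mod_cast h4
    have hp2 := pos _ _ _ hne'
    have := hmin _ _ _ hne'
    have := mul_le_mul_of_nonneg_right h4' hp2.le
    linarith
  obtain ⟨u₁, u₂, u₃, w₁, w₂, w₃, hdet⟩ := exists_basis_of_primitive hprim
  set V := qf3 a b c d e f x₀ y₀ z₀ with hV
  have cpos : 0 < V := pos _ _ _ hne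
  -- the form in the new basis
  let B := fun (p₁ p₂ p₃ q₁ q₂ q₃ : ℝ) => a * p₁ * q₁ + b * (p₁ * q₂ + p₂ * q₁)
    + c * (p₁ * q₃ + p₃ * q₁) + d * p₂ * q₂ + e * (p₂ * q₃ + p₃ * q₂) + f * p₃ * q₃
  set b' := B x₀ y₀ z₀ u₁ u₂ u₃ with hb'
  set c' := B x₀ y₀ z₀ w₁ w₂ w₃ with hc'
  set d' := B u₁ u₂ u₃ u₁ u₂ u₃ with hd'
  set e' := B u₁ u₂ u₃ w₁ w₂ w₃ with he'
  set f' := B w₁ w₂ w₃ w₁ w₂ w₃ with hf'
  have hchange : ∀ x y z : ℤ, qf3 a b c d e f (x * x₀ + y * u₁ + z * w₁)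
      (x * y₀ + y * u₂ + z * w₂) (x * z₀ + y * u₃ + z * w₃) = qf3 V b' c' d' e' f' x y z := by
    intro x y z
    simp only [hV, hb', hc', hd', he', hf', B, qf3]; push_cast; ring
  have hdetEq : det3 V b' c' d' e' f' = det3 a b c d e f := by
    have e1 : det3 V b' c' d' e' f' = det3 a b c d e f *
        ((x₀ : ℝ) * (u₂ * w₃ - u₃ * w₂) - y₀ * (u₁ * w₃ - u₃ * w₁)
          + z₀ * (u₁ * w₂ - u₂ * w₁)) ^ 2 := by
      simp only [hV, hb', hc', hd', he', hf', B, qf3, det3]; ring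
    rcases hdet with h | h
    · have := congrArg (Int.cast : ℤ → ℝ) h; push_cast at this; rw [e1, this]; ring
    · have := congrArg (Int.cast : ℤ → ℝ) h; push_cast at this; rw [e1, this]; ring
  have hne' : ∀ x y z : ℤ, (y ≠ 0 ∨ z ≠ 0) →
      x * x₀ + y * u₁ + z * w₁ ≠ 0 ∨ x * y₀ + y * u₂ + z * w₂ ≠ 0 ∨
        x * z₀ + y * u₃ + z * w₃ ≠ 0 := by
    intro x y z hyz
    by_contra hcon
    simp only [ne_eq, not_or, not_not] at hcon
    obtain ⟨e1, e2, e3⟩ := hcon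
    have hy : y * (x₀ * (u₂ * w₃ - u₃ * w₂) - y₀ * (u₁ * w₃ - u₃ * w₁)
        + z₀ * (u₁ * w₂ - u₂ * w₁)) = 0 := by
      linear_combination -(y₀ * w₃ - z₀ * w₂) * e1 + (x₀ * w₃ - z₀ * w₁) * e2
        - (x₀ * w₂ - y₀ * w₁) * e3
    have hz : z * (x₀ * (u₂ * w₃ - u₃ * w₂) - y₀ * (u₁ * w₃ - u₃ * w₁)
        + z₀ * (u₁ * w₂ - u₂ * w₁)) = 0 := by
      linear_combination (y₀ * u₃ - z₀ * u₂) * e1 - (x₀ * u₃ - z₀ * u₁) * e2
        + (x₀ * u₂ - y₀ * u₁) * e3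
    rcases hdet with h | h <;> rw [h] at hy hz <;> simp at hy hz <;> simp [hy, hz] at hyz
  refine ⟨x₀, y₀, z₀, hne, ?_⟩
  rw [← hdetEq]
  refine qf3_min_bound cpos (hdetEq ▸ h3) fun x y z hyz => ?_
  rw [← hchange]
  exact hmin _ _ _ (hne' x y z hyz)

end FLTA.EllPoints.Eleven
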