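import Mathlib.Tactic
import Mathlib.Data.Real.Sqrt
import Mathlib.Topology.Order.IntermediateValue
import Fermat.Agent.EllPoints.ElevenHermite
import Fermat.Agent.EllPoints.ElevenCubic

/-!
The descent step: if `N(a - bφ) = κw²` then `κ(a - bφ)` is a square in `ℤ[φ]`.
-/

set_option autoImplicit false

namespace FLTA.EllPoints.Eleven

/-- Numerical data on the roots `p`, `re ± i·im` of `X³ - 2X² + 2`. -/
structure RootData (p re im : ℝ) : Prop where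
  root : p ^ 3 - 2 * p ^ 2 + 2 = 0
  p_lo : -0.8393 ≤ p
  p_hi : p ≤ -0.8392
  re_eq : re = (2 - p) / 2
  im_sq : im ^ 2 = p ^ 2 - 2 * p - re ^ 2
  im_lo : 0.605 ≤ im
  im_hi : im ≤ 0.608

theorem exists_rootData : ∃ p re im : ℝ, RootData p re im := by
  have hc : Continuous fun x : ℝ => x ^ 3 - 2 * x ^ 2 + 2 := by fun_prop
  obtain ⟨p, ⟨h1, h2⟩, hp⟩ := intermediate_value_Icc (show (-0.8393 : ℝ) ≤ -0.8392 by norm_num)
    hc.continuousOn (show (0 : ℝ) ∈ Set.Icc ((-0.8393 : ℝ) ^ 3 - 2 * (-0.8393) ^ 2 + 2)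
      ((-0.8392 : ℝ) ^ 3 - 2 * (-0.8392) ^ 2 + 2) by constructor <;> norm_num)
  have h3 : (0.605 : ℝ) ^ 2 ≤ p ^ 2 - 2 * p - ((2 - p) / 2) ^ 2 := by nlinarith
  have h4 : p ^ 2 - 2 * p - ((2 - p) / 2) ^ 2 ≤ (0.608 : ℝ) ^ 2 := by nlinarith
  refine ⟨p, (2 - p) / 2, √(p ^ 2 - 2 * p - ((2 - p) / 2) ^ 2), hp, h1, h2, rfl, ?_, ?_, ?_⟩
  · rw [Real.sq_sqrt]; nlinarith
  · exact Real.le_sqrt_of_sq_le h3
  · rw [Real.sqrt_le_left (by norm_num)]; exact h4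

/-- Cast of a triple to the reals. -/
noncomputable def castR (u : ℤ × ℤ × ℤ) : ℝ × ℝ × ℝ := (u.1, u.2.1, u.2.2)

theorem castR_mulC (u v : ℤ × ℤ × ℤ) : castR (mulC u v) = mulC (castR u) (castR v) := by
  simp only [castR, mulC]; push_cast; rfl

theorem castR_smC (k : ℤ) (u : ℤ × ℤ × ℤ) : castR (smC k u) = smC (k : ℝ) (castR u) := by
  simp only [castR, smC]; push_cast; rfl

theorem castR_nmC (u : ℤ × ℤ × ℤ) : nmC (castR u) = ((nmC u : ℤ) : ℝ) :=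
  nmC_map (Int.castRingHom ℝ) u

theorem adjC_mulC {R : Type*} [CommRing R] (u v : R × R × R) :
    adjC (mulC u v) = mulC (adjC u) (adjC v) := by
  simp only [adjC, mulC, Prod.mk.injEq]; refine ⟨?_, ?_, ?_⟩ <;> ring

theorem adjC_smC {R : Type*} [CommRing R] (k : R) (u : R × R × R) :
    adjC (smC k u) = smC (k ^ 2) (adjC u) := by
  simp only [adjC, smC, Prod.mk.injEq]; refine ⟨?_, ?_, ?_⟩ <;> ring

section roots

variable {p re im : ℝ} (D : RootData p re im)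
include D

theorem evC_adjC (u : ℝ × ℝ × ℝ) :
    evC (adjC u) p = (u.1 + u.2.1 * re + u.2.2 * (re ^ 2 - im ^ 2)) ^ 2
      + (im * (u.2.1 + 2 * u.2.2 * re)) ^ 2 := by
  rw [mul_pow, D.im_sq, D.re_eq]
  simp only [evC, adjC]
  linear_combination (u.2.1 * u.2.2 - u.2.2 ^ 2 * (p - 2)) * D.root

theorem gram_det_sq : im ^ 2 * ((re - p) ^ 2 + im ^ 2) ^ 2 = 11 := by
  rw [D.im_sq, D.re_eq]
  linear_combination ((27 / 4) * p ^ 3 - (27 / 2) * p ^ 2 - 11 / 2) * D.root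

theorem nm_eq_evC_mul (u : ℝ × ℝ × ℝ) : nmC u = evC u p * evC (adjC u) p := by
  rw [evC_mul_adjC, D.root]; ring

/-- Coefficient bounds from bounds on the embeddings. -/
theorem coeff_bound {A B C : ℤ} (T : ℝ) (hT : 0 ≤ T)
    (hT2 : evC (adjC (castR (A, B, C))) p = T ^ 2) (hpos : 0 ≤ evC (castR (A, B, C)) p)
    (hS : evC (castR (A, B, C)) p + 2 * T ≤ 7.5) :
    A ∈ Finset.Icc (-12 : ℤ) 12 ∧ B ∈ Finset.Icc (-3 : ℤ) 3 ∧ C ∈ Finset.Icc (-3 : ℤ) 3 := by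
  rw [evC_adjC D] at hT2
  simp only [evC, castR] at hT2 hpos hS
  obtain ⟨-, hp1, hp2, hre, him2, him1, him3⟩ := D
  set R := (A : ℝ) + B * re + C * (re ^ 2 - im ^ 2) with hR
  set L := (B : ℝ) + 2 * C * re with hL
  set g := (A : ℝ) + B * p + C * p ^ 2 with hg
  have hR' : |R| ≤ T := abs_le_of_sq_le_sq (by nlinarith [sq_nonneg (im * L)]) hT
  have hI : |im * L| ≤ T := abs_le_of_sq_le_sq (by nlinarith [sq_nonneg R]) hT
  rw [abs_mul, abs_of_nonneg (by linarith : (0:ℝ) ≤ im)] at hI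
  have hL' : |L| ≤ 1.653 * T := by nlinarith [abs_nonneg L]
  have hC : (C : ℝ) * ((p - re) ^ 2 + im ^ 2) = g - R - (p - re) * L := by
    simp only [hR, hL, hg]; ring
  have hB : (B : ℝ) * ((p - re) ^ 2 + im ^ 2)
      = L * ((p - re) ^ 2 + im ^ 2 + 2 * re * (p - re)) - 2 * re * (g - R) := by
    rw [← eq_sub_iff_add_eq] at hL
    linear_combination -((p - re) ^ 2 + im ^ 2) * hL - 2 * re * hC
  have hA : (A : ℝ) = g - B * p - C * p ^ 2 := by simp only [hg]; ring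
  have hre1 : 1.4196 ≤ re := by rw [hre]; linarith
  have hre2 : re ≤ 1.41965 := by rw [hre]; linarith
  have hd1 : 2.2588 ≤ -(p - re) := by linarith
  have hd2 : -(p - re) ≤ 2.259 := by linarith
  have hd3 := mul_le_mul hd1 hd1 (by norm_num) (by linarith)
  have hd4 := mul_le_mul hd2 hd2 (by linarith) (by norm_num)
  have hi3 := mul_le_mul him1 him1 (by norm_num) (by linarith)
  have hi4 := mul_le_mul him3 him3 (by linarith) (by norm_num)
  have hr3 := mul_le_mul hre1 hd1 (by norm_num) (by linarith)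
  have hr4 := mul_le_mul hre2 hd2 (by linarith) (by norm_num)
  have hT1 : 5.46 ≤ (p - re) ^ 2 + im ^ 2 := by linarith
  have hT3 : (p - re) ^ 2 + im ^ 2 ≤ 5.48 := by linarith
  obtain ⟨hR1, hR2⟩ := abs_le.mp hR'
  obtain ⟨hL1, hL2⟩ := abs_le.mp hL'
  have hC1 : |(C : ℝ) * ((p - re) ^ 2 + im ^ 2)| ≤ 18 := by
    rw [hC]
    refine (abs_sub _ _).trans ?_
    rw [abs_mul, abs_of_nonpos (by linarith : p - re ≤ 0)]
    have h1 := mul_le_mul hd2 hL' (abs_nonneg _) (by norm_num)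
    have h2 : |g - R| ≤ g + T := by rw [abs_le]; constructor <;> linarith
    linarith
  have hK : |(p - re) ^ 2 + im ^ 2 + 2 * re * (p - re)| ≤ 1 := by
    rw [abs_le]; constructor <;> linarith
  have hB1 : |(B : ℝ) * ((p - re) ^ 2 + im ^ 2)| ≤ 21.5 := by
    rw [hB]
    refine (abs_sub _ _).trans ?_
    rw [abs_mul, abs_mul, abs_of_nonneg (by linarith : (0:ℝ) ≤ 2 * re)]
    have h1 := mul_le_mul hL' hK (abs_nonneg _) (by linarith)
    have h2 : |g - R| ≤ g + T := by rw [abs_le]; constructor <;> linarith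
    have h3 := mul_le_mul (by linarith : 2 * re ≤ 2.8393) h2 (abs_nonneg _) (by norm_num)
    linarith
  rw [abs_mul, abs_of_nonneg (by linarith : (0:ℝ) ≤ (p - re) ^ 2 + im ^ 2)] at hC1 hB1
  have hC4 := mul_le_mul_of_nonneg_left hT1 (abs_nonneg (C : ℝ))
  have hB4 := mul_le_mul_of_nonneg_left hT1 (abs_nonneg (B : ℝ))
  have hCR : |(C : ℝ)| < 4 := by linarith
  have hBR : |(B : ℝ)| < 4 := by linarith
  have hCZ : |C| < 4 := by exact_mod_cast hCR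
  have hBZ : |B| < 4 := by exact_mod_cast hBR
  rw [abs_lt] at hCZ hBZ
  refine ⟨?_, Finset.mem_Icc.2 ⟨by omega, by omega⟩, Finset.mem_Icc.2 ⟨by omega, by omega⟩⟩
  have hCR3 : |(C : ℝ)| ≤ 3 := by
    exact_mod_cast (abs_le.2 ⟨by omega, by omega⟩ : |C| ≤ 3)
  have hBR3 : |(B : ℝ)| ≤ 3 := by
    exact_mod_cast (abs_le.2 ⟨by omega, by omega⟩ : |B| ≤ 3)
  have hAR : |(A : ℝ)| < 13 := by
    rw [hA, abs_lt]
    obtain ⟨b1, b2⟩ := abs_le.mp hBR3
    obtain ⟨c1, c2⟩ := abs_le.mp hCR3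
    have hBp : |(B : ℝ) * p| ≤ 3 * 0.8393 := by
      rw [abs_mul]
      exact mul_le_mul hBR3 (abs_le.2 ⟨by linarith, by linarith⟩) (abs_nonneg _) (by norm_num)
    have hCp : |(C : ℝ) * p ^ 2| ≤ 3 * (0.8393 * 0.8393) := by
      rw [abs_mul, abs_pow, pow_two]
      have h' : |p| ≤ 0.8393 := abs_le.2 ⟨by linarith, by linarith⟩
      exact mul_le_mul hCR3 (mul_le_mul h' h' (abs_nonneg _) (by norm_num)) (by positivity)
        (by norm_num)
    have := abs_le.mp hBp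
    have := abs_le.mp hCp
    constructor <;> linarith
  have hAZ : |A| < 13 := by exact_mod_cast hAR
  rw [abs_lt] at hAZ
  exact Finset.mem_Icc.2 ⟨by omega, by omega⟩

end roots

theorem numeric_bounds {g T κ m : ℝ} (hg : 0 ≤ g) (hT : 0 ≤ T) (hκ0 : 0 < κ) (hκ2 : κ ≤ 2)
    (hS : 27 * (g + 2 * T) ^ 3 ≤ 2816 * κ ^ 2) (e : κ ^ 2 * m ^ 2 = g * T ^ 2) :
    g + 2 * T ≤ 7.5 ∧ m ^ 2 < 4 := by
  have hamgm : 27 * (g * T ^ 2) ≤ (g + 2 * T) ^ 3 := by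
    nlinarith [mul_nonneg (sq_nonneg (g - T)) (by linarith : (0:ℝ) ≤ g + 8 * T)]
  constructor
  · by_contra hc
    have h1 : (7.5 : ℝ) ^ 3 < (g + 2 * T) ^ 3 :=
      pow_lt_pow_left₀ (not_le.mp hc) (by norm_num) (by norm_num)
    have h2 : κ ^ 2 ≤ 2 ^ 2 := pow_le_pow_left₀ hκ0.le hκ2 2
    linarith
  · by_contra hc
    have h5 := mul_le_mul_of_nonneg_left (not_lt.mp hc) (sq_nonneg κ)
    have : 0 < κ ^ 2 := by positivity
    linarith

set_option maxHeartbeats 1000000 in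
theorem exists_gamma {a b w κ : ℤ} (hκ : κ = 1 ∨ κ = 2) (hcop : IsCoprime b w) (hw : w ≠ 0)
    (hG : lineNorm a b = κ * w ^ 2) :
    ∃ γ z : ℤ × ℤ × ℤ, mulC (a, -b, 0) γ = smC κ (mulC z z) ∧ nmC γ = κ ^ 2 ∧
      γ.1 ∈ Finset.Icc (-12 : ℤ) 12 ∧ γ.2.1 ∈ Finset.Icc (-3 : ℤ) 3 ∧
        γ.2.2 ∈ Finset.Icc (-3 : ℤ) 3 := by
  obtain ⟨p, re, im, D⟩ := exists_rootData
  have hκ0 : (0 : ℝ) < (κ : ℝ) := by rcases hκ with rfl | rfl <;> norm_num
  have hκ2 : (κ : ℝ) ≤ 2 := by rcases hκ with rfl | rfl <;> norm_num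
  -- the root mod w
  obtain ⟨u, v, huv⟩ := hcop
  obtain ⟨r, hr⟩ : ∃ r, r = a * u := ⟨_, rfl⟩
  have hra : w ∣ r * b - a := ⟨-a * v, by subst hr; linear_combination a * huv⟩
  have hcop : IsCoprime b w := ⟨u, v, huv⟩
  have hgr : w ∣ r ^ 3 - 2 * r ^ 2 + 2 := by
    have h1 : w ∣ b ^ 3 * (r ^ 3 - 2 * r ^ 2 + 2) := by
      have h2 : b ^ 3 * (r ^ 3 - 2 * r ^ 2 + 2) = (r * b - a) *
          ((r * b) ^ 2 + r * b * a + a ^ 2 - 2 * b * (r * b + a)) + lineNorm a b := by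
        simp only [lineNorm]; ring
      rw [h2, hG]
      exact dvd_add (hra.mul_right _) ⟨κ * w, by ring⟩
    exact hcop.symm.pow_right.dvd_of_dvd_mul_left h1
  -- real data
  obtain ⟨B1, hB1⟩ : ∃ B1, B1 = (a : ℝ) - b * p := ⟨_, rfl⟩
  obtain ⟨h, hh⟩ : ∃ h, h = evC (adjC (castR (a, -b, 0))) p := ⟨_, rfl⟩
  have hB1' : evC (castR (a, -b, 0)) p = B1 := by simp [evC, castR, hB1]; ring
  have hwR : (0:ℝ) < (w : ℝ) ^ 2 := by positivity
  have hB1h : B1 * h = κ * (w : ℝ) ^ 2 := by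
    rw [← hB1', hh, ← nm_eq_evC_mul D, castR_nmC, nmC_line, hG]; push_cast; ring
  have him : 0 < im := by linarith [D.im_lo]
  have hpos : 0 < h := by
    rcases lt_trichotomy h 0 with hl | hl | hl
    · rw [hh, evC_adjC D] at hl; nlinarith [sq_nonneg ((castR (a, -b, 0)).1 +
        (castR (a, -b, 0)).2.1 * re + (castR (a, -b, 0)).2.2 * (re ^ 2 - im ^ 2)),
        sq_nonneg (im * ((castR (a, -b, 0)).2.1 + 2 * (castR (a, -b, 0)).2.2 * re))]
    · rw [hl] at hB1h; nlinarith [mul_pos hκ0 hwR]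
    · exact hl
  have hB1pos : 0 < B1 := pos_of_mul_pos_left (hB1h ▸ mul_pos hκ0 hwR) hpos.le
  obtain ⟨sh, hsh⟩ : ∃ sh, sh = √h := ⟨_, rfl⟩
  have shpos : 0 < sh := hsh ▸ Real.sqrt_pos.2 hpos
  have sh2 : sh ^ 2 = h := hsh ▸ Real.sq_sqrt hpos.le
  -- the form
  obtain ⟨W1, hW1⟩ : ∃ W, W = 1 / B1 := ⟨_, rfl⟩
  obtain ⟨W2, hW2⟩ : ∃ W, W = 2 / sh := ⟨_, rfl⟩
  have hW1p : 0 < W1 := hW1 ▸ by positivity
  have hW2p : 0 < W2 := hW2 ▸ by positivity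
  let l12 : ℝ := p - r
  let l13 : ℝ := p ^ 2 - (r : ℝ) ^ 2
  let l22 : ℝ := re - r
  let l23 : ℝ := re ^ 2 - im ^ 2 - (r : ℝ) ^ 2
  obtain ⟨x, y, zz, hne, hsmall⟩ := exists_qf3_small
    (a := W1 * w * w + W2 * (w * w)) (b := W1 * w * l12 + W2 * (w * l22))
    (c := W1 * w * l13 + W2 * (w * l23))
    (d := W1 * l12 * l12 + W2 * (l22 * l22 + im * im))
    (e := W1 * l12 * l13 + W2 * (l22 * l23 + im * (2 * re * im)))
    (f := W1 * l13 * l13 + W2 * (l23 * l23 + (2 * re * im) * (2 * re * im)))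
    (by
      have := mul_pos (add_pos hW1p hW2p) hwR
      linarith)
    (by
      have e1 : (W1 * w * w + W2 * (w * w)) * (W1 * l12 * l12 + W2 * (l22 * l22 + im * im))
          - (W1 * w * l12 + W2 * (w * l22)) ^ 2
          = W1 * W2 * ((w * l22 - w * l12) ^ 2 + (w * im) ^ 2) + W2 * W2 * (w * im) ^ 2 := by ring
      rw [e1]
      have : 0 < (w * im : ℝ) ^ 2 := by positivity
      positivity)
    (by
      have e1 := gram_det_sq D
      have : (0:ℝ) < W1 * W2 ^ 2 * (w : ℝ) ^ 2 * 11 := by positivity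
      refine this.trans_eq ?_
      rw [← e1]; simp only [det3, l12, l13, l22, l23]; ring)
  obtain ⟨z, hz⟩ : ∃ z : ℤ × ℤ × ℤ, z = (w * x - r * y - r ^ 2 * zz, y, zz) := ⟨_, rfl⟩
  have hz0 : z ≠ 0 := by
    intro hcon
    rw [hz] at hcon
    simp only [Prod.mk_eq_zero] at hcon
    obtain ⟨e1, rfl, rfl⟩ := hcon
    simp [hw] at e1
    simp [e1] at hne
  obtain ⟨t1, ht1⟩ : ∃ t, t = evC (castR z) p := ⟨_, rfl⟩
  obtain ⟨t2, ht2⟩ : ∃ t, t = evC (adjC (castR z)) p := ⟨_, rfl⟩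
  have hq : qf3 (W1 * w * w + W2 * (w * w)) (W1 * w * l12 + W2 * (w * l22))
    (W1 * w * l13 + W2 * (w * l23)) (W1 * l12 * l12 + W2 * (l22 * l22 + im * im))
    (W1 * l12 * l13 + W2 * (l22 * l23 + im * (2 * re * im)))
    (W1 * l13 * l13 + W2 * (l23 * l23 + (2 * re * im) * (2 * re * im))) x y zz
      = W1 * t1 ^ 2 + W2 * t2 := by
    rw [ht2, evC_adjC D, ht1, hz]
    simp only [qf3, evC, castR, l12, l13, l22, l23]; push_cast; ring
  have hdetv : det3 (W1 * w * w + W2 * (w * w)) (W1 * w * l12 + W2 * (w * l22))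
    (W1 * w * l13 + W2 * (w * l23)) (W1 * l12 * l12 + W2 * (l22 * l22 + im * im))
    (W1 * l12 * l13 + W2 * (l22 * l23 + im * (2 * re * im)))
    (W1 * l13 * l13 + W2 * (l23 * l23 + (2 * re * im) * (2 * re * im)))
      = 44 / κ := by
    have e2 : W1 * W2 ^ 2 * (w : ℝ) ^ 2 * 11 = 44 / κ := by
      rw [hW1, hW2, div_pow, sh2]
      field_simp
      linear_combination (-44 : ℝ) * hB1h
    rw [← e2, ← gram_det_sq D]; simp only [det3, l12, l13, l22, l23]; ring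
  rw [hq, hdetv] at hsmall
  -- the element γ
  have hzr : w ∣ evC z r := ⟨x, by rw [hz]; simp only [evC]; ring⟩
  obtain ⟨Z, hZdef⟩ : ∃ Z, Z = z.1 * b ^ 2 + z.2.1 * a * b + z.2.2 * a ^ 2 := ⟨_, rfl⟩
  have hZ : w ∣ Z := by
    have e : Z = b ^ 2 * evC z r - (r * b - a) * (z.2.1 * b + z.2.2 * (r * b + a)) := by
      rw [hZdef]; simp only [evC]; ring
    rw [e]; exact dvd_sub (hzr.mul_left _) (hra.mul_right _)
  obtain ⟨c, hc⟩ : ∃ c, c = adjC (a, -b, (0:ℤ)) := ⟨_, rfl⟩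
  let e1 : ℤ × ℤ × ℤ := (z.2.1 * b + z.2.2 * a, z.2.2 * b, 0)
  obtain ⟨E, hE⟩ : ∃ E, E = mulC (smC (b ^ 2) z) e1 := ⟨_, rfl⟩
  have key : smC (b ^ 4) (mulC (mulC z z) c) = (Z * Z * c.1 - lineNorm a b * (Z * e1.1 + E.1),
      Z * Z * c.2.1 - lineNorm a b * (Z * e1.2.1 + E.2.1),
      Z * Z * c.2.2 - lineNorm a b * (Z * e1.2.2 + E.2.2)) := by
    rw [hE, hZdef, hc]
    simp only [e1, mulC, adjC, smC, lineNorm, Prod.mk.injEq]; refine ⟨?_, ?_, ?_⟩ <;> ring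
  have hdvd : ∀ s t : ℤ, w ^ 2 ∣ Z * Z * s - lineNorm a b * t := fun s t =>
    dvd_sub (((pow_two w).symm ▸ mul_dvd_mul hZ hZ).mul_right s) ⟨κ * t, by rw [hG]; ring⟩
  simp only [smC, Prod.mk.injEq] at key
  have hcop2 : IsCoprime (w ^ 2) (b ^ 4) := hcop.symm.pow
  obtain ⟨k1, k2, k3⟩ := key
  obtain ⟨γ1, hγ1⟩ := hcop2.dvd_of_dvd_mul_left (k1 ▸ hdvd _ _)
  obtain ⟨γ2, hγ2⟩ := hcop2.dvd_of_dvd_mul_left (k2 ▸ hdvd _ _)
  obtain ⟨γ3, hγ3⟩ := hcop2.dvd_of_dvd_mul_left (k3 ▸ hdvd _ _)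
  have hγ : mulC (mulC z z) c = smC (w ^ 2) (γ1, γ2, γ3) := by
    simp only [smC, Prod.ext_iff]; exact ⟨hγ1, hγ2, hγ3⟩
  obtain ⟨γ, hγdef⟩ : ∃ γ, γ = (γ1, γ2, γ3) := ⟨_, rfl⟩
  rw [← hγdef] at hγ
  have hw2 : w ^ 2 ≠ 0 := pow_ne_zero _ hw
  have hrel : mulC (a, -b, 0) γ = smC κ (mulC z z) := by
    have e : smC (w ^ 2) (mulC (a, -b, 0) γ) = smC (w ^ 2) (smC κ (mulC z z)) := by
      rw [← mulC_smC, ← hγ, mulC_comm (mulC z z), ← mulC_assoc, hc, mulC_adjC, nmC_line, hG]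
      simp only [mulC, smC, Prod.mk.injEq]; refine ⟨?_, ?_, ?_⟩ <;> ring
    simp only [smC, Prod.ext_iff] at e ⊢
    exact ⟨mul_left_cancel₀ hw2 e.1, mul_left_cancel₀ hw2 e.2.1, mul_left_cancel₀ hw2 e.2.2⟩
  -- norm
  obtain ⟨m, hm⟩ : w ∣ nmC z := by
    have := evC_mul_adjC z r
    rw [← sub_eq_iff_eq_add] at this
    rw [← this]; exact dvd_sub (hzr.mul_right _) (hgr.mul_right _)
  have hm0 : m ≠ 0 := by rintro rfl; exact nmC_ne_zero z hz0 (by simpa using hm)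
  have hnm : nmC γ = κ ^ 2 * m ^ 2 := by
    have e := congrArg nmC hrel
    rw [nmC_mulC, nmC_smC, nmC_mulC, nmC_line, hG, hm] at e
    have hκz : κ ≠ 0 := by omega
    apply mul_left_cancel₀ (mul_ne_zero hκz hw2)
    linear_combination e
  -- real bounds
  obtain ⟨g1, hg1⟩ : ∃ t, t = evC (castR γ) p := ⟨_, rfl⟩
  obtain ⟨g2, hg2⟩ : ∃ t, t = evC (adjC (castR γ)) p := ⟨_, rfl⟩
  have r1 : B1 * g1 = κ * t1 ^ 2 := by
    have e := congrArg (fun u => evC (castR u) p) hrel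
    simp only [castR_mulC, castR_smC, evC_smC, evC_mulC _ _ D.root] at e
    rw [hB1', ← hg1, ← ht1] at e
    linear_combination e
  have r2 : h * g2 = κ ^ 2 * t2 ^ 2 := by
    have e := congrArg (fun u => evC (adjC (castR u)) p) hrel
    simp only [castR_mulC, castR_smC, adjC_mulC, adjC_smC, evC_smC, evC_mulC _ _ D.root] at e
    rw [← hh, ← hg2, ← ht2] at e
    linear_combination e
  have hg1n : 0 ≤ g1 := by nlinarith [mul_nonneg hκ0.le (sq_nonneg t1)]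
  have ht2n : 0 ≤ t2 := by rw [ht2, evC_adjC D]; positivity
  obtain ⟨T, hT⟩ : ∃ T, T = κ * t2 / sh := ⟨_, rfl⟩
  have hTn : 0 ≤ T := hT ▸ by positivity
  have hT2 : g2 = T ^ 2 := by
    rw [hT, div_pow, sh2, eq_div_iff hpos.ne']
    linear_combination r2
  have hS : W1 * t1 ^ 2 + W2 * t2 = (g1 + 2 * T) / κ := by
    rw [hW1, hW2, hT]
    field_simp
    linear_combination (-sh) * r1
  rw [hS, div_pow] at hsmall
  have hS3 : 27 * (g1 + 2 * T) ^ 3 ≤ 2816 * (κ : ℝ) ^ 2 := by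
    have e1 : 27 * ((g1 + 2 * T) ^ 3 / (κ : ℝ) ^ 3) = 27 * (g1 + 2 * T) ^ 3 / (κ : ℝ) ^ 3 := by
      ring
    rw [e1, div_le_iff₀ (by positivity)] at hsmall
    refine hsmall.trans_eq ?_
    field_simp
    ring
  have e : ((nmC γ : ℤ) : ℝ) = g1 * T ^ 2 := by
    rw [← castR_nmC, nm_eq_evC_mul D, ← hg1, ← hg2, hT2]
  rw [hnm] at e; push_cast at e
  obtain ⟨hS75, hm4⟩ := numeric_bounds hg1n hTn hκ0 hκ2 hS3 e
  have hm1 : m ^ 2 = 1 := by
    have hm4' : m ^ 2 < 4 := by exact_mod_cast hm4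
    have : -2 < m ∧ m < 2 := abs_lt_of_sq_lt_sq' (hm4'.trans_eq (by norm_num : (4:ℤ) = 2 ^ 2)) (by norm_num)
    rcases (show m = -1 ∨ m = 1 by omega) with rfl | rfl <;> norm_num
  refine ⟨γ, z, hrel, by rw [hnm, hm1, mul_one], ?_⟩
  exact coeff_bound D (A := γ.1) (B := γ.2.1) (C := γ.2.2) T hTn (by rw [← hT2, hg2])
    (hg1n.trans_eq hg1) (hg1 ▸ hS75)

/-- Reduction mod 4 of a triple. -/
def cast4 (u : ℤ × ℤ × ℤ) : ZMod 4 × ZMod 4 × ZMod 4 := (u.1, u.2.1, u.2.2)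

theorem cast4_mulC (u v : ℤ × ℤ × ℤ) : cast4 (mulC u v) = mulC (cast4 u) (cast4 v) := by
  simp only [cast4, mulC]; push_cast; rfl

theorem cast4_smC (k : ℤ) (u : ℤ × ℤ × ℤ) : cast4 (smC k u) = smC (k : ZMod 4) (cast4 u) := by
  simp only [cast4, smC]; push_cast; rfl

theorem val_cast4_mod_two (a : ℤ) : (((a : ZMod 4).val % 2 : ℕ) : ℤ) = a % 2 := by
  have h := ZMod.val_intCast (n := 4) a
  push_cast at h ⊢
  rw [h]; omega

/-- The descent lemma, `κ = 1`. -/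
theorem square_one {a b w : ℤ} (hcop : IsCoprime b w) (hw : w ≠ 0)
    (hG : lineNorm a b = w ^ 2) (ha : a % 2 = 1) (hb : b % 2 = 0) :
    ∃ Z : ℤ × ℤ × ℤ, mulC Z Z = (a, -b, 0) := by
  obtain ⟨γ, z, hrel, hnm, h1, h2, h3⟩ := exists_gamma (κ := 1) (Or.inl rfl) hcop hw (by simpa)
  rcases candidates_one _ h1 _ h2 _ h3 (by simpa using hnm) with ⟨d, hd, hdd⟩ | hbad
  · have hd2 : ∀ d ∈ rootOne, nmC d ^ 2 = 1 := by decide
    refine ⟨mulC z (adjC d), ?_⟩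
    have e : mulC (mulC (a, -b, 0) γ) (mulC (adjC d) (adjC d))
        = mulC (smC 1 (mulC z z)) (mulC (adjC d) (adjC d)) := by rw [hrel]
    rw [show γ = mulC d d from hdd.symm] at e
    have l : mulC (mulC (a, -b, 0) (mulC d d)) (mulC (adjC d) (adjC d))
        = mulC (a, -b, 0) (mulC (mulC d (adjC d)) (mulC d (adjC d))) := by
      simp only [mulC, Prod.mk.injEq]; refine ⟨?_, ?_, ?_⟩ <;> ring
    have r : mulC (smC 1 (mulC z z)) (mulC (adjC d) (adjC d))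
        = mulC (mulC z (adjC d)) (mulC z (adjC d)) := by
      simp only [mulC, smC, Prod.mk.injEq]; refine ⟨?_, ?_, ?_⟩ <;> ring
    rw [l, r, mulC_adjC] at e
    rw [← e]
    have := hd2 d hd
    simp only [mulC, Prod.mk.injEq]
    refine ⟨?_, ?_, ?_⟩
    · linear_combination a * this
    · linear_combination -b * this
    · ring
  · exfalso
    refine obstruction_one _ hbad (a : ZMod 4) (b : ZMod 4) (z.1 : ZMod 4) (z.2.1 : ZMod 4)
      (z.2.2 : ZMod 4) ?_ ?_ ?_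
    · have := val_cast4_mod_two a; omega
    · have := val_cast4_mod_two b; omega
    · have e := congrArg cast4 hrel
      rw [cast4_mulC, cast4_smC, cast4_mulC] at e
      simpa [cast4, smC] using e

/-- The descent lemma, `κ = 2`. -/
theorem square_two {a b w : ℤ} (hcop : IsCoprime b w) (hw : w ≠ 0)
    (hG : lineNorm a b = 2 * w ^ 2) (ha : a % 2 = 0) (hb : b % 2 = 1) :
    ∃ Z : ℤ × ℤ × ℤ, mulC Z Z = (2 * a, -(2 * b), 0) := by
  obtain ⟨γ, z, hrel, hnm, h1, h2, h3⟩ := exists_gamma (κ := 2) (Or.inr rfl) hcop hw hG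
  rcases candidates_two _ h1 _ h2 _ h3 (by simpa using hnm) with ⟨d, hd, hdd⟩ | hbad
  · have hd2 : ∀ d ∈ rootTwo, nmC d ^ 2 = 4 := by decide
    refine ⟨mulC z (adjC d), ?_⟩
    have e : mulC (mulC (a, -b, 0) γ) (mulC (adjC d) (adjC d))
        = mulC (smC 2 (mulC z z)) (mulC (adjC d) (adjC d)) := by rw [hrel]
    rw [show γ = mulC d d from hdd.symm] at e
    have l : mulC (mulC (a, -b, 0) (mulC d d)) (mulC (adjC d) (adjC d))
        = mulC (a, -b, 0) (mulC (mulC d (adjC d)) (mulC d (adjC d))) := by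
      simp only [mulC, Prod.mk.injEq]; refine ⟨?_, ?_, ?_⟩ <;> ring
    have r : mulC (smC 2 (mulC z z)) (mulC (adjC d) (adjC d))
        = smC 2 (mulC (mulC z (adjC d)) (mulC z (adjC d))) := by
      simp only [mulC, smC, Prod.mk.injEq]; refine ⟨?_, ?_, ?_⟩ <;> ring
    rw [l, r, mulC_adjC] at e
    have := hd2 d hd
    simp only [mulC, smC, Prod.ext_iff] at e ⊢
    obtain ⟨e1, e2, e3⟩ := e
    refine ⟨?_, ?_, ?_⟩
    · linarith [e1, mul_comm a (nmC d ^ 2), (by rw [this] : a * nmC d ^ 2 = a * 4)]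
    · linarith [e2, mul_comm b (nmC d ^ 2), (by rw [this] : b * nmC d ^ 2 = b * 4)]
    · linarith [e3]
  · exfalso
    refine obstruction_two _ hbad (a : ZMod 4) (b : ZMod 4) (z.1 : ZMod 4) (z.2.1 : ZMod 4)
      (z.2.2 : ZMod 4) ?_ ?_ ?_
    · have := val_cast4_mod_two a; omega
    · have := val_cast4_mod_two b; omega
    · have e := congrArg cast4 hrel
      rw [cast4_mulC, cast4_smC, cast4_mulC] at e
      simpa [cast4] using e

end FLTA.EllPoints.Eleven
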