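import Mathlib.Tactic
import Mathlib.Data.Rat.Lemmas
import Mathlib.Data.Int.GCD
import Fermat.Agent.EllPoints.ElevenDescent

/-!
The rational points of the curve `y² + y = x³ - x²` (a model of X₁(11)).

With `X = 4x` this is `□ = f(X) = X³ - 4X² + 16`. The descent step gives `X = dup(s)` with `f(s)`
again a square, and a height comparison reduces to a finite search.
-/

set_option autoImplicit false

namespace FLTA.EllPoints.Eleven

/-- The cubic. -/
def fCub (X : ℚ) : ℚ := X ^ 3 - 4 * X ^ 2 + 16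

/-- The homogenised cubic. -/
def fHom (u q : ℤ) : ℤ := u ^ 3 - 4 * u ^ 2 * q + 16 * q ^ 3

theorem fHom_eq_lineNorm (u q : ℤ) : fHom u q = lineNorm u (2 * q) := by
  simp only [fHom, lineNorm]; ring

theorem fHom_ne_zero {u q : ℤ} (hq : q ≠ 0) : fHom u q ≠ 0 := by
  rw [fHom_eq_lineNorm, ← nmC_line]
  refine nmC_ne_zero _ fun h => ?_
  simp [Prod.mk_eq_zero, hq] at h

/-- Normal form of an abscissa with square value of the cubic. -/
theorem exists_uvw {X : ℚ} (h : IsSquare (fCub X)) :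
    ∃ u v W : ℤ, 0 < v ∧ IsCoprime u v ∧ X = (u : ℚ) / (v : ℚ) ^ 2 ∧ W ^ 2 = fHom u (v ^ 2) := by
  obtain ⟨L, hL⟩ := h
  obtain ⟨p, hp⟩ : ∃ p, p = X.num := ⟨_, rfl⟩
  obtain ⟨q, hq⟩ : ∃ q : ℤ, q = X.den := ⟨_, rfl⟩
  obtain ⟨l, hl⟩ : ∃ l, l = L.num := ⟨_, rfl⟩
  obtain ⟨m, hm⟩ : ∃ m : ℤ, m = L.den := ⟨_, rfl⟩
  have hqpos : 0 < q := by rw [hq]; exact_mod_cast X.den_pos
  have hmpos : 0 < m := by rw [hm]; exact_mod_cast L.den_pos
  have hpq : IsCoprime p q := by rw [hp, hq]; exact Rat.isCoprime_num_den X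
  have hlm : IsCoprime l m := by rw [hl, hm]; exact Rat.isCoprime_num_den L
  have hX : X = (p : ℚ) / q := by rw [hp, hq]; push_cast; exact (Rat.num_div_den X).symm
  have hL' : L = (l : ℚ) / m := by rw [hl, hm]; push_cast; exact (Rat.num_div_den L).symm
  have hqQ : (q : ℚ) ≠ 0 := by exact_mod_cast hqpos.ne'
  have hmQ : (m : ℚ) ≠ 0 := by exact_mod_cast hmpos.ne'
  have key : l ^ 2 * q ^ 3 = fHom p q * m ^ 2 := by
    rw [hX, hL'] at hL
    simp only [fCub] at hL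
    field_simp at hL
    have h2 : ((l ^ 2 * q ^ 3 : ℤ) : ℚ) = ((fHom p q * m ^ 2 : ℤ) : ℚ) := by
      simp only [fHom]; push_cast; linear_combination -hL
    exact_mod_cast h2
  have hNq : IsCoprime (fHom p q) q := by
    have e : fHom p q = p ^ 3 + q * (-4 * p ^ 2 + 16 * q ^ 2) := by simp only [fHom]; ring
    rw [e]; exact IsCoprime.add_mul_left_left hpq.pow_left _
  have h1 : q ^ 3 ∣ m ^ 2 :=
    hNq.symm.pow_left.dvd_of_dvd_mul_left ⟨l ^ 2, by linear_combination -key⟩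
  have h2 : m ^ 2 ∣ q ^ 3 :=
    (hlm.symm.pow (m := 2) (n := 2)).dvd_of_dvd_mul_left ⟨fHom p q, by linear_combination key⟩
  have heq : m ^ 2 = q ^ 3 := Int.dvd_antisymm (by positivity) (by positivity) h2 h1
  obtain ⟨k, rfl⟩ : q ∣ m := by
    refine (Int.pow_dvd_pow_iff (by norm_num : (2 : ℕ) ≠ 0)).1 ⟨q, ?_⟩
    rw [heq]; ring
  have hk : k ^ 2 = q := by
    apply mul_left_cancel₀ (pow_ne_zero 2 hqpos.ne')
    linear_combination heq
  refine ⟨p, k, l, pos_of_mul_pos_right hmpos hqpos.le, ?_, ?_, ?_⟩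
  · rw [← hk] at hpq; exact (IsCoprime.pow_right_iff (by norm_num)).1 hpq
  · rw [hX, ← hk]; push_cast; rfl
  · rw [hk]
    apply mul_right_cancel₀ (pow_ne_zero 3 hqpos.ne')
    linear_combination key + fHom p q * heq

theorem int_pow_parity (u : ℤ) : u ^ 3 % 2 = u % 2 := by
  rcases Int.even_or_odd u with ⟨k, rfl⟩ | ⟨k, rfl⟩ <;> ring_nf <;> omega

/-- `(u/v²) - 2φ` is a square. -/
theorem square_class {u v W : ℤ} (hv : 0 < v) (huv : IsCoprime u v)
    (hW : W ^ 2 = fHom u (v ^ 2)) :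
    ∃ Z : ℤ × ℤ × ℤ, mulC Z Z = (u, -(2 * v ^ 2), 0) := by
  have hW0 : W ≠ 0 := by
    rintro rfl
    exact fHom_ne_zero (pow_ne_zero 2 hv.ne') (by rw [← hW]; norm_num)
  have hWv : IsCoprime W v := by
    have e : W ^ 2 = u ^ 3 + v * (-4 * u ^ 2 * v + 16 * v ^ 5) := by
      rw [hW]; simp only [fHom]; ring
    exact (IsCoprime.pow_left_iff (by norm_num : 0 < 2)).1
      (e ▸ IsCoprime.add_mul_left_left huv.pow_left _)
  rcases Int.even_or_odd u with ⟨u₁, rfl⟩ | hu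
  · have hvodd : v % 2 = 1 := by
      rcases Int.emod_two_eq_zero_or_one v with h | h
      · exfalso
        have h2v : (2 : ℤ) ∣ v := Int.dvd_of_emod_eq_zero h
        have h2 := huv.isUnit_of_dvd' ⟨u₁, by ring⟩ h2v
        rw [Int.isUnit_iff] at h2; omega
      · exact h
    have h2W : (2 : ℤ) ∣ W := Int.prime_two.dvd_of_dvd_pow (n := 2)
      ⟨4 * u₁ ^ 3 - 8 * u₁ ^ 2 * v ^ 2 + 8 * v ^ 6, by rw [hW]; simp only [fHom]; ring⟩
    obtain ⟨W₁, rfl⟩ := h2W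
    have hW1 : W₁ ^ 2 = 2 * (u₁ ^ 3 - 2 * u₁ ^ 2 * v ^ 2 + 2 * v ^ 6) := by
      apply mul_left_cancel₀ (by norm_num : (4 : ℤ) ≠ 0)
      simp only [fHom] at hW; linear_combination hW
    obtain ⟨w, rfl⟩ : (2 : ℤ) ∣ W₁ := Int.prime_two.dvd_of_dvd_pow (n := 2) ⟨_, hW1⟩
    have h2u : (2 : ℤ) ∣ u₁ := Int.prime_two.dvd_of_dvd_pow (n := 3)
      ⟨w ^ 2 + u₁ ^ 2 * v ^ 2 - v ^ 6, by linarith⟩
    obtain ⟨m, rfl⟩ := h2u
    have hG : lineNorm (2 * m) (v ^ 2) = 2 * w ^ 2 := by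
      simp only [lineNorm]; linarith
    have hcop : IsCoprime (v ^ 2) w :=
      ((hWv.of_mul_left_right).of_mul_left_right).symm.pow_left
    have hw0 : w ≠ 0 := by rintro rfl; simp at hW0
    obtain ⟨Z, hZ⟩ := square_two hcop hw0 hG (by omega) (by
      rw [pow_two, Int.mul_emod, hvodd]; norm_num)
    exact ⟨Z, hZ.trans (by ext <;> simp <;> ring)⟩
  · have hWodd : W % 2 = 1 := by
      have h1 : W ^ 2 % 2 = 1 := by
        rw [hW]
        have : fHom u (v ^ 2) = u ^ 3 + 2 * (-2 * u ^ 2 * v ^ 2 + 8 * v ^ 6) := by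
          simp only [fHom]; ring
        rw [this, Int.add_mul_emod_self_left, int_pow_parity]
        exact Int.odd_iff.1 hu
      rcases Int.emod_two_eq_zero_or_one W with h | h
      · rw [pow_two, Int.mul_emod, h] at h1; norm_num at h1
      · exact h
    have hcop : IsCoprime (2 * v ^ 2) W := by
      refine IsCoprime.mul_left ?_ hWv.symm.pow_left
      refine (Int.prime_two.coprime_iff_not_dvd).2 fun h => ?_
      omega
    exact square_one hcop hW0 (by rw [← fHom_eq_lineNorm]; exact hW.symm) (Int.odd_iff.1 hu)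
      (by omega)

/-- Descent: the abscissa is the duplication of another one. -/
theorem exists_half {u v W : ℤ} (hv : 0 < v) (huv : IsCoprime u v)
    (hW : W ^ 2 = fHom u (v ^ 2)) :
    ∃ s : ℚ, IsSquare (fCub s) ∧
      (u : ℚ) / (v : ℚ) ^ 2 * (4 * fCub s) = s ^ 4 - 128 * s + 256 := by
  obtain ⟨⟨z₀, z₁, z₂⟩, hZ⟩ := square_class hv huv hW
  simp only [mulC, Prod.mk.injEq] at hZ
  obtain ⟨e0, e1, e2⟩ := hZ
  have hz2 : z₂ ≠ 0 := by
    rintro rfl
    have hz1 : z₁ = 0 := by nlinarith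
    subst hz1
    nlinarith
  have hvQ : (v : ℚ) ≠ 0 := by exact_mod_cast hv.ne'
  have hzQ : (z₂ : ℚ) ≠ 0 := by exact_mod_cast hz2
  have E0 := congrArg (Int.cast : ℤ → ℚ) e0
  have E1 := congrArg (Int.cast : ℤ → ℚ) e1
  have E2 := congrArg (Int.cast : ℤ → ℚ) e2
  push_cast at E0 E1 E2
  obtain ⟨t, ht⟩ : ∃ t : ℚ, t = ((z₁ : ℚ) + 2 * z₂) / z₂ := ⟨_, rfl⟩
  have hz1 : (z₁ : ℚ) = (t - 2) * z₂ := by rw [ht]; field_simp; ring
  have hz0 : (z₀ : ℚ) = -(z₂ : ℚ) * t ^ 2 / 2 := by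
    rw [hz1] at E2
    apply mul_left_cancel₀ hzQ
    linear_combination E2 / 2
  rw [hz1, hz0] at E0 E1
  have hf : fCub (2 * t) = (4 * (v : ℚ) / z₂) * (4 * (v : ℚ) / z₂) := by
    simp only [fCub]; field_simp
    linear_combination -8 * E1
  refine ⟨2 * t, ⟨_, hf⟩, ?_⟩
  rw [hf]; field_simp
  linear_combination -64 * E0

theorem finite_search : ∀ u ∈ Finset.Icc (-139 : ℤ) 139, ∀ v ∈ Finset.Icc (1 : ℤ) 11,
    Int.gcd u v = 1 → Int.sqrt (fHom u (v ^ 2)) ^ 2 = fHom u (v ^ 2) →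
      v = 1 ∧ (u = 0 ∨ u = 4) := by
  unfold fHom; decide +kernel

/-- The height. -/
def height (X : ℚ) : ℕ := max X.num.natAbs X.den

theorem height_bound {X s : ℚ} (hs : IsSquare (fCub s))
    (hdup : X * (4 * fCub s) = s ^ 4 - 128 * s + 256) (hle : height X ≤ height s) :
    s = 0 ∨ s = 4 := by
  obtain ⟨u, v, W, hv, huv, hsv, hW⟩ := exists_uvw hs
  obtain ⟨q, hq⟩ : ∃ q, q = v ^ 2 := ⟨_, rfl⟩
  have hqpos : 0 < q := hq ▸ pow_pos hv 2
  have huq : IsCoprime u q := hq ▸ huv.pow_right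
  have hsq : s = (u : ℚ) / q := by rw [hsv, hq]; push_cast; rfl
  have hsn : s.num = u ∧ (s.den : ℤ) = q := by
    have h1 := Rat.num_div_eq_of_coprime hqpos (Int.isCoprime_iff_nat_coprime.1 huq)
    have h2 := Rat.den_div_eq_of_coprime hqpos (Int.isCoprime_iff_nat_coprime.1 huq)
    rw [← hsq] at h1 h2; exact ⟨h1, h2⟩
  obtain ⟨a, ha⟩ : ∃ a, a = X.num := ⟨_, rfl⟩
  obtain ⟨b, hb⟩ : ∃ b : ℤ, b = X.den := ⟨_, rfl⟩
  obtain ⟨N, hN⟩ : ∃ N, N = u ^ 4 - 128 * u * q ^ 3 + 256 * q ^ 4 := ⟨_, rfl⟩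
  obtain ⟨M, hM⟩ : ∃ M, M = 4 * q * fHom u q := ⟨_, rfl⟩
  have hbpos : 0 < b := by rw [hb]; exact_mod_cast X.den_pos
  have habc : IsCoprime a b := by rw [ha, hb]; exact Rat.isCoprime_num_den X
  have hM0 : M ≠ 0 := by
    rw [hM]; exact mul_ne_zero (by omega) (fHom_ne_zero hqpos.ne')
  have hX : X = (a : ℚ) / b := by rw [ha, hb]; push_cast; exact (Rat.num_div_den X).symm
  have hqQ : (q : ℚ) ≠ 0 := by exact_mod_cast hqpos.ne'
  have hbQ : (b : ℚ) ≠ 0 := by exact_mod_cast hbpos.ne'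
  have hrel : a * M = b * N := by
    rw [hsq, hX] at hdup
    simp only [fCub] at hdup
    field_simp at hdup
    have h2 : ((a * M : ℤ) : ℚ) = ((b * N : ℤ) : ℚ) := by
      simp only [hM, hN, fHom]; push_cast; linear_combination hdup
    exact_mod_cast h2
  obtain ⟨k, hk⟩ : b ∣ M := habc.symm.dvd_of_dvd_mul_left ⟨N, hrel⟩
  have hNk : N = a * k := by
    apply mul_left_cancel₀ hbpos.ne'
    rw [hk] at hrel; linear_combination -hrel
  have iq : (-64 * q ^ 3 - 32 * u * q ^ 2 + 12 * u ^ 2 * q) * N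
      + (432 * q ^ 3 - 4 * u ^ 2 * q - 3 * u ^ 3) * M = 11264 * q ^ 7 := by
    simp only [hN, hM, fHom]; ring
  have iu : (384 * q ^ 3 + 64 * u * q ^ 2 - 80 * u ^ 2 * q + 11 * u ^ 3) * N
      + (-1536 * q ^ 3 + 512 * u * q ^ 2 + 64 * u ^ 2 * q + 20 * u ^ 3) * M = 11 * u ^ 7 := by
    simp only [hN, hM, fHom]; ring
  have hk0 : k ≠ 0 := by rintro rfl; simp [hk] at hM0
  have hkle : |k| ≤ 11264 := by
    have h1 : k ∣ 11264 * q ^ 7 := by
      rw [← iq, hNk, hk]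
      exact dvd_add (dvd_mul_of_dvd_right (dvd_mul_left k a) _) (dvd_mul_of_dvd_right (dvd_mul_left k b) _)
    have h2 : k ∣ 11 * u ^ 7 := by
      rw [← iu, hNk, hk]
      exact dvd_add (dvd_mul_of_dvd_right (dvd_mul_left k a) _) (dvd_mul_of_dvd_right (dvd_mul_left k b) _)
    have h2' : k ∣ 11264 * u ^ 7 := h2.trans ⟨1024, by ring⟩
    obtain ⟨c, d, hcd⟩ := (huq.pow (m := 7) (n := 7))
    have h3 : k ∣ 11264 := by
      have e : (11264 : ℤ) = c * (11264 * u ^ 7) + d * (11264 * q ^ 7) := by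
        linear_combination -11264 * hcd
      rw [e]; exact dvd_add (h2'.mul_left c) (h1.mul_left d)
    exact Int.le_of_dvd (by norm_num) ((abs_dvd k 11264).2 h3)
  obtain ⟨H, hH⟩ : ∃ H : ℤ, H = max |u| q := ⟨_, rfl⟩
  have hHX : |a| ≤ H ∧ b ≤ H := by
    simp only [height] at hle
    rw [hsn.1] at hle
    have : (s.den : ℤ) = q := hsn.2
    rw [ha, hb, hH, Int.abs_eq_natAbs, Int.abs_eq_natAbs]
    omega
  have hH0 : 0 ≤ H := by rw [hH]; exact le_max_of_le_right hqpos.le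
  have hNb : |N| ≤ 11264 * H := by
    rw [hNk, abs_mul, mul_comm]; exact mul_le_mul hkle hHX.1 (abs_nonneg _) (by norm_num)
  have hMb : |M| ≤ 11264 * H := by
    rw [hk, abs_mul, mul_comm, abs_of_pos hbpos]
    exact mul_le_mul hkle hHX.2 hbpos.le (by norm_num)
  have huH : |u| ≤ H := hH ▸ le_max_left _ _
  have hqH : |q| ≤ H := by rw [hH, abs_of_pos hqpos]; exact le_max_right _ _
  have t3 : |q ^ 3| ≤ H ^ 3 := by rw [abs_pow]; exact pow_le_pow_left₀ (abs_nonneg _) hqH 3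
  have t0 : |u ^ 3| ≤ H ^ 3 := by rw [abs_pow]; exact pow_le_pow_left₀ (abs_nonneg _) huH 3
  have t2 : |u * q ^ 2| ≤ H ^ 3 := by
    rw [abs_mul, abs_pow, show H ^ 3 = H * H ^ 2 by ring]
    exact mul_le_mul huH (pow_le_pow_left₀ (abs_nonneg _) hqH 2) (by positivity) hH0
  have t1 : |u ^ 2 * q| ≤ H ^ 3 := by
    rw [abs_mul, abs_pow, show H ^ 3 = H ^ 2 * H by ring]
    exact mul_le_mul (pow_le_pow_left₀ (abs_nonneg _) huH 2) hqH (abs_nonneg _) (by positivity)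
  have bound : ∀ A B : ℤ, ∀ KA KB : ℤ, |A| ≤ KA * H ^ 3 → |B| ≤ KB * H ^ 3 → 0 ≤ KA → 0 ≤ KB →
      A * N + B * M ≤ (KA + KB) * 11264 * H ^ 4 ∧ -((KA + KB) * 11264 * H ^ 4) ≤ A * N + B * M := by
    intro A B KA KB hA hB hKA hKB
    have a1 := mul_le_mul hA hNb (abs_nonneg _) (by positivity)
    have a2 := mul_le_mul hB hMb (abs_nonneg _) (by positivity)
    rw [← abs_mul] at a1 a2
    obtain ⟨b1, b2⟩ := abs_le.mp a1
    obtain ⟨b3, b4⟩ := abs_le.mp a2
    constructor <;> linarith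
  obtain ⟨c1, c2⟩ := abs_le.mp t0
  obtain ⟨c3, c4⟩ := abs_le.mp t1
  obtain ⟨c5, c6⟩ := abs_le.mp t2
  obtain ⟨c7, c8⟩ := abs_le.mp t3
  have hsmall : |u| ≤ 139 ∧ q ≤ 139 := by
    rcases le_total |u| q with hc | hc
    · have hHq : H = q := hH.trans (max_eq_right hc)
      obtain ⟨f1, -⟩ := bound (-64 * q ^ 3 - 32 * u * q ^ 2 + 12 * u ^ 2 * q)
        (432 * q ^ 3 - 4 * u ^ 2 * q - 3 * u ^ 3) 108 439
        (abs_le.2 ⟨by linarith, by linarith⟩) (abs_le.2 ⟨by linarith, by linarith⟩)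
        (by norm_num) (by norm_num)
      rw [iq, hHq] at f1
      have h3 : q ^ 3 ≤ 547 := by
        refine le_of_mul_le_mul_left ?_ (by positivity : (0:ℤ) < 11264 * q ^ 4)
        linarith
      have : q ≤ 8 := by
        by_contra hcon
        have : (9 : ℤ) ^ 3 ≤ q ^ 3 := pow_le_pow_left₀ (by norm_num) (by omega) 3
        omega
      omega
    · have hHu : H = |u| := hH.trans (max_eq_left hc)
      obtain ⟨f1, f2⟩ := bound (384 * q ^ 3 + 64 * u * q ^ 2 - 80 * u ^ 2 * q + 11 * u ^ 3)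
        (-1536 * q ^ 3 + 512 * u * q ^ 2 + 64 * u ^ 2 * q + 20 * u ^ 3) 539 2132
        (abs_le.2 ⟨by linarith, by linarith⟩) (abs_le.2 ⟨by linarith, by linarith⟩)
        (by norm_num) (by norm_num)
      rw [iu, hHu] at f1 f2
      have h7 : |11 * u ^ 7| ≤ (539 + 2132) * 11264 * |u| ^ 4 := abs_le.2 ⟨f2, f1⟩
      rw [abs_mul, abs_pow, abs_of_pos (by norm_num : (0:ℤ) < 11)] at h7
      have hu0 : 0 < |u| := lt_of_lt_of_le hqpos hc
      have h3 : |u| ^ 3 ≤ 2735104 := by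
        refine le_of_mul_le_mul_left ?_ (by positivity : (0:ℤ) < 11 * |u| ^ 4)
        linarith
      have : |u| ≤ 139 := by
        by_contra hcon
        have : (140 : ℤ) ^ 3 ≤ |u| ^ 3 := pow_le_pow_left₀ (by norm_num) (by omega) 3
        omega
      omega
  obtain ⟨hu139, hq139⟩ := hsmall
  have hv11 : v ≤ 11 := by nlinarith
  obtain ⟨hu1, hu2⟩ := abs_le.mp hu139
  obtain ⟨rfl, hu⟩ := finite_search u (Finset.mem_Icc.2 ⟨hu1, hu2⟩) v
    (Finset.mem_Icc.2 ⟨hv, hv11⟩) (Int.isCoprime_iff_gcd_eq_one.1 huv) (by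
      have : ∃ n, n * n = fHom u (v ^ 2) := ⟨W, by rw [← hW]; ring⟩
      rw [pow_two]; exact (Int.exists_mul_self _).1 this)
  rcases hu with rfl | rfl <;> simp [hsv]

theorem abscissa_mem {X : ℚ} (h : IsSquare (fCub X)) : X = 0 ∨ X = 4 := by
  induction hn : height X using Nat.strong_induction_on generalizing X with
  | _ n ih =>
    obtain ⟨u, v, W, hv, huv, hX, hW⟩ := exists_uvw h
    obtain ⟨s, hs, hdup⟩ := exists_half hv huv hW
    rw [← hX] at hdup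
    have hs04 : s = 0 ∨ s = 4 := by
      rcases lt_or_ge (height s) (height X) with hlt | hge
      · exact ih _ (hn ▸ hlt) hs rfl
      · exact height_bound hs hdup hge
    rcases hs04 with rfl | rfl <;> norm_num [fCub] at hdup <;> first
      | (left; linarith) | (right; linarith)

/-- The only affine rational points of `y² + y = x³ - x²` have `x = 0` or `x = 1`. -/
theorem x1_eleven_points (x y : ℚ) (h : y ^ 2 + y = x ^ 3 - x ^ 2) : x = 0 ∨ x = 1 := by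
  rcases abscissa_mem (X := 4 * x) ⟨4 * (2 * y + 1), by simp only [fCub]; linear_combination -64 * h⟩
    with h0 | h4
  · left; linarith
  · right; linarith

end FLTA.EllPoints.Eleven
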