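import Mathlib.AlgebraicGeometry.EllipticCurve.Affine.Point

/-!
The map on points induced by an admissible change of variables of an elliptic curve over a field.
-/

set_option autoImplicit false

namespace FLTA.EllPoints.Eleven

open WeierstrassCurve WeierstrassCurve.Affine

variable {F : Type*} [Field F] (W : WeierstrassCurve F) (C : VariableChange F)

/-- The `x`-coordinate on `W` of a point of `C • W`. -/
def vcX (x : F) : F := (C.u : F) ^ 2 * x + C.r

/-- The `y`-coordinate on `W` of a point of `C • W`. -/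
def vcY (x y : F) : F := (C.u : F) ^ 3 * y + C.s * (C.u : F) ^ 2 * x + C.t

lemma equation_vc {x y : F} (h : (C • W).toAffine.Equation x y) :
    W.toAffine.Equation (vcX C x) (vcY C x y) := by
  rw [Affine.equation_iff] at h ⊢
  have hu : (C.u : F) ≠ 0 := C.u.ne_zero
  simp only [variableChange_a₁, variableChange_a₂, variableChange_a₃, variableChange_a₄,
    variableChange_a₆, Units.val_inv_eq_inv_val] at h
  field_simp at h
  simp only [vcX, vcY]
  linear_combination h

lemma negY_vc (x y : F) :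
    W.toAffine.negY (vcX C x) (vcY C x y) = vcY C x ((C • W).toAffine.negY x y) := by
  have hu : (C.u : F) ≠ 0 := C.u.ne_zero
  simp only [Affine.negY, vcX, vcY, variableChange_a₁, variableChange_a₃,
    Units.val_inv_eq_inv_val]
  field_simp
  ring

lemma vcX_injective : Function.Injective (vcX C) := fun a b h => by
  have hu : (C.u : F) ≠ 0 := C.u.ne_zero
  simpa [vcX, hu] using h

lemma vcY_injective (x : F) : Function.Injective (vcY C x) := fun a b h => by
  have hu : (C.u : F) ≠ 0 := C.u.ne_zero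
  simpa [vcY, hu] using h

variable [DecidableEq F]

lemma slope_vc {x₁ x₂ y₁ y₂ : F} (h₁ : (C • W).toAffine.Equation x₁ y₁)
    (h₂ : (C • W).toAffine.Equation x₂ y₂)
    (hxy : ¬(x₁ = x₂ ∧ y₁ = (C • W).toAffine.negY x₂ y₂)) :
    W.toAffine.slope (vcX C x₁) (vcX C x₂) (vcY C x₁ y₁) (vcY C x₂ y₂)
      = (C.u : F) * (C • W).toAffine.slope x₁ x₂ y₁ y₂ + C.s := by
  have hu : (C.u : F) ≠ 0 := C.u.ne_zero
  by_cases hx : x₁ = x₂
  · subst hx
    have hy : y₁ ≠ (C • W).toAffine.negY x₁ y₂ := fun h => hxy ⟨rfl, h⟩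
    have hy' : vcY C x₁ y₁ ≠ W.toAffine.negY (vcX C x₁) (vcY C x₁ y₂) := by
      rw [negY_vc]; exact fun h => hy (vcY_injective C x₁ h)
    rw [Affine.slope_of_Y_ne rfl hy', Affine.slope_of_Y_ne rfl hy, negY_vc]
    have hyy : y₁ = y₂ := Affine.Y_eq_of_Y_ne h₁ h₂ rfl hy
    subst hyy
    have hd : y₁ - (C • W).toAffine.negY x₁ y₁ ≠ 0 := sub_ne_zero.mpr hy
    have hd' : vcY C x₁ y₁ - vcY C x₁ ((C • W).toAffine.negY x₁ y₁)
        = (C.u : F) ^ 3 * (y₁ - (C • W).toAffine.negY x₁ y₁) := by simp only [vcY]; ring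
    rw [hd']
    generalize hD : y₁ - (C • W).toAffine.negY x₁ y₁ = D at hd
    have hD' : D = 2 * y₁ + (C • W).a₁ * x₁ + (C • W).a₃ := by
      rw [← hD, Affine.negY]; ring
    field_simp
    rw [hD']
    simp only [vcX, vcY, variableChange_a₁, variableChange_a₂, variableChange_a₃,
      variableChange_a₄, Units.val_inv_eq_inv_val]
    field_simp
    ring
  · have hx' : vcX C x₁ ≠ vcX C x₂ := fun h => hx (vcX_injective C h)
    rw [Affine.slope_of_X_ne hx', Affine.slope_of_X_ne hx]
    have hsub : x₁ - x₂ ≠ 0 := sub_ne_zero.mpr hx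
    have hd : vcX C x₁ - vcX C x₂ = (C.u : F) ^ 2 * (x₁ - x₂) := by simp only [vcX]; ring
    rw [hd]
    field_simp
    simp only [vcY]
    ring

lemma addX_vc (x₁ x₂ ℓ : F) :
    W.toAffine.addX (vcX C x₁) (vcX C x₂) ((C.u : F) * ℓ + C.s)
      = vcX C ((C • W).toAffine.addX x₁ x₂ ℓ) := by
  have hu : (C.u : F) ≠ 0 := C.u.ne_zero
  simp only [Affine.addX, vcX, variableChange_a₁, variableChange_a₂, Units.val_inv_eq_inv_val]
  field_simp
  ring

lemma addY_vc (x₁ x₂ y₁ ℓ : F) :
    W.toAffine.addY (vcX C x₁) (vcX C x₂) (vcY C x₁ y₁) ((C.u : F) * ℓ + C.s)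
      = vcY C ((C • W).toAffine.addX x₁ x₂ ℓ) ((C • W).toAffine.addY x₁ x₂ y₁ ℓ) := by
  rw [Affine.addY, Affine.addY, addX_vc, ← negY_vc]
  congr 1
  rw [Affine.negAddY, Affine.negAddY, addX_vc]
  simp only [vcX, vcY]
  ring

variable [W.IsElliptic]

/-- The map on points induced by a change of variables. -/
noncomputable def vcFun : (C • W).toAffine.Point → W.toAffine.Point
  | 0 => 0
  | .some x y h => .some (vcX C x) (vcY C x y)
      (Affine.equation_iff_nonsingular.mp (equation_vc W C h.left))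

lemma vcFun_some {x y : F} (h : (C • W).toAffine.Nonsingular x y) :
    vcFun W C (.some x y h) = .some (vcX C x) (vcY C x y)
      (Affine.equation_iff_nonsingular.mp (equation_vc W C h.left)) := rfl

lemma vcFun_add (P Q : (C • W).toAffine.Point) :
    vcFun W C (P + Q) = vcFun W C P + vcFun W C Q := by
  match P, Q with
  | 0, Q => rw [zero_add]; exact (zero_add _).symm
  | P, 0 => rw [add_zero]; exact (add_zero _).symm
  | .some x₁ y₁ h₁, .some x₂ y₂ h₂ =>
    by_cases hxy : x₁ = x₂ ∧ y₁ = (C • W).toAffine.negY x₂ y₂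
    · rw [Point.add_of_Y_eq hxy.1 hxy.2, vcFun_some, vcFun_some,
        Point.add_of_Y_eq (by rw [hxy.1]) (by rw [negY_vc, hxy.1, hxy.2])]
      rfl
    · have hxy' : ¬(vcX C x₁ = vcX C x₂ ∧
          vcY C x₁ y₁ = W.toAffine.negY (vcX C x₂) (vcY C x₂ y₂)) := by
        rintro ⟨hx, hy⟩
        have hx' := vcX_injective C hx
        subst hx'
        rw [negY_vc] at hy
        exact hxy ⟨rfl, vcY_injective C _ hy⟩
      rw [Point.add_some hxy, vcFun_some, vcFun_some, vcFun_some, Point.add_some hxy']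
      simp only [Point.some.injEq]
      rw [slope_vc W C h₁.left h₂.left hxy]
      exact ⟨(addX_vc W C _ _ _).symm, (addY_vc W C _ _ _ _).symm⟩

/-- The group homomorphism on points induced by a change of variables. -/
noncomputable def vcHom : (C • W).toAffine.Point →+ W.toAffine.Point where
  toFun := vcFun W C
  map_zero' := rfl
  map_add' := vcFun_add W C

lemma vcHom_apply (P : (C • W).toAffine.Point) : vcHom W C P = vcFun W C P := rfl

lemma vcHom_injective : Function.Injective (vcHom W C) := by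
  rw [injective_iff_map_eq_zero]
  intro P hP
  match P, hP with
  | 0, _ => rfl
  | .some x y h, hP => exact absurd hP (Point.some_ne_zero _)

end FLTA.EllPoints.Eleven
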