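import Mathlib
import Fermat.Agent.EllPoints.ElevenVarChange
import Fermat.Agent.EllPoints.ElevenCurve

/-!
An elliptic curve over `ℚ` has no rational point of order `11`.
-/

set_option autoImplicit false

namespace FLTA.EllPoints.Eleven

open WeierstrassCurve WeierstrassCurve.Affine

lemma nsmul_ne_zero_of_order {G : Type*} [AddMonoid G] {P : G} (hP : addOrderOf P = 11) {n : ℕ}
    (h0 : 0 < n) (h : n < 11) : n • P ≠ 0 := fun e => by
  have := Nat.le_of_dvd h0 (addOrderOf_dvd_of_nsmul_eq_zero e)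
  omega

/-- On a curve with `a₄ = a₆ = 0`, adding `(0, 0)` to a point with non-zero `x`. -/
lemma add_origin {F : Type*} [Field F] [DecidableEq F] (W : WeierstrassCurve F) [W.IsElliptic]
    {x y X Y : F} (hx : x ≠ 0) (h0 : W.toAffine.Nonsingular 0 0)
    (h : W.toAffine.Nonsingular x y)
    (hX : X = (y / x) ^ 2 + W.a₁ * (y / x) - W.a₂ - x)
    (hY : Y = -((y / x) * X) - W.a₁ * X - W.a₃) :
    ∃ h' : W.toAffine.Nonsingular X Y,
      Point.some x y h + Point.some 0 0 h0 = Point.some X Y h' := by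
  have hs : W.toAffine.slope x 0 y 0 = y / x := by
    rw [Affine.slope_of_X_ne hx]; simp
  have hX' : W.toAffine.addX x 0 (W.toAffine.slope x 0 y 0) = X := by
    rw [hs, hX, Affine.addX]; ring
  have hY' : W.toAffine.addY x 0 y (W.toAffine.slope x 0 y 0) = Y := by
    rw [Affine.addY, Affine.negAddY, hX', hs, hY, Affine.negY]
    field_simp
    ring
  subst hX' hY'
  exact ⟨_, Point.add_of_X_ne hx⟩

/-- On a curve with `a₄ = a₆ = 0` and `a₃ ≠ 0`, doubling `(0, 0)`. -/
lemma double_origin {F : Type*} [Field F] [DecidableEq F] (W : WeierstrassCurve F) [W.IsElliptic]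
    (h4 : W.a₄ = 0) (h3 : W.a₃ ≠ 0) (h0 : W.toAffine.Nonsingular 0 0) :
    ∃ h' : W.toAffine.Nonsingular (-W.a₂) (W.a₁ * W.a₂ - W.a₃),
      Point.some 0 0 h0 + Point.some 0 0 h0 = Point.some (-W.a₂) (W.a₁ * W.a₂ - W.a₃) h' := by
  have hy : (0 : F) ≠ W.toAffine.negY 0 0 := by simpa [Affine.negY, eq_comm] using h3
  have hs : W.toAffine.slope 0 0 0 0 = 0 := by
    rw [Affine.slope_of_Y_ne rfl hy]; simp [h4]
  have hX' : W.toAffine.addX 0 0 (W.toAffine.slope 0 0 0 0) = -W.a₂ := by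
    rw [hs, Affine.addX]; ring
  have hY' : W.toAffine.addY 0 0 0 (W.toAffine.slope 0 0 0 0) = W.a₁ * W.a₂ - W.a₃ := by
    rw [Affine.addY, Affine.negAddY, hX', hs, Affine.negY]; ring
  have := Point.add_self_of_Y_ne (W := W.toAffine) (h₁ := h0) hy
  simp only [hX', hY'] at this
  exact ⟨_, this⟩

/-- If two affine multiples of `P` have the same `x`, then their sum or difference is `0`. -/
lemma nsmul_eq_zero_of_x_eq {F : Type*} [Field F] [DecidableEq F] {W : WeierstrassCurve F}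
    {P : W.toAffine.Point} {m n : ℕ} (hmn : m ≤ n) {x₁ y₁ x₂ y₂ : F}
    {h₁ : W.toAffine.Nonsingular x₁ y₁} {h₂ : W.toAffine.Nonsingular x₂ y₂}
    (hm : m • P = Point.some x₁ y₁ h₁) (hn : n • P = Point.some x₂ y₂ h₂) (hx : x₁ = x₂) :
    (n - m) • P = 0 ∨ (n + m) • P = 0 := by
  rcases (Point.X_eq_iff (h₁ := h₂) (h₂ := h₁)).mp hx.symm with e | e
  · left
    have e' : n • P = m • P := by rw [hm, hn, e]
    rw [sub_nsmul P hmn, e', add_neg_cancel]
  · right
    have e' : n • P = -(m • P) := by rw [hm, hn, e]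
    rw [add_nsmul, e', neg_add_cancel]

/-- A point of order `11` at the origin of a Tate normal form gives a non-cuspidal point of
`X₁(11)`. -/
lemma tate_eleven (T : WeierstrassCurve ℚ) [T.IsElliptic] (b c : ℚ)
    (ha₁ : T.a₁ = 1 - c) (ha₂ : T.a₂ = -b) (ha₃ : T.a₃ = -b) (ha₄ : T.a₄ = 0) (ha₆ : T.a₆ = 0)
    (h0 : T.toAffine.Nonsingular 0 0)
    (hord : addOrderOf (Point.some 0 0 h0) = 11) :
    ∃ x y : ℚ, y ^ 2 + y = x ^ 3 - x ^ 2 ∧ x ≠ 0 ∧ x ≠ 1 := by
  set P := Point.some 0 0 h0 with hP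
  have hP1 : (1 : ℕ) • P = Point.some 0 0 h0 := by rw [one_nsmul]
  have hb : b ≠ 0 := by
    intro hb
    have : (2 : ℕ) • P = 0 := by
      rw [two_nsmul, hP, Point.add_self_of_Y_eq]
      simp [Affine.negY, ha₃, hb]
    exact nsmul_ne_zero_of_order hord (by norm_num) (by norm_num) this
  obtain ⟨h2, e2⟩ : ∃ h : T.toAffine.Nonsingular b (b * c),
      (2 : ℕ) • P = Point.some b (b * c) h := by
    obtain ⟨h, e⟩ := double_origin T ha₄ (by rwa [ha₃, neg_ne_zero]) h0
    have hx : -T.a₂ = b := by rw [ha₂, neg_neg]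
    have hy : T.a₁ * T.a₂ - T.a₃ = b * c := by rw [ha₁, ha₂, ha₃]; ring
    simp only [hx, hy] at e
    exact ⟨_, by rw [two_nsmul]; exact e⟩
  obtain ⟨h3, e3⟩ : ∃ h : T.toAffine.Nonsingular c (b - c),
      (3 : ℕ) • P = Point.some c (b - c) h := by
    obtain ⟨h, e⟩ := add_origin T hb h0 h2 (X := c) (Y := b - c)
      (by rw [ha₁, ha₂]; field_simp; ring) (by rw [ha₁, ha₃]; field_simp; ring)
    exact ⟨h, by rw [succ_nsmul, e2]; exact e⟩
  have hc : c ≠ 0 := by
    intro hc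
    rcases nsmul_eq_zero_of_x_eq (by norm_num : 1 ≤ 3) hP1 e3 hc.symm with e | e <;>
      exact nsmul_ne_zero_of_order hord (by norm_num) (by norm_num) e
  have hbc : b ≠ c := by
    intro hbc
    rcases nsmul_eq_zero_of_x_eq (by norm_num : 2 ≤ 3) e2 e3 hbc with e | e <;>
      exact nsmul_ne_zero_of_order hord (by norm_num) (by norm_num) e
  obtain ⟨r, hr⟩ : ∃ r, r = b / c := ⟨_, rfl⟩
  have hr0 : r ≠ 0 := by rw [hr]; exact div_ne_zero hb hc
  have hr1 : r - 1 ≠ 0 := by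
    rw [hr, sub_ne_zero]
    intro h
    exact hbc (by rwa [div_eq_one_iff_eq hc] at h)
  obtain ⟨s, hs⟩ : ∃ s, s = c / (r - 1) := ⟨_, rfl⟩
  have hc' : c = s * (r - 1) := by rw [hs, div_mul_cancel₀ _ hr1]
  have hb' : b = r * c := by rw [hr, div_mul_cancel₀ _ hc]
  obtain ⟨h4, e4⟩ : ∃ h : T.toAffine.Nonsingular (r * (r - 1)) (r ^ 2 * (c - r + 1)),
      (4 : ℕ) • P = Point.some _ _ h := by
    obtain ⟨h, e⟩ := add_origin T hc h0 h3 (X := r * (r - 1)) (Y := r ^ 2 * (c - r + 1))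
      (by rw [ha₁, ha₂, hb']; field_simp; ring) (by rw [ha₁, ha₃, hb']; field_simp; ring)
    exact ⟨h, by rw [succ_nsmul, e3]; exact e⟩
  have hx4 : r * (r - 1) ≠ 0 := mul_ne_zero hr0 hr1
  obtain ⟨h5, e5⟩ : ∃ h : T.toAffine.Nonsingular (r * s * (s - 1)) (r * s ^ 2 * (r - s)),
      (5 : ℕ) • P = Point.some _ _ h := by
    obtain ⟨h, e⟩ := add_origin T hx4 h0 h4 (X := r * s * (s - 1)) (Y := r * s ^ 2 * (r - s))
      (by rw [ha₁, ha₂, hb', hc']; field_simp; ring)
      (by rw [ha₁, ha₃, hb', hc']; field_simp; ring)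
    exact ⟨h, by rw [succ_nsmul, e4]; exact e⟩
  have hs0 : s ≠ 0 := fun h => hc (by rw [hc', h, zero_mul])
  have hs1 : s - 1 ≠ 0 := by
    intro h
    have hx : r * s * (s - 1) = 0 := by rw [h, mul_zero]
    rcases nsmul_eq_zero_of_x_eq (by norm_num : 1 ≤ 5) hP1 e5 hx.symm with e | e <;>
      exact nsmul_ne_zero_of_order hord (by norm_num) (by norm_num) e
  have hx5 : r * s * (s - 1) ≠ 0 := mul_ne_zero (mul_ne_zero hr0 hs0) hs1
  obtain ⟨l, hl⟩ : ∃ l, l = s * (r - s) / (s - 1) := ⟨_, rfl⟩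
  have hl' : r * s ^ 2 * (r - s) / (r * s * (s - 1)) = l := by rw [hl]; field_simp
  obtain ⟨h6, e6⟩ := add_origin T hx5 h0 h5 rfl rfl
  rw [← e5] at e6
  have e11 : (5 : ℕ) • P + P = -((5 : ℕ) • P) := by
    have h11 := addOrderOf_nsmul_eq_zero P
    rw [hord] at h11
    apply eq_neg_of_add_eq_zero_left
    rw [show (11 : ℕ) = 5 + 1 + 5 from rfl, add_nsmul, add_nsmul, one_nsmul] at h11
    exact h11
  rw [e11, e5, Point.neg_some, Point.some.injEq] at e6
  obtain ⟨hX, -⟩ := e6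
  rw [hl'] at hX
  have key : r * (s - 1) ^ 3 = (r - 1) * (r - s) := by
    rw [ha₁, ha₂, hb', hc', hl] at hX
    field_simp at hX
    linear_combination hX
  refine ⟨1 - 1 / s, (r - s ^ 3 + 2 * s ^ 2 - 2 * s) / (s ^ 2 * (s - 1)), ?_, ?_, ?_⟩
  · field_simp
    linear_combination -key
  · intro h
    field_simp at h
    exact hs1 (by rw [h, mul_zero])
  · intro h
    have : (1 : ℚ) / s = 0 := by linarith
    simp [hs0] at this

/-- No elliptic curve over `ℚ` has a rational point of order `11`. -/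
theorem no_point_order_eleven (W : WeierstrassCurve ℚ) [W.IsElliptic] (P : W.toAffine.Point) :
    addOrderOf P ≠ 11 := by
  intro hord
  match P, hord with
  | 0, hord => simp at hord
  | .some x₀ y₀ h, hord =>
    have hd : 2 * y₀ + W.a₁ * x₀ + W.a₃ ≠ 0 := by
      intro hd
      apply nsmul_ne_zero_of_order hord (n := 2) (by norm_num) (by norm_num)
      rw [two_nsmul, Point.add_self_of_Y_eq]
      rw [Affine.negY]
      linear_combination hd
    obtain ⟨s, hs⟩ : ∃ s, s = (W.a₄ + 2 * x₀ * W.a₂ - y₀ * W.a₁ + 3 * x₀ ^ 2) /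
      (2 * y₀ + W.a₁ * x₀ + W.a₃) := ⟨_, rfl⟩
    have heq := (Affine.equation_iff x₀ y₀).mp h.left
    obtain ⟨C, hC⟩ : ∃ C : VariableChange ℚ, C = ⟨1, x₀, s, y₀⟩ := ⟨_, rfl⟩
    have ha₃ : (C • W).a₃ ≠ 0 := by
      intro h'
      apply hd
      rw [hC, variableChange_a₃] at h'
      simp only [inv_one, Units.val_one, one_pow, one_mul] at h'
      linear_combination h'
    have ha₄ : (C • W).a₄ = 0 := by
      rw [hC, variableChange_a₄]
      simp only [inv_one, Units.val_one, one_pow, one_mul]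
      have hsd : s * (2 * y₀ + W.a₁ * x₀ + W.a₃)
          = W.a₄ + 2 * x₀ * W.a₂ - y₀ * W.a₁ + 3 * x₀ ^ 2 := by
        rw [hs, div_mul_cancel₀ _ hd]
      linear_combination -hsd
    have ha₆ : (C • W).a₆ = 0 := by
      rw [hC, variableChange_a₆]
      simp only [inv_one, Units.val_one, one_pow, one_mul]
      linear_combination -heq
    have h0 : (C • W).toAffine.Nonsingular 0 0 :=
      Affine.equation_iff_nonsingular.mp ((Affine.equation_zero).mpr ha₆)
    have hP₁ : addOrderOf (Point.some 0 0 h0) = 11 := by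
      rw [← addOrderOf_injective (vcHom W C) (vcHom_injective W C), ← hord]
      congr 1
      rw [vcHom_apply, vcFun_some]
      simp [vcX, vcY, hC]
    obtain ⟨h2, e2⟩ := double_origin (C • W) ha₄ ha₃ h0
    have ha₂ : (C • W).a₂ ≠ 0 := by
      intro h'
      rw [← two_nsmul] at e2
      rcases nsmul_eq_zero_of_x_eq (by norm_num : 1 ≤ 2) (one_nsmul _) e2 (by rw [h', neg_zero])
        with e | e <;>
        exact nsmul_ne_zero_of_order hP₁ (by norm_num) (by norm_num) e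
    obtain ⟨W₁, hW₁⟩ : ∃ W₁, W₁ = C • W := ⟨_, rfl⟩
    obtain ⟨u, hu⟩ : ∃ u, u = W₁.a₃ / W₁.a₂ := ⟨_, rfl⟩
    subst hW₁
    have hu0 : u ≠ 0 := hu ▸ div_ne_zero ha₃ ha₂
    obtain ⟨D, hD⟩ : ∃ D : VariableChange ℚ, D = ⟨Units.mk0 u hu0, 0, 0, 0⟩ := ⟨_, rfl⟩
    have k0 : (D • (C • W)).toAffine.Nonsingular 0 0 := by
      refine Affine.equation_iff_nonsingular.mp ((Affine.equation_zero).mpr ?_)
      rw [hD, variableChange_a₆, ha₆]; simp
    have hP₂ : addOrderOf (Point.some 0 0 k0) = 11 := by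
      rw [← addOrderOf_injective (vcHom (C • W) D) (vcHom_injective _ D), ← hP₁]
      congr 1
      rw [vcHom_apply, vcFun_some]
      simp [vcX, vcY, hD]
    obtain ⟨x, y, hxy, hx0, hx1⟩ := tate_eleven (D • (C • W))
      (-(D • (C • W)).a₂) (1 - (D • (C • W)).a₁)
      (by ring) (by ring)
      (by
        rw [neg_neg, hD, variableChange_a₃, variableChange_a₂]
        simp only [Units.val_inv_eq_inv_val, Units.val_mk0]
        rw [hu]
        field_simp
        ring)
      (by rw [hD, variableChange_a₄, ha₄]; simp)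
      (by rw [hD, variableChange_a₆, ha₆]; simp)
      k0 hP₂
    rcases x1_eleven_points x y hxy with e | e
    · exact hx0 e
    · exact hx1 e

end FLTA.EllPoints.Eleven
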