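import Fermat.Agent.EllPoints.FifteenCurve
import Mathlib.AlgebraicGeometry.EllipticCurve.Affine.Point

set_option autoImplicit false

/-!
# The Tate normal form has no rational point `(0, 0)` of order 15
-/

namespace FLTA.EllPoints.Fifteen

open WeierstrassCurve

/-- On `y² + (1 - c) x y - b y = x³ - b x²` the point `(0, 0)` does not have order 15. -/
theorem tate_addOrderOf_ne {W : WeierstrassCurve ℚ} {b c : ℚ} (h1 : W.a₁ = 1 - c)
    (h2 : W.a₂ = -b) (h3 : W.a₃ = -b) (h4 : W.a₄ = 0) (_h6 : W.a₆ = 0)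
    (hns : W.toAffine.Nonsingular 0 0) : addOrderOf (Affine.Point.some 0 0 hns) ≠ 15 := by
  intro hord
  set P := Affine.Point.some 0 0 hns with hPdef
  have hn : ∀ n : ℕ, 0 < n → n < 15 → n • P ≠ 0 := fun n hn1 hn2 h0 => by
    have := hord ▸ addOrderOf_dvd_of_nsmul_eq_zero h0
    exact absurd (Nat.le_of_dvd hn1 this) (by omega)
  have hb : b ≠ 0 := by
    intro hb0
    have := ((Affine.nonsingular_iff _ _).1 hns).2
    simp [h3, h4, hb0] at this
  have hnegY : W.toAffine.negY 0 0 = b := by simp [Affine.negY, h3]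
  have hy0 : (0 : ℚ) ≠ W.toAffine.negY 0 0 := by rw [hnegY]; exact fun h => hb h.symm
  -- `2 P = (b, b c)`
  obtain ⟨n2, e2⟩ : ∃ h', (2 : ℕ) • P = Affine.Point.some b (b * c) h' := by
    have hl : W.toAffine.slope 0 0 0 0 = 0 := by
      rw [Affine.slope_of_Y_ne rfl hy0]; simp [h4]
    have hX : W.toAffine.addX 0 0 0 = b := by simp [Affine.addX, h2]
    have hY : W.toAffine.addY 0 0 0 0 = b * c := by
      simp only [Affine.addY, Affine.negAddY, hX]; simp [Affine.negY, h1, h3]; ring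
    have h := Affine.Point.add_self_of_Y_ne (h₁ := hns) hy0
    rw [← hPdef, ← two_nsmul] at h
    simp only [hl, hX, hY] at h
    exact ⟨_, h⟩
  -- `3 P = (c, b - c)`
  obtain ⟨n3, e3⟩ : ∃ h', (3 : ℕ) • P = Affine.Point.some c (b - c) h' := by
    have hl : W.toAffine.slope b 0 (b * c) 0 = c := by
      rw [Affine.slope_of_X_ne hb]; field_simp; ring
    have hX : W.toAffine.addX b 0 c = c := by simp [Affine.addX, h1, h2]; ring
    have hY : W.toAffine.addY b 0 (b * c) c = b - c := by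
      simp only [Affine.addY, Affine.negAddY, hX]; simp [Affine.negY, h1, h3]; ring
    have h := Affine.Point.add_of_X_ne (h₁ := n2) (h₂ := hns) hb
    rw [← e2, ← hPdef, ← succ_nsmul] at h
    simp only [hl, hX, hY] at h
    exact ⟨_, h⟩
  have hc : c ≠ 0 := by
    intro hc0
    have : (3 : ℕ) • P = -P := by
      rw [e3, hPdef, Affine.Point.neg_some]
      simp [hc0, Affine.negY, h3]
    exact hn 4 (by norm_num) (by norm_num) (by rw [succ_nsmul, this, neg_add_cancel])
  -- `4 P = (r (r - 1), r ^ 2 (c - r + 1))` with `r = b / c`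
  set r : ℚ := b / c with hr
  have hbr : b = r * c := by rw [hr]; field_simp
  obtain ⟨n4, e4⟩ : ∃ h', (4 : ℕ) • P =
      Affine.Point.some (r * (r - 1)) (r ^ 2 * (c - r + 1)) h' := by
    have hl : W.toAffine.slope c 0 (b - c) 0 = r - 1 := by
      rw [Affine.slope_of_X_ne hc]; rw [hbr]; field_simp; ring
    have hX : W.toAffine.addX c 0 (r - 1) = r * (r - 1) := by
      simp [Affine.addX, h1, h2, hbr]; ring
    have hY : W.toAffine.addY c 0 (b - c) (r - 1) = r ^ 2 * (c - r + 1) := by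
      simp only [Affine.addY, Affine.negAddY, hX]; simp [Affine.negY, h1, h3, hbr]; ring
    have h := Affine.Point.add_of_X_ne (h₁ := n3) (h₂ := hns) hc
    rw [← e3, ← hPdef, ← succ_nsmul] at h
    simp only [hl, hX, hY] at h
    exact ⟨_, h⟩
  have hr0 : r ≠ 0 := by rw [hr]; exact div_ne_zero hb hc
  have hr1 : r - 1 ≠ 0 := by
    intro h0
    have hr' : r = 1 := by linarith
    have : (4 : ℕ) • P = -P := by
      rw [e4, hPdef, Affine.Point.neg_some]
      simp [hr', Affine.negY, h3, hbr]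
    exact hn 5 (by norm_num) (by norm_num) (by rw [succ_nsmul, this, neg_add_cancel])
  set s : ℚ := c / (r - 1) with hs
  have hcs : c = s * (r - 1) := by rw [hs]; field_simp
  have hbs : b = r * s * (r - 1) := by rw [hbr, hcs]; ring
  -- `5 P`
  have hx4 : r * (r - 1) ≠ 0 := mul_ne_zero hr0 hr1
  obtain ⟨n5, e5⟩ : ∃ h', (5 : ℕ) • P =
      Affine.Point.some (r * s * (s - 1)) (r * s ^ 2 * (r - s)) h' := by
    have hl : W.toAffine.slope (r * (r - 1)) 0 (r ^ 2 * (c - r + 1)) 0 = r * (s - 1) := by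
      rw [Affine.slope_of_X_ne hx4, hcs]; field_simp; ring
    have hX : W.toAffine.addX (r * (r - 1)) 0 (r * (s - 1)) = r * s * (s - 1) := by
      simp [Affine.addX, h1, h2, hbs, hcs]; ring
    have hY : W.toAffine.addY (r * (r - 1)) 0 (r ^ 2 * (c - r + 1)) (r * (s - 1))
        = r * s ^ 2 * (r - s) := by
      simp only [Affine.addY, Affine.negAddY, hX]; simp [Affine.negY, h1, h3, hbs, hcs]; ring
    have h := Affine.Point.add_of_X_ne (h₁ := n4) (h₂ := hns) hx4
    rw [← e4, ← hPdef, ← succ_nsmul] at h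
    simp only [hl, hX, hY] at h
    exact ⟨_, h⟩
  have hs0 : s ≠ 0 := by rw [hs]; exact div_ne_zero hc hr1
  have hs1 : s ≠ 1 := by
    intro hs'
    have : (5 : ℕ) • P = -P := by
      rw [e5, hPdef, Affine.Point.neg_some]
      simp [hs', Affine.negY, h3, hbs]
    exact hn 6 (by norm_num) (by norm_num) (by rw [succ_nsmul, this, neg_add_cancel])
  have hrs : r ≠ s := by
    intro hrs'
    rcases (Affine.Point.X_eq_iff (h₁ := n5) (h₂ := n2)).1 (by rw [hbs, ← hrs']) with he | he <;>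
      rw [← e5, ← e2] at he
    · refine hn 3 (by norm_num) (by norm_num) ?_
      rw [show (5 : ℕ) = 2 + 3 from rfl, add_nsmul] at he
      exact add_eq_left.1 he
    · refine hn 7 (by norm_num) (by norm_num) ?_
      rw [show (7 : ℕ) = 5 + 2 from rfl, add_nsmul, he, neg_add_cancel]
  -- `5 P` has order `3`
  set x5 := r * s * (s - 1) with hx5
  set y5 := r * s ^ 2 * (r - s) with hy5
  have hy : y5 ≠ W.toAffine.negY x5 y5 := fun he =>
    hn 10 (by norm_num) (by norm_num) (by
      rw [show (10 : ℕ) = 5 + 5 from rfl, add_nsmul, e5]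
      exact Affine.Point.add_self_of_Y_eq he)
  have h15 : (5 : ℕ) • P + (5 : ℕ) • P = -((5 : ℕ) • P) := by
    rw [← add_eq_zero_iff_eq_neg, ← add_nsmul, ← add_nsmul]
    simpa [hord] using addOrderOf_nsmul_eq_zero P
  rw [e5, Affine.Point.add_self_of_Y_ne hy, Affine.Point.neg_some] at h15
  have hxeq := (Affine.Point.some.injEq ..).mp h15 |>.1
  have hd : y5 - W.toAffine.negY x5 y5 ≠ 0 := sub_ne_zero.2 hy
  rw [Affine.slope_of_Y_ne rfl hy] at hxeq
  simp only [Affine.addX] at hxeq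
  field_simp at hxeq
  simp only [Affine.negY, h1, h2, h3, h4] at hxeq
  have hG : r ^ 3 * s ^ 3 *
      (s - s ^ 2 + s ^ 3 - s ^ 4 + s ^ 5 + r * (-5 * s + 5 * s ^ 2 - 4 * s ^ 4 + s ^ 5)
        + r ^ 2 * (10 * s - 19 * s ^ 2 + 18 * s ^ 3 - 7 * s ^ 4 + s ^ 5) - r ^ 3) = 0 := by
    rw [hx5, hy5, hbs, hcs] at hxeq
    linear_combination (-1 : ℚ) * hxeq
  exact fifteen_poly_ne_zero r s hs1 hrs ((mul_eq_zero.1 hG).resolve_left
    (mul_ne_zero (pow_ne_zero _ hr0) (pow_ne_zero _ hs0)))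

end FLTA.EllPoints.Fifteen
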