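import Fermat.Agent.EllPoints.FifteenTransport
import Fermat.Agent.EllPoints.FifteenTate

set_option autoImplicit false

/-!
# No elliptic curve over `ℚ` has a rational point of order 15
-/

namespace FLTA.EllPoints.Fifteen

open WeierstrassCurve

/-- An elliptic curve over `ℚ` has no rational point of order 15. -/
theorem addOrderOf_ne_fifteen {W : WeierstrassCurve ℚ} (hΔ : W.Δ ≠ 0) (P : W.toAffine.Point) :
    addOrderOf P ≠ 15 := by
  have : W.IsElliptic := ⟨isUnit_iff_ne_zero.2 hΔ⟩
  intro hord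
  have hn : ∀ n : ℕ, 0 < n → n < 15 → n • P ≠ 0 := fun n hn1 hn2 h0 => by
    have := hord ▸ addOrderOf_dvd_of_nsmul_eq_zero h0
    exact absurd (Nat.le_of_dvd hn1 this) (by omega)
  rcases P with _ | ⟨x, y, h⟩
  · exact hn 1 one_pos (by norm_num) (one_nsmul _)
  set P := Affine.Point.some x y h with hPdef
  have hy : y ≠ W.toAffine.negY x y := fun hy =>
    hn 2 (by norm_num) (by norm_num) (by rw [two_nsmul]; exact Affine.Point.add_self_of_Y_eq hy)
  set l := W.toAffine.slope x x y y with hl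
  set x2 := W.toAffine.addX x x l with hx2
  obtain ⟨h2, hP2⟩ : ∃ h2, P + P =
      Affine.Point.some x2 (W.toAffine.addY x x y l) h2 :=
    ⟨_, Affine.Point.add_self_of_Y_ne hy⟩
  have hx : x ≠ x2 := by
    intro hx
    rcases (Affine.Point.X_eq_iff (h₁ := h) (h₂ := h2)).mp hx with he | he <;>
      rw [← hP2, ← hPdef] at he
    · refine hn 1 (by norm_num) (by norm_num) ?_
      rw [one_nsmul]; exact add_eq_left.mp he.symm
    · refine hn 3 (by norm_num) (by norm_num) ?_
      rw [show (3 : ℕ) • P = P + (P + P) by abel, add_eq_zero_iff_eq_neg]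
      exact he
  have hA3 : y - W.toAffine.negY x y ≠ 0 := sub_ne_zero.2 hy
  have hA2 : x - x2 ≠ 0 := sub_ne_zero.2 hx
  have hleq : l * (y - W.toAffine.negY x y) =
      3 * x ^ 2 + 2 * W.a₂ * x + W.a₄ - W.a₁ * y := by
    rw [hl, Affine.slope_of_Y_ne rfl hy, div_mul_cancel₀ _ hA3]
  set u : ℚˣ := Units.mk0 ((y - W.toAffine.negY x y) / (x - x2)) (div_ne_zero hA3 hA2) with hu
  set C : VariableChange ℚ := ⟨u, x, l, y⟩ with hC
  have huv : (C.u : ℚ) = (y - W.toAffine.negY x y) / (x - x2) := rfl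
  set b : ℚ := -(C • W).a₂ with hb
  set c : ℚ := 1 - (C • W).a₁ with hc
  have e3 : (C • W).a₃ = -b := by
    have t2 : W.a₂ - l * W.a₁ + 3 * x - l ^ 2 = x - x2 := by
      simp only [hx2, Affine.addX]; ring
    have t3 : W.a₃ + x * W.a₁ + 2 * y = y - W.toAffine.negY x y := by
      simp only [Affine.negY]; ring
    rw [hb, neg_neg, variableChange_a₂, variableChange_a₃, Units.val_inv_eq_inv_val, huv]
    simp only [hC]
    rw [t2, t3]
    field_simp
  have e4 : (C • W).a₄ = 0 := by
    rw [variableChange_a₄]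
    simp only [hC]
    simp only [Affine.negY] at hleq
    refine mul_eq_zero_of_right _ ?_
    linear_combination -hleq
  have e6 : (C • W).a₆ = 0 := by
    have he : y ^ 2 + W.a₁ * x * y + W.a₃ * y = x ^ 3 + W.a₂ * x ^ 2 + W.a₄ * x + W.a₆ :=
      (Affine.equation_iff x y).mp h.1
    rw [variableChange_a₆]
    simp only [hC]
    refine mul_eq_zero_of_right _ ?_
    linear_combination -he
  obtain ⟨x', y', h', ex, ey, hmap⟩ := exists_vHom_eq W C h
  obtain rfl : x' = 0 := by
    have e : x = (C.u : ℚ) ^ 2 * x' + x := ex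
    have : (C.u : ℚ) ^ 2 * x' = 0 := by linarith
    exact (mul_eq_zero.1 this).resolve_left (pow_ne_zero _ C.u.ne_zero)
  obtain rfl : y' = 0 := by
    have e : y = (C.u : ℚ) ^ 3 * y' + l * (C.u : ℚ) ^ 2 * 0 + y := ey
    have : (C.u : ℚ) ^ 3 * y' = 0 := by linarith
    exact (mul_eq_zero.1 this).resolve_left (pow_ne_zero _ C.u.ne_zero)
  refine tate_addOrderOf_ne (W := C • W) (b := b) (c := c) (by rw [hc]; ring) (by rw [hb]; ring)
    e3 e4 e6 h' ?_
  rw [← addOrderOf_injective (vHom W C) (vHom_injective W C), hmap]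
  exact hord

/-- `addOrderOf_ne_fifteen` with an `IsElliptic` instance argument. -/
theorem addOrderOf_ne_fifteen_of_isElliptic {W : WeierstrassCurve ℚ} [W.IsElliptic]
    (P : W.toAffine.Point) : addOrderOf P ≠ 15 :=
  addOrderOf_ne_fifteen W.isUnit_Δ.ne_zero P

/-- No point killed by 15 unless killed by 3 or by 5. -/
theorem three_or_five_nsmul_eq_zero {W : WeierstrassCurve ℚ} (hΔ : W.Δ ≠ 0)
    {P : W.toAffine.Point} (h : (15 : ℕ) • P = 0) : (3 : ℕ) • P = 0 ∨ (5 : ℕ) • P = 0 := by
  have hd : addOrderOf P ∣ 15 := addOrderOf_dvd_of_nsmul_eq_zero h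
  have hne := addOrderOf_ne_fifteen hΔ P
  have : addOrderOf P ∣ 3 ∨ addOrderOf P ∣ 5 := by
    have hle := Nat.le_of_dvd (by norm_num) hd
    generalize addOrderOf P = n at *
    interval_cases n <;> simp_all
  exact this.imp addOrderOf_dvd_iff_nsmul_eq_zero.1 addOrderOf_dvd_iff_nsmul_eq_zero.1

/-- A curve over `ℚ` does not have both a point of order 3 and a point of order 5. -/
theorem not_three_and_five {W : WeierstrassCurve ℚ} (hΔ : W.Δ ≠ 0)
    {P Q : W.toAffine.Point} (hP : addOrderOf P = 3) (hQ : addOrderOf Q = 5) : False := by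
  apply addOrderOf_ne_fifteen hΔ (P + Q)
  rw [(AddCommute.all P Q).addOrderOf_add_eq_mul_addOrderOf_of_coprime (by rw [hP, hQ]; decide),
    hP, hQ]

end FLTA.EllPoints.Fifteen
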