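import Fermat.Agent.EllPoints.FifteenDescent

set_option autoImplicit false

/-!
# Rational points of the models of `X₁(15)`
-/

namespace FLTA.EllPoints.Fifteen

private lemma residue_sixteen : ∀ x y t : ZMod 16, y * 8 = 8 →
    t ^ 2 ≠ 2 * x ^ 4 - 7 * x ^ 2 * y ^ 2 + 8 * y ^ 4 := by decide +kernel

/-- The only rational points of `Y² = U (U² - 7 U + 16)` have `U = 0` or `U = 4`. -/
theorem weierstrass_points (U Y : ℚ) (h : Y ^ 2 = U * (U ^ 2 - 7 * U + 16)) : U = 0 ∨ U = 4 := by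
  set A : ℤ := U.num with hA
  set B : ℤ := (U.den : ℤ) with hB
  have hB0 : (0 : ℤ) < B := by rw [hB]; exact_mod_cast U.pos
  have hcop : IsCoprime A B := by
    rw [Int.isCoprime_iff_gcd_eq_one]
    simpa [hA, hB, Int.gcd] using U.reduced
  have hU : U = (A : ℚ) / B := by simp [hA, hB, Rat.num_div_den]
  have hBq : (B : ℚ) ≠ 0 := by exact_mod_cast hB0.ne'
  have hsq : IsSquare (B * A * (A ^ 2 - 7 * A * B + 16 * B ^ 2)) := by
    refine Rat.isSquare_intCast_iff.1 ⟨Y * B ^ 2, ?_⟩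
    rw [hU] at h
    field_simp at h
    push_cast
    linear_combination (-(1 : ℚ)) * (B : ℚ) * h
  obtain ⟨N, hN⟩ := hsq
  by_cases hA0 : A = 0
  · exact Or.inl (by rw [hU, hA0]; simp)
  set M : ℤ := A ^ 2 - 7 * A * B + 16 * B ^ 2 with hM
  have hBM : IsCoprime B (A * M) := by
    refine IsCoprime.mul_right hcop.symm ?_
    have h5 := (hcop.symm.pow_right (n := 2)).add_mul_left_right (-7 * A + 16 * B)
    convert h5 using 1 <;> first | rfl | (rw [hM]; ring)
  obtain ⟨β, hβ⟩ : ∃ β : ℤ, B = β ^ 2 := by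
    obtain ⟨β, hβ | hβ⟩ := Int.sq_of_isCoprime hBM
      (show B * (A * M) = N ^ 2 by rw [← mul_assoc]; linarith)
    · exact ⟨β, hβ⟩
    · exfalso; nlinarith [sq_nonneg β]
  obtain ⟨w, hw⟩ : ∃ w : ℤ, A * M = w ^ 2 := by
    obtain ⟨w, hw | hw⟩ := Int.sq_of_isCoprime hBM.symm
      (show A * M * B = N ^ 2 by linarith)
    · exact ⟨w, hw⟩
    · refine ⟨0, ?_⟩
      have h3 : A * M * B = N ^ 2 := by linarith
      have h4 : 0 ≤ A * M := by
        by_contra hlt
        nlinarith [mul_neg_of_neg_of_pos (lt_of_not_ge hlt) hB0, sq_nonneg N]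
      nlinarith [sq_nonneg w]
  have hMpos : 0 < M := by
    have e : 4 * M = (2 * A - 7 * B) ^ 2 + 15 * B ^ 2 := by rw [hM]; ring
    nlinarith [sq_nonneg (2 * A - 7 * B), mul_pos hB0 hB0]
  have hApos : 0 < A := by
    rcases lt_or_gt_of_ne hA0 with hlt | hgt
    · exfalso; nlinarith [mul_neg_of_neg_of_pos hlt hMpos, sq_nonneg w]
    · exact hgt
  -- squarefree part of `A`
  obtain ⟨a, b, hab, ha⟩ := Nat.sq_mul_squarefree A.natAbs
  have hA' : A = (b : ℤ) ^ 2 * (a : ℤ) := by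
    have h1 : (A.natAbs : ℤ) = A := Int.natAbs_of_nonneg hApos.le
    rw [← h1, ← hab]; push_cast; ring
  have hsqf : Squarefree (a : ℤ) := Int.squarefree_natCast.2 ha
  have hb0 : (b : ℤ) ≠ 0 := by intro h0; rw [h0] at hA'; simp at hA'; omega
  obtain ⟨z, hz⟩ : (b : ℤ) ∣ w := by
    refine (Int.pow_dvd_pow_iff two_ne_zero).1 ⟨(a : ℤ) * M, ?_⟩
    rw [← hw, hA']; ring
  have hz2 : (a : ℤ) * M = z ^ 2 := by
    apply mul_left_cancel₀ (pow_ne_zero 2 hb0)
    rw [← mul_assoc, ← hA', hw, hz]; ring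
  have ha0 : (a : ℤ) ≠ 0 := by intro h0; rw [h0] at hA'; simp at hA'; omega
  obtain ⟨t, rfl⟩ : (a : ℤ) ∣ z :=
    hsqf.isRadical 2 z ⟨M, hz2.symm⟩
  have hMt : M = (a : ℤ) * t ^ 2 := mul_left_cancel₀ ha0 (by rw [hz2]; ring)
  have hdvd16 : (a : ℤ) ∣ 16 := by
    have hdA : (a : ℤ) ∣ A := ⟨(b : ℤ) ^ 2, by rw [hA']; ring⟩
    have : (a : ℤ) ∣ 16 * B ^ 2 := by
      have e : 16 * B ^ 2 = M - A * (A - 7 * B) := by rw [hM]; ring
      rw [e]
      exact dvd_sub ⟨t ^ 2, hMt⟩ (hdA.mul_right _)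
    exact ((hcop.of_isCoprime_of_dvd_left hdA).pow_right).dvd_of_dvd_mul_right this
  have ha12 : a = 1 ∨ a = 2 := by
    have h16 : a ∣ 16 := by exact_mod_cast hdvd16
    have hle := Nat.le_of_dvd (by norm_num) h16
    have h2 : a ∣ 2 := (ha.dvd_pow_iff_dvd (n := 4) (by norm_num)).1 (by norm_num; exact h16)
    rcases (Nat.dvd_prime Nat.prime_two).1 h2 with h | h
    · exact Or.inl h
    · exact Or.inr h
  have hbβ : IsCoprime (b : ℤ) β := by
    rw [hA', hβ] at hcop
    exact (IsCoprime.pow_iff two_pos two_pos).1 hcop.of_mul_left_left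
  rcases ha12 with rfl | rfl
  · -- `A` is a square
    have e : ((b : ℤ) ^ 2 - 4 * β ^ 2) ^ 2 + ((b : ℤ) * β) ^ 2 = t ^ 2 := by
      rw [hM, hA', hβ] at hMt
      push_cast at hMt
      linear_combination hMt
    rcases quartic hbβ e with h0 | h0 | h0
    · exact absurd h0 hb0
    · rw [h0] at hβ; simp [hβ] at hB0
    · right
      rw [hU, hA', hβ]
      have h1 : ((b : ℚ)) ^ 2 = 4 * (β : ℚ) ^ 2 := by exact_mod_cast h0
      have h2 : (β : ℚ) ≠ 0 := by
        intro h3; apply hBq; rw [hβ]; push_cast; rw [h3]; ring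
      push_cast
      field_simp
      linear_combination h1
  · -- `A` twice a square: impossible mod 16
    exfalso
    have hodd : β % 2 = 1 := by
      rw [hA', hβ] at hcop
      have h2 : IsCoprime (2 : ℤ) β := by
        have := (hcop.of_mul_left_right)
        push_cast at this
        exact this.of_isCoprime_of_dvd_right (dvd_pow_self β two_ne_zero)
      rcases Int.emod_two_eq β with h0 | h0
      · have := Int.isUnit_iff.1 (h2.isUnit_of_dvd' dvd_rfl (Int.dvd_of_emod_eq_zero h0))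
        omega
      · exact h0
    have e : t ^ 2 = 2 * (b : ℤ) ^ 4 - 7 * (b : ℤ) ^ 2 * β ^ 2 + 8 * β ^ 4 := by
      rw [hM, hA', hβ] at hMt
      push_cast at hMt
      linarith
    apply residue_sixteen (b : ZMod 16) (β : ZMod 16) (t : ZMod 16)
    · have h8 : ((β * 8 - 8 : ℤ) : ZMod 16) = 0 :=
        (ZMod.intCast_zmod_eq_zero_iff_dvd _ 16).2 (by push_cast; omega)
      push_cast at h8
      exact sub_eq_zero.1 h8
    · have := congrArg (Int.cast : ℤ → ZMod 16) e
      push_cast at this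
      exact this

/-- The rational points with `y = 0` or `y = -1` are the only ones on Sutherland's model of
`X₁(15)`. -/
theorem x1_points (x y : ℚ) (h : y ^ 2 + (x ^ 2 + x + 1) * y + x ^ 2 = 0) : y = 0 ∨ y = -1 := by
  have := weierstrass_points (-4 * y) (4 * (2 * x * (y + 1) + y))
    (by linear_combination 64 * (y + 1) * h)
  rcases this with h' | h'
  · left; linarith
  · right; linarith

/-- No non-cuspidal rational zero of the polynomial `F₁₅ (r, s)` cutting out points of order 15 in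
the family of Tate normal forms. -/
theorem fifteen_poly_ne_zero (r s : ℚ) (hs : s ≠ 1) (hrs : r ≠ s) :
    s - s ^ 2 + s ^ 3 - s ^ 4 + s ^ 5 + r * (-5 * s + 5 * s ^ 2 - 4 * s ^ 4 + s ^ 5)
      + r ^ 2 * (10 * s - 19 * s ^ 2 + 18 * s ^ 3 - 7 * s ^ 4 + s ^ 5) - r ^ 3 ≠ 0 := by
  intro hF
  set u := s - 1 with hu
  set v := r - 1 with hv
  set D := u * (v - u) with hD
  set x := (u + u ^ 2 - v) / D with hx
  have hu0 : u ≠ 0 := sub_ne_zero.2 hs
  have hD0 : D ≠ 0 := mul_ne_zero hu0 (by rw [hu, hv]; intro h; apply hrs; linarith)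
  have hcubic : u ^ 2 * x * (x + 1) ^ 2 + (x ^ 2 + x + 1) * u * (x + 1) + x = 0 := by
    have : (u ^ 2 * x * (x + 1) ^ 2 + (x ^ 2 + x + 1) * u * (x + 1) + x) * D ^ 3 = 0 := by
      rw [hx]
      field_simp
      rw [hD, hu, hv]
      linear_combination (s - 1) * hF
    exact (mul_eq_zero.1 this).resolve_right (pow_ne_zero _ hD0)
  have hQ : (u * x * (x + 1)) ^ 2 + (x ^ 2 + x + 1) * (u * x * (x + 1)) + x ^ 2 = 0 := by
    linear_combination x * hcubic
  rcases x1_points _ _ hQ with h | h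
  · rcases mul_eq_zero.1 h with h' | h'
    · have h0 : x = 0 := (mul_eq_zero.1 h').resolve_left hu0
      rw [h0] at hcubic; norm_num at hcubic; exact hu0 hcubic
    · have h0 : x = -1 := by linarith
      rw [h0] at hcubic; norm_num at hcubic
  · rw [h] at hQ
    have h0 : x = 0 := by linarith
    rw [h0] at h; norm_num at h

end FLTA.EllPoints.Fifteen
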