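import Mathlib

set_option autoImplicit false

/-!
# The rational points of `Y² = U (U² - 7 U + 16)` (a model of `X₁(15)`)

Infinite descent on the concordant system `a² + d² = □`, `a² + 16 d² = □`.
-/

namespace FLTA.EllPoints.Fifteen

/-- Factorisation of two coprime factorisations of the same integer. -/
lemma four_number {p q r s : ℤ} (h : p * q = r * s) (hp : p ≠ 0) :
    ∃ α β γ δ : ℤ, p = α * γ ∧ q = β * δ ∧ r = α * β ∧ s = γ * δ := by
  obtain ⟨γ, hγ⟩ := Int.gcd_dvd_left p r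
  obtain ⟨β, hβ⟩ := Int.gcd_dvd_right p r
  set α : ℤ := (Int.gcd p r : ℤ)
  have hα : α ≠ 0 := by intro h0; rw [h0] at hγ; simp at hγ; exact hp hγ
  have hγ0 : γ ≠ 0 := by intro h0; rw [h0] at hγ; simp at hγ; exact hp hγ
  have hcop : IsCoprime γ β := by
    rw [Int.isCoprime_iff_gcd_eq_one]
    have h1 : Int.gcd (α * γ) (α * β) = α.natAbs * Int.gcd γ β := Int.gcd_mul_left ..
    rw [← hγ, ← hβ] at h1
    have h2 : α.natAbs = Int.gcd p r := by simp [α]
    rw [h2] at h1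
    have h3 : 0 < Int.gcd p r := by
      rcases Nat.eq_zero_or_pos (Int.gcd p r) with h0 | h0
      · exfalso; apply hα; simp [α, h0]
      · exact h0
    nlinarith [h1, h3]
  have h' : γ * q = β * s := mul_left_cancel₀ hα (by rw [hγ, hβ] at h; linarith)
  obtain ⟨δ, hδ⟩ : γ ∣ s := hcop.dvd_of_dvd_mul_left ⟨q, h'.symm⟩
  refine ⟨α, β, γ, δ, hγ, ?_, hβ, hδ⟩
  apply mul_left_cancel₀ hγ0
  rw [h', hδ]; ring

lemma sq_emod_eight_of_odd {a : ℤ} (ha : Odd a) : a ^ 2 % 8 = 1 :=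
  by
  obtain ⟨k, rfl⟩ := ha
  obtain ⟨j, hj⟩ := Int.even_mul_succ_self k
  have : (2 * k + 1) ^ 2 = 8 * j + 1 := by linear_combination 4 * hj
  omega

/-- The key linear step: `a² (b² - c²) = d² (16 c² - b²)` forces `b² - c² = K d²`,
`16 c² - b² = K a²` with `K` a positive divisor of `15`. -/
lemma system_factor {a b c d : ℤ} (had : IsCoprime a d) (hbc : IsCoprime b c)
    (hd : d ≠ 0) (hc : c ≠ 0) (h : a ^ 2 * (b ^ 2 - c ^ 2) = d ^ 2 * (16 * c ^ 2 - b ^ 2)) :
    ∃ K : ℤ, (K = 1 ∨ K = 3 ∨ K = 5 ∨ K = 15) ∧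
      b ^ 2 - c ^ 2 = K * d ^ 2 ∧ 16 * c ^ 2 - b ^ 2 = K * a ^ 2 := by
  obtain ⟨K, hK⟩ : d ^ 2 ∣ b ^ 2 - c ^ 2 :=
    ((had.symm.pow (m := 2) (n := 2))).dvd_of_dvd_mul_left ⟨_, h⟩
  have hd2 : d ^ 2 ≠ 0 := pow_ne_zero _ hd
  have h2 : 16 * c ^ 2 - b ^ 2 = K * a ^ 2 := by
    apply mul_left_cancel₀ hd2
    rw [← h, hK]; ring
  have e1 : 15 * c ^ 2 = K * (a ^ 2 + d ^ 2) := by linear_combination hK + h2
  have e2 : 15 * b ^ 2 = K * (16 * d ^ 2 + a ^ 2) := by linear_combination 16 * hK + h2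
  have hdvd : K ∣ 15 := by
    obtain ⟨u, v, huv⟩ := hbc.pow (m := 2) (n := 2)
    have : (15 : ℤ) = u * (15 * b ^ 2) + v * (15 * c ^ 2) := by linear_combination (-15) * huv
    rw [this, e1, e2]
    exact dvd_add (dvd_mul_of_dvd_right (dvd_mul_right ..) _)
      (dvd_mul_of_dvd_right (dvd_mul_right ..) _)
  have hpos : 0 < K := by
    by_contra hle
    have : 0 < c ^ 2 := by positivity
    have h0 : 0 ≤ a ^ 2 + d ^ 2 := by positivity
    nlinarith [mul_nonpos_iff.2 (Or.inr ⟨le_of_not_gt hle, h0⟩)]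
  refine ⟨K, ?_, by rw [hK]; ring, h2⟩
  have hle : K ≤ 15 := Int.le_of_dvd (by norm_num) hdvd
  interval_cases K <;> omega

/-- Infinite descent on the concordant system. -/
theorem concordant (a d : ℤ) (ha : Odd a) (had : IsCoprime a d)
    (b c : ℤ) (hc : a ^ 2 + d ^ 2 = c ^ 2) (hb : a ^ 2 + 16 * d ^ 2 = b ^ 2) : d = 0 := by
  induction hn : d.natAbs using Nat.strong_induction_on generalizing a d b c with
  | _ n ih =>
  subst hn
  by_contra hd
  have ha0 : a ≠ 0 := by rintro rfl; simp at ha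
  -- the two Pythagorean triples
  have ha2 : a % 2 = 1 := Int.odd_iff.1 ha
  have hcop4 : IsCoprime a (4 * d) := by
    refine IsCoprime.mul_right ?_ had
    have : IsCoprime a 2 := (Int.isCoprime_iff_gcd_eq_one).2 (by
      rw [Int.gcd_comm]; rcases ha with ⟨k, rfl⟩
      simp)
    have h4 := this.pow_right (n := 2); norm_num at h4; exact h4
  have t1 : PythagoreanTriple a d c := by
    unfold PythagoreanTriple; linear_combination hc
  have t2 : PythagoreanTriple a (4 * d) b := by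
    unfold PythagoreanTriple; linear_combination hb
  obtain ⟨p, q, hx, -, hpq, hpar⟩ := PythagoreanTriple.coprime_classification.1
    ⟨t1, Int.isCoprime_iff_gcd_eq_one.1 had⟩
  obtain ⟨r, s, hx', -, hrs, hpar'⟩ := PythagoreanTriple.coprime_classification.1
    ⟨t2, Int.isCoprime_iff_gcd_eq_one.1 hcop4⟩
  have hx1 : a = p ^ 2 - q ^ 2 ∧ d = 2 * p * q := by
    rcases hx with h | ⟨h, -⟩
    · exact h
    · exfalso; rw [h, mul_assoc] at ha2; omega
  have hx2 : a = r ^ 2 - s ^ 2 ∧ 4 * d = 2 * r * s := by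
    rcases hx' with h | ⟨h, -⟩
    · exact h
    · exfalso; rw [h, mul_assoc] at ha2; omega
  obtain ⟨ha1, hd1⟩ := hx1
  obtain ⟨ha', hd'⟩ := hx2
  have hrs4 : r * s = 4 * (p * q) := by rw [hd1] at hd'; linarith
  have hpqI : IsCoprime p q := Int.isCoprime_iff_gcd_eq_one.2 hpq
  have hrsI : IsCoprime r s := Int.isCoprime_iff_gcd_eq_one.2 hrs
  have hp0 : p ≠ 0 := by rintro rfl; simp at hd1; exact hd hd1
  have hq0 : q ≠ 0 := by rintro rfl; simp at hd1; exact hd hd1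
  -- the descent step
  have step : ∀ δ α β' γ' : ℤ, Odd δ → IsCoprime δ α → δ ^ 2 + α ^ 2 = β' ^ 2 →
      δ ^ 2 + 16 * α ^ 2 = γ' ^ 2 → α ∣ p * q → α = 0 := by
    intro δ α β' γ' h1 h2 h3 h4 hdvd
    refine ih α.natAbs ?_ δ α h1 h2 γ' β' h3 h4 rfl
    have hle : α.natAbs ≤ (p * q).natAbs :=
      Nat.le_of_dvd (Int.natAbs_pos.2 (mul_ne_zero hp0 hq0)) (Int.natAbs_dvd_natAbs.2 hdvd)
    have : 0 < (p * q).natAbs := Int.natAbs_pos.2 (mul_ne_zero hp0 hq0)
    rw [hd1, mul_assoc, Int.natAbs_mul]; norm_num; omega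
  rcases hpar' with ⟨hr, hs⟩ | ⟨hr, hs⟩
  · -- `r` even, a multiple of `4`
    have hs2 : Odd s := Int.odd_iff.2 hs
    have : IsCoprime (4 : ℤ) s := by
      have h2 : IsCoprime (2 : ℤ) s := by
        rcases hs2 with ⟨k, rfl⟩; exact ⟨-k, 1, by ring⟩
      have h4 := h2.pow_left (m := 2); norm_num at h4; exact h4
    obtain ⟨r', rfl⟩ : (4 : ℤ) ∣ r := this.dvd_of_dvd_mul_right ⟨_, hrs4⟩
    have hr' : IsCoprime r' s := hrsI.of_mul_left_right
    obtain ⟨α, β, γ, δ, rfl, rfl, rfl, rfl⟩ :=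
      four_number (p := p) (q := q) (r := r') (s := s) (by linarith) hp0
    have hα : α ≠ 0 := left_ne_zero_of_mul hp0
    have hδ : δ ≠ 0 := right_ne_zero_of_mul hq0
    have hβ : β ≠ 0 := left_ne_zero_of_mul hq0
    have heq : δ ^ 2 * (γ ^ 2 - β ^ 2) = α ^ 2 * (16 * β ^ 2 - γ ^ 2) := by
      linear_combination ha' - ha1
    have hcad : IsCoprime δ α := hr'.symm.of_mul_left_right.of_mul_right_left
    obtain ⟨K, hK, e1, e2⟩ := system_factor hcad hr'.symm.of_mul_left_left.of_mul_right_right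
      hα hβ heq
    obtain ⟨hγo, hδo⟩ := Int.odd_mul.1 hs2
    have m1 := sq_emod_eight_of_odd hγo
    have m2 := sq_emod_eight_of_odd hδo
    rcases hK with rfl | rfl | rfl | rfl
    · omega
    · -- `K = 3`
      have e3 : 5 * γ ^ 2 = δ ^ 2 + 16 * α ^ 2 := by linarith
      omega
    · omega
    · refine hα (step δ α β γ hδo hcad (by linarith) (by linarith) ?_)
      exact Dvd.dvd.mul_right (dvd_mul_right ..) _
  · -- `s` even, a multiple of `4`
    have hr2 : Odd r := Int.odd_iff.2 hr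
    have : IsCoprime (4 : ℤ) r := by
      have h2 : IsCoprime (2 : ℤ) r := by
        rcases hr2 with ⟨k, rfl⟩; exact ⟨-k, 1, by ring⟩
      have h4 := h2.pow_left (m := 2); norm_num at h4; exact h4
    obtain ⟨s', rfl⟩ : (4 : ℤ) ∣ s := this.dvd_of_dvd_mul_left ⟨_, hrs4⟩
    have hs' : IsCoprime r s' := hrsI.of_mul_right_right
    obtain ⟨α, β, γ, δ, rfl, rfl, rfl, rfl⟩ :=
      four_number (p := p) (q := q) (r := s') (s := r) (by linarith) hp0
    -- here `r = γ δ`, `s = 4 α β`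
    have hα : α ≠ 0 := left_ne_zero_of_mul hp0
    have hβ : β ≠ 0 := left_ne_zero_of_mul hq0
    obtain ⟨hγo, hδo⟩ := Int.odd_mul.1 hr2
    have heq : δ ^ 2 * (γ ^ 2 + β ^ 2) = α ^ 2 * (γ ^ 2 + 16 * β ^ 2) := by
      linear_combination ha1 - ha'
    have hcad : IsCoprime δ α := hs'.of_mul_left_right.of_mul_right_left
    have hcbg : IsCoprime γ β := hs'.of_mul_left_left.of_mul_right_right
    obtain ⟨K, hK⟩ : α ^ 2 ∣ γ ^ 2 + β ^ 2 :=
      (hcad.symm.pow (m := 2) (n := 2)).dvd_of_dvd_mul_left ⟨_, heq⟩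
    have hK2 : γ ^ 2 + 16 * β ^ 2 = K * δ ^ 2 := by
      apply mul_left_cancel₀ (pow_ne_zero 2 hα)
      rw [← heq, hK]; ring
    have hK15 : K ∣ 15 := by
      obtain ⟨u, v, huv⟩ := hcbg.pow (m := 2) (n := 2)
      have : (15 : ℤ) = u * (16 * (γ ^ 2 + β ^ 2) - (γ ^ 2 + 16 * β ^ 2))
          + v * ((γ ^ 2 + 16 * β ^ 2) - (γ ^ 2 + β ^ 2)) := by linear_combination (-15) * huv
      rw [this, hK, hK2]
      exact ⟨u * (16 * α ^ 2 - δ ^ 2) + v * (δ ^ 2 - α ^ 2), by ring⟩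
    have hpos : 0 < K := by
      by_contra hle
      have : 0 < β ^ 2 := by positivity
      nlinarith [mul_nonpos_iff.2 (Or.inr ⟨le_of_not_gt hle, sq_nonneg α⟩), sq_nonneg γ]
    have h3 : ¬ (3 : ℤ) ∣ γ ^ 2 + β ^ 2 := by
      have key : ∀ x y : ZMod 3, x ^ 2 + y ^ 2 = 0 → x = 0 ∧ y = 0 := by decide
      intro h3
      have : ((γ ^ 2 + β ^ 2 : ℤ) : ZMod 3) = 0 :=
        (ZMod.intCast_zmod_eq_zero_iff_dvd _ 3).2 h3
      push_cast at this
      obtain ⟨u, v⟩ := key _ _ this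
      have u' := (ZMod.intCast_zmod_eq_zero_iff_dvd γ 3).1 u
      have v' := (ZMod.intCast_zmod_eq_zero_iff_dvd β 3).1 v
      have := Int.isUnit_iff.1 (hcbg.isUnit_of_dvd' u' v')
      omega
    have m1 := sq_emod_eight_of_odd hγo
    have m2 := sq_emod_eight_of_odd hδo
    have hle : K ≤ 15 := Int.le_of_dvd (by norm_num) hK15
    have hK1 : K = 1 := by
      rw [hK] at h3
      interval_cases K <;> omega
    subst hK1
    refine hβ (step γ β α δ hγo hcbg (by linarith) (by linarith) ?_)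
    exact Dvd.dvd.mul_left (dvd_mul_right ..) _

/-- Solutions with `m` odd. -/
theorem quartic_odd {m n w : ℤ} (hm : Odd m) (hmn : IsCoprime m n)
    (h : (m ^ 2 - 4 * n ^ 2) ^ 2 + (m * n) ^ 2 = w ^ 2) : n = 0 := by
  by_contra hn
  have hX : IsCoprime (m ^ 2 - 4 * n ^ 2) (m * n) := by
    refine IsCoprime.mul_right ?_ ?_
    · have h2 : IsCoprime m (2 * n) := by
        refine IsCoprime.mul_right ?_ hmn
        rcases hm with ⟨k, rfl⟩; exact ⟨1, -k, by ring⟩
      have := (h2.pow (m := 1) (n := 2)).symm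
      rw [pow_one] at this
      have h5 := (this.neg_left).add_mul_left_left m
      convert h5 using 1 <;> first | rfl | ring
    · have h5 := (hmn.pow_left (m := 2)).add_mul_left_left (-4 * n)
      convert h5 using 1 <;> first | rfl | ring
  have t : PythagoreanTriple (m ^ 2 - 4 * n ^ 2) (m * n) w := by
    unfold PythagoreanTriple; linear_combination h
  obtain ⟨p, q, hx, -, hpq, -⟩ := PythagoreanTriple.coprime_classification.1
    ⟨t, Int.isCoprime_iff_gcd_eq_one.1 hX⟩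
  have hx1 : m ^ 2 - 4 * n ^ 2 = p ^ 2 - q ^ 2 ∧ m * n = 2 * p * q := by
    rcases hx with h | ⟨h, -⟩
    · exact h
    · exfalso
      have := sq_emod_eight_of_odd hm
      rw [mul_assoc] at h; omega
  obtain ⟨hx, hy⟩ := hx1
  obtain ⟨n', rfl⟩ : (2 : ℤ) ∣ n := by
    have : IsCoprime (2 : ℤ) m := by rcases hm with ⟨k, rfl⟩; exact ⟨-k, 1, by ring⟩
    exact this.dvd_of_dvd_mul_left ⟨p * q, by rw [hy]; ring⟩
  have hm0 : m ≠ 0 := by rintro rfl; simp at hm
  obtain ⟨a, b, c, d, e₁, e₂, e₃, e₄⟩ :=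
    four_number (p := m) (q := n') (r := p) (s := q) (by linarith) hm0
  -- `m = a c`, `n' = b d`, `p = a b`, `q = c d`
  subst e₁ e₂ e₃ e₄
  obtain ⟨hao, hco⟩ := Int.odd_mul.1 hm
  have hbd : b * d ≠ 0 := fun h0 => hn (by rw [h0]; simp)
  have heq : a ^ 2 * (c ^ 2 - b ^ 2) = d ^ 2 * (16 * b ^ 2 - c ^ 2) := by
    linear_combination hx
  have hmn' := hmn.of_mul_right_right
  have had : IsCoprime a d := hmn'.of_mul_left_left.of_mul_right_right
  obtain ⟨K, hK, e1, e2⟩ := system_factor had hmn'.of_mul_left_right.of_mul_right_left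
    (right_ne_zero_of_mul hbd) (left_ne_zero_of_mul hbd) heq
  have m1 := sq_emod_eight_of_odd hao
  have m2 := sq_emod_eight_of_odd hco
  rcases hK with rfl | rfl | rfl | rfl
  · omega
  · have e3 : 5 * c ^ 2 = a ^ 2 + 16 * d ^ 2 := by linarith
    omega
  · omega
  · exact right_ne_zero_of_mul hbd (concordant a d hao had c b (by linarith) (by linarith))

/-- All primitive solutions of `(m² - 4 n²)² + (m n)² = □`. -/
theorem quartic {m n w : ℤ} (hmn : IsCoprime m n)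
    (h : (m ^ 2 - 4 * n ^ 2) ^ 2 + (m * n) ^ 2 = w ^ 2) :
    m = 0 ∨ n = 0 ∨ m ^ 2 = 4 * n ^ 2 := by
  rcases Int.even_or_odd m with he | ho
  swap
  · exact Or.inr (Or.inl (quartic_odd ho hmn h))
  obtain ⟨k, rfl⟩ := he.two_dvd
  have hn : Odd n := by
    rcases Int.even_or_odd n with hne | hno
    · have := Int.isUnit_iff.1 (hmn.isUnit_of_dvd' (dvd_mul_right 2 k) hne.two_dvd)
      omega
    · exact hno
  obtain ⟨w', rfl⟩ : (2 : ℤ) ∣ w := by
    refine Int.prime_two.dvd_of_dvd_pow (n := 2) ?_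
    exact ⟨2 * (4 * (k ^ 2 - n ^ 2) ^ 2 + (k * n) ^ 2), by rw [← h]; ring⟩
  have h1 : (2 * (k ^ 2 - n ^ 2)) ^ 2 + (k * n) ^ 2 = w' ^ 2 := by linarith
  have hkn : IsCoprime k n := hmn.of_mul_left_right
  rcases Int.even_or_odd k with hke | hko
  · -- `4 ∣ m`: roles of the two variables are exchanged
    obtain ⟨l, rfl⟩ := hke.two_dvd
    left
    obtain ⟨w'', rfl⟩ : (2 : ℤ) ∣ w' := by
      refine Int.prime_two.dvd_of_dvd_pow (n := 2) ?_
      exact ⟨2 * ((4 * l ^ 2 - n ^ 2) ^ 2 + (l * n) ^ 2), by rw [← h1]; ring⟩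
    have := quartic_odd (m := n) (n := l) (w := w'') hn hkn.of_mul_left_right.symm
      (by linarith)
    simp [this]
  · -- `m = 2 k` with `k`, `n` odd
    right; right
    suffices k ^ 2 = n ^ 2 by linarith
    by_contra hne
    have hodd : Odd (k * n) := hko.mul hn
    have hcop : IsCoprime (k * n) (2 * (k ^ 2 - n ^ 2)) := by
      refine IsCoprime.mul_right ?_ ?_
      · rcases hodd with ⟨j, hj⟩; exact ⟨1, -j, by rw [hj]; ring⟩
      · refine IsCoprime.mul_left ?_ ?_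
        · have h5 := (hkn.pow_right (n := 2)).neg_right.add_mul_left_right k
          convert h5 using 1 <;> first | rfl | ring
        · have h5 := (hkn.symm.pow_right (n := 2)).add_mul_left_right (-n)
          convert h5 using 1 <;> first | rfl | ring
    have t : PythagoreanTriple (k * n) (2 * (k ^ 2 - n ^ 2)) w' := by
      unfold PythagoreanTriple; linear_combination h1
    obtain ⟨p, q, hx, -, hpq, hpar⟩ := PythagoreanTriple.coprime_classification.1
      ⟨t, Int.isCoprime_iff_gcd_eq_one.1 hcop⟩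
    have hx1 : k * n = p ^ 2 - q ^ 2 ∧ 2 * (k ^ 2 - n ^ 2) = 2 * p * q := by
      rcases hx with h | ⟨h, -⟩
      · exact h
      · exfalso; rw [mul_assoc] at h; rcases hodd with ⟨j, hj⟩; omega
    obtain ⟨hy, hz⟩ := hx1
    have hz' : p * q = k ^ 2 - n ^ 2 := by linarith
    have hpqI : IsCoprime p q := Int.isCoprime_iff_gcd_eq_one.2 hpq
    obtain ⟨j, hj⟩ : (2 : ℤ) ∣ k ^ 2 + n ^ 2 := by
      have := sq_emod_eight_of_odd hko
      have := sq_emod_eight_of_odd hn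
      omega
    have hj2 : (k ^ 2 + n ^ 2) ^ 2 = 4 * j ^ 2 := by rw [hj]; ring
    rcases hpar with ⟨hpe, hqo⟩ | ⟨hpo, hqe⟩
    · obtain ⟨l, rfl⟩ := Int.dvd_of_emod_eq_zero hpe
      have hl := quartic_odd (m := q) (n := l) (w := j) (Int.odd_iff.2 hqo)
        hpqI.of_mul_left_right.symm (by
          have e1 : (q ^ 2 - 4 * l ^ 2) ^ 2 = (k * n) ^ 2 := by rw [hy]; ring
          have e2 : 4 * (q * l) ^ 2 = (k ^ 2 - n ^ 2) ^ 2 := by rw [← hz']; ring
          linarith [hj2])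
      rw [hl] at hz'; simp at hz'; exact hne (by linarith)
    · obtain ⟨l, rfl⟩ := Int.dvd_of_emod_eq_zero hqe
      have hl := quartic_odd (m := p) (n := l) (w := j) (Int.odd_iff.2 hpo)
        hpqI.of_mul_right_right (by
          have e1 : (p ^ 2 - 4 * l ^ 2) ^ 2 = (k * n) ^ 2 := by rw [hy]; ring
          have e2 : 4 * (p * l) ^ 2 = (k ^ 2 - n ^ 2) ^ 2 := by rw [← hz']; ring
          linarith [hj2])
      rw [hl] at hz'; simp at hz'; exact hne (by linarith)

end FLTA.EllPoints.Fifteen
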