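import Mathlib.AlgebraicGeometry.EllipticCurve.Affine.Point
import Mathlib.AlgebraicGeometry.EllipticCurve.VariableChange

set_option autoImplicit false

/-!
# Transport of affine points along a change of variables
-/

namespace FLTA.EllPoints.Fifteen

open WeierstrassCurve

variable {F : Type*} [Field F] (W : WeierstrassCurve F) (C : VariableChange F)

/-- The `X`-coordinate substitution of `C`. -/
def vX (x : F) : F := (C.u : F) ^ 2 * x + C.r

/-- The `Y`-coordinate substitution of `C`. -/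
def vY (x y : F) : F := (C.u : F) ^ 3 * y + C.s * (C.u : F) ^ 2 * x + C.t

lemma vEquation {x y : F} (h : (C • W).toAffine.Equation x y) :
    W.toAffine.Equation (vX C x) (vY C x y) := by
  rw [Affine.equation_iff] at h ⊢
  simp only [variableChange_def, vX, vY, Units.val_inv_eq_inv_val] at h ⊢
  field_simp [C.u.ne_zero] at h
  linear_combination h

lemma vX_inj {x₁ x₂ : F} : vX C x₁ = vX C x₂ ↔ x₁ = x₂ := by
  simp [vX, C.u.ne_zero]

lemma vY_inj {x y₁ y₂ : F} : vY C x y₁ = vY C x y₂ ↔ y₁ = y₂ := by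
  simp [vY, C.u.ne_zero]

lemma vNegY (x y : F) :
    W.toAffine.negY (vX C x) (vY C x y) = vY C x ((C • W).toAffine.negY x y) := by
  simp only [Affine.negY, variableChange_def, vX, vY, Units.val_inv_eq_inv_val]
  field_simp [C.u.ne_zero]
  ring

lemma vSlope [DecidableEq F] {x₁ y₁ x₂ y₂ : F}
    (h₁ : (C • W).toAffine.Equation x₁ y₁) (h₂ : (C • W).toAffine.Equation x₂ y₂)
    (h : ¬(x₁ = x₂ ∧ y₁ = (C • W).toAffine.negY x₂ y₂)) :
    W.toAffine.slope (vX C x₁) (vX C x₂) (vY C x₁ y₁) (vY C x₂ y₂) =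
      C.u * (C • W).toAffine.slope x₁ x₂ y₁ y₂ + C.s := by
  have hu := C.u.ne_zero
  by_cases hx : x₁ = x₂
  · subst hx
    have hy : y₁ ≠ (C • W).toAffine.negY x₁ y₂ := fun hy => h ⟨rfl, hy⟩
    have hy' : vY C x₁ y₁ ≠ W.toAffine.negY (vX C x₁) (vY C x₁ y₂) := by
      rw [vNegY]; exact fun e => hy ((vY_inj C).1 e)
    rw [Affine.slope_of_Y_ne rfl hy, Affine.slope_of_Y_ne rfl hy']
    have hneg : vY C x₁ y₁ - W.toAffine.negY (vX C x₁) (vY C x₁ y₁) =
        (C.u : F) ^ 3 * (y₁ - (C • W).toAffine.negY x₁ y₁) := by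
      rw [vNegY]; simp only [vY]; ring
    rw [hneg]
    have hd : y₁ - (C • W).toAffine.negY x₁ y₁ ≠ 0 := by
      obtain rfl := Affine.Y_eq_of_Y_ne h₁ h₂ rfl hy
      exact sub_ne_zero.2 hy
    rw [div_eq_iff (mul_ne_zero (pow_ne_zero _ hu) hd)]
    field_simp [hd]
    simp only [Affine.negY, variableChange_def, vX, vY, Units.val_inv_eq_inv_val]
    field_simp
    ring
  · have hX : vX C x₁ ≠ vX C x₂ := fun e => hx ((vX_inj C).1 e)
    rw [Affine.slope_of_X_ne hx, Affine.slope_of_X_ne hX]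
    simp only [vX, vY]
    have h0 : x₁ - x₂ ≠ 0 := sub_ne_zero.2 hx
    rw [div_eq_iff (by rw [add_sub_add_right_eq_sub, ← mul_sub]; exact mul_ne_zero (pow_ne_zero _ hu) h0)]
    field_simp
    ring

lemma vAddX (x₁ x₂ L : F) :
    W.toAffine.addX (vX C x₁) (vX C x₂) (C.u * L + C.s) = vX C ((C • W).toAffine.addX x₁ x₂ L) := by
  simp only [Affine.addX, variableChange_def, vX, Units.val_inv_eq_inv_val]
  field_simp [C.u.ne_zero]
  ring

lemma vAddY (x₁ x₂ y₁ L : F) :
    W.toAffine.addY (vX C x₁) (vX C x₂) (vY C x₁ y₁) (C.u * L + C.s) =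
      vY C ((C • W).toAffine.addX x₁ x₂ L) ((C • W).toAffine.addY x₁ x₂ y₁ L) := by
  simp only [Affine.addY, Affine.negAddY, Affine.addX, Affine.negY, variableChange_def, vX, vY,
    Units.val_inv_eq_inv_val]
  field_simp [C.u.ne_zero]
  ring

/-- Points of `C • W` as points of `W`. -/
def vPoint [W.IsElliptic] : (C • W).toAffine.Point → W.toAffine.Point
  | .zero => .zero
  | .some x y h => .some (vX C x) (vY C x y)
      (W.toAffine.equation_iff_nonsingular.1 (vEquation W C h.1))

/-- The group homomorphism from points of `C • W` to points of `W`. -/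
def vHom [DecidableEq F] [W.IsElliptic] : (C • W).toAffine.Point →+ W.toAffine.Point where
  toFun := vPoint W C
  map_zero' := rfl
  map_add' := by
    rintro (_ | ⟨x₁, y₁, h₁⟩) (_ | ⟨x₂, y₂, h₂⟩)
    any_goals rfl
    by_cases h : x₁ = x₂ ∧ y₁ = (C • W).toAffine.negY x₂ y₂
    · obtain ⟨rfl, hy⟩ := h
      rw [Affine.Point.add_of_Y_eq rfl hy]
      simp only [vPoint]
      rw [Affine.Point.add_of_Y_eq rfl (by rw [vNegY, hy])]
      rfl
    · rw [Affine.Point.add_some h]
      simp only [vPoint]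
      have h' : ¬(vX C x₁ = vX C x₂ ∧ vY C x₁ y₁ = W.toAffine.negY (vX C x₂) (vY C x₂ y₂)) := by
        rintro ⟨e1, e2⟩
        obtain rfl := (vX_inj C).1 e1
        rw [vNegY] at e2
        exact h ⟨rfl, (vY_inj C).1 e2⟩
      rw [Affine.Point.add_some h']
      simp only [Affine.Point.some.injEq]
      rw [vSlope W C h₁.1 h₂.1 h, vAddX, vAddY]
      exact ⟨rfl, rfl⟩

lemma vHom_injective [DecidableEq F] [W.IsElliptic] : Function.Injective (vHom W C) := by
  intro P Q h
  change vPoint W C P = vPoint W C Q at h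
  rcases P with _ | ⟨x₁, y₁, h₁⟩ <;> rcases Q with _ | ⟨x₂, y₂, h₂⟩ <;>
    simp only [vPoint, reduceCtorEq, Affine.Point.some.injEq] at h ⊢
  obtain rfl := (vX_inj C).1 h.1
  exact ⟨rfl, (vY_inj C).1 h.2⟩

/-- An affine point of `W` is the image of a point of `C • W`. -/
lemma exists_vHom_eq [DecidableEq F] [W.IsElliptic] {x y : F} (h : W.toAffine.Nonsingular x y) :
    ∃ (x' y' : F) (h' : (C • W).toAffine.Nonsingular x' y'),
      x = vX C x' ∧ y = vY C x' y' ∧
      vHom W C (.some x' y' h') = .some x y h := by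
  have hu := C.u.ne_zero
  set x' : F := (x - C.r) / (C.u : F) ^ 2 with hx'
  set y' : F := (y - C.s * (x - C.r) - C.t) / (C.u : F) ^ 3 with hy'
  have ex : vX C x' = x := by simp only [vX, hx']; field_simp; ring
  have ey : vY C x' y' = y := by simp only [vY, hx', hy']; field_simp; ring
  have he : (C • W).toAffine.Equation x' y' := by
    have h1 := (Affine.equation_iff x y).1 h.1
    rw [Affine.equation_iff]
    rw [← ex, ← ey] at h1
    simp only [vX, vY] at h1
    simp only [variableChange_def, Units.val_inv_eq_inv_val]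
    field_simp
    linear_combination h1
  refine ⟨x', y', (C • W).toAffine.equation_iff_nonsingular.1 he, ex.symm, ey.symm, ?_⟩
  have key : ∀ P, vHom W C P = vPoint W C P := fun _ => rfl
  simp only [key, vPoint, ex, ey]

end FLTA.EllPoints.Fifteen
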