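import Fermat.Agent.EllPoints.FiveDescent
import Mathlib.AlgebraicGeometry.EllipticCurve.Affine.Point
import Mathlib.AlgebraicGeometry.EllipticCurve.VariableChange

/-!
# A rational point of order 5 forbids a square discriminant

Tate normal form: a curve with a point of order 5 has discriminant
`u ^ 12 * t ^ 5 * (t ^ 2 - 11 * t - 1)`. Hence over `ℚ` the discriminant is never a square, and in
particular there is no elliptic curve with a point of order 5 and full rational 2-torsion.
-/

set_option autoImplicit false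

namespace FLTA.EllPoints.Five

open WeierstrassCurve

variable {F : Type*} [Field F] [DecidableEq F]

/-- Tate normal form of order 5, at the level of discriminants. -/
theorem exists_discriminant_param {W : WeierstrassCurve F} {P : W.toAffine.Point}
    (hP : P ≠ 0) (h5 : (5 : ℕ) • P = 0) :
    ∃ u t : F, W.Δ = u ^ 12 * t ^ 5 * (t ^ 2 - 11 * t - 1) := by
  rcases P with _ | ⟨x, y, h⟩
  · exact absurd rfl hP
  set P := Affine.Point.some x y h with hPdef
  haveI : Fact (Nat.Prime 5) := ⟨Nat.prime_five⟩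
  have hord : addOrderOf P = 5 := addOrderOf_eq_prime h5 hP
  have hn : ∀ n : ℕ, 0 < n → n < 5 → n • P ≠ 0 := fun n h1 h2 h0 => by
    have := hord ▸ addOrderOf_dvd_of_nsmul_eq_zero h0
    exact absurd (Nat.le_of_dvd h1 this) (by omega)
  -- `P` is not 2-torsion
  have hy : y ≠ W.toAffine.negY x y := fun hy =>
    hn 2 (by norm_num) (by norm_num) (by rw [two_nsmul]; exact Affine.Point.add_self_of_Y_eq hy)
  set l := W.toAffine.slope x x y y with hl
  set x2 := W.toAffine.addX x x l with hx2
  set y2 := W.toAffine.addY x x y l with hy2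
  obtain ⟨h2, hP2⟩ : ∃ h2, P + P = Affine.Point.some x2 y2 h2 :=
    ⟨_, Affine.Point.add_self_of_Y_ne hy⟩
  -- `2 • P` is neither `P` nor `-P`
  have hx : x ≠ x2 := by
    intro hx
    rcases (Affine.Point.X_eq_iff (h₁ := h) (h₂ := h2)).mp hx with he | he <;>
      rw [← hP2, ← hPdef] at he
    · refine hn 1 (by norm_num) (by norm_num) ?_
      rw [one_nsmul]; exact add_eq_left.mp he.symm
    · refine hn 3 (by norm_num) (by norm_num) ?_
      rw [show (3 : ℕ) • P = P + (P + P) by abel, add_eq_zero_iff_eq_neg]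
      exact he
  set m := W.toAffine.slope x x2 y y2 with hm
  obtain ⟨h3, hP3⟩ : ∃ h3, P + (P + P) = Affine.Point.some (W.toAffine.addX x x2 m)
      (W.toAffine.addY x x2 y m) h3 := by
    rw [hP2]; exact ⟨_, Affine.Point.add_of_X_ne hx⟩
  have hx3 : W.toAffine.addX x x2 m = x2 := by
    refine (Affine.Point.X_eq_iff (h₁ := h3) (h₂ := h2)).mpr (Or.inr ?_)
    rw [← hP3, ← hP2, ← add_eq_zero_iff_eq_neg]
    rw [← h5]; abel
  -- the curve translated so that `P = (0, 0)` with horizontal tangent
  set C : VariableChange F := ⟨1, x, l, y⟩ with hC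
  set a1 := (C • W).a₁ with ha1
  set a2 := (C • W).a₂ with ha2
  set a3 := (C • W).a₃ with ha3
  have hyd : y - W.toAffine.negY x y ≠ 0 := sub_ne_zero.mpr hy
  have ha3' : a3 = y - W.toAffine.negY x y := by
    simp only [ha3, hC, variableChange_a₃, inv_one, Units.val_one, Affine.negY]
    ring
  have hleq : l * (y - W.toAffine.negY x y) =
      3 * x ^ 2 + 2 * W.a₂ * x + W.a₄ - W.a₁ * y := by
    rw [hl, Affine.slope_of_Y_ne rfl hy, div_mul_cancel₀ _ hyd]
  have ha4 : (C • W).a₄ = 0 := by
    simp only [hC, variableChange_a₄, inv_one, Units.val_one]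
    simp only [Affine.negY] at hleq
    linear_combination -hleq
  have ha6 : (C • W).a₆ = 0 := by
    have he := (Affine.equation_iff (W := W.toAffine) x y).mp h.1
    simp only [hC, variableChange_a₆, inv_one, Units.val_one]
    linear_combination -he
  have ha2' : a2 = x - x2 := by
    simp only [ha2, hC, variableChange_a₂, inv_one, Units.val_one, hx2, Affine.addX]
    ring
  have hy2' : y - y2 = a3 + (a1 - l) * (x2 - x) := by
    simp only [hy2, ha3, ha1, hC, Affine.addY, Affine.negAddY, Affine.negY, variableChange_a₁,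
      variableChange_a₃, inv_one, Units.val_one, ← hx2]
    ring
  have ha2ne : a2 ≠ 0 := by rw [ha2']; exact sub_ne_zero.mpr hx
  have ha3ne : a3 ≠ 0 := by rw [ha3']; exact hyd
  have hmeq : (m - l) * a2 = a3 - a1 * a2 := by
    have : m * (x - x2) = y - y2 := by
      rw [hm, Affine.slope_of_X_ne hx, div_mul_cancel₀ _ (sub_ne_zero.mpr hx)]
    rw [hy2'] at this
    rw [ha2']
    linear_combination this
  -- the condition `x(3P) = x(2P)`
  have hkey : (m - l) ^ 2 + a1 * (m - l) + a2 = 0 := by
    rw [ha2', ha1, hC]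
    simp only [variableChange_a₁, inv_one, Units.val_one]
    rw [hx2] at hx3 ⊢
    simp only [Affine.addX] at hx3 ⊢
    linear_combination hx3
  have hrel : a3 ^ 2 + a2 ^ 3 = a1 * a2 * a3 := by
    linear_combination a2 ^ 2 * hkey - ((m - l) * a2 + a3 - a1 * a2 + a1 * a2) * hmeq
  have ha1' : a1 = (a3 ^ 2 + a2 ^ 3) / (a2 * a3) := by
    rw [eq_div_iff (mul_ne_zero ha2ne ha3ne)]; linear_combination -hrel
  refine ⟨a3 / a2, -a2 ^ 3 / a3 ^ 2, ?_⟩
  have hΔ : W.Δ = (C • W).Δ := by
    rw [variableChange_Δ, hC, inv_one, Units.val_one, one_pow, one_mul]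
  rw [hΔ]
  simp only [WeierstrassCurve.Δ, b₂, b₄, b₆, b₈, ha4, ha6, ← ha1, ← ha2, ← ha3]
  rw [ha1']
  field_simp
  ring

/-- An elliptic curve over `ℚ` with a rational point of order 5 has non-square discriminant. -/
theorem not_isSquare_discriminant {W : WeierstrassCurve ℚ} (hΔ : W.Δ ≠ 0)
    {P : W.toAffine.Point} (hP : P ≠ 0) (h5 : (5 : ℕ) • P = 0) : ¬ IsSquare W.Δ := by
  intro hsq
  obtain ⟨u, t, hut⟩ := exists_discriminant_param hP h5
  rw [hut] at hΔ hsq
  have ht : t ≠ 0 := fun ht => hΔ (by simp [ht])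
  have hu : u ≠ 0 := fun hu => hΔ (by simp [hu])
  obtain ⟨z, hz⟩ := hsq
  refine ht (eq_zero_of_cubic_isSquare ⟨z / (u ^ 6 * t ^ 2), ?_⟩)
  field_simp
  linear_combination hz

end FLTA.EllPoints.Five
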