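import Mathlib.NumberTheory.PythagoreanTriples
import Mathlib.RingTheory.Int.Basic
import Mathlib.Data.ZMod.Basic
import Mathlib.Tactic
import Mathlib.Data.Int.Lemmas

/-!
# The rational points of `y ^ 2 = t ^ 3 - 11 * t ^ 2 - t`

The only affine rational point is `(0, 0)`. The proof is a descent by 2-isogeny, carried out with
integers: a solution of `w ^ 2 = u ^ 4 - 11 * u ^ 2 * v ^ 2 - v ^ 4` with `v ≠ 0` gives a
smaller one.
-/

set_option autoImplicit false

namespace FLTA.EllPoints.Five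

private lemma zmod8_v_even : ∀ w u v : ZMod 8,
    w ^ 2 = u ^ 4 - 11 * u ^ 2 * v ^ 2 - v ^ 4 → 4 * v = 0 ∨ (4 * u = 0 ∧ 4 * v = 0) := by
  decide

private lemma zmod5_both_zero : ∀ u r : ZMod 5, u ^ 2 - 22 * r ^ 2 = 0 → u = 0 ∧ r = 0 := by
  decide

lemma two_dvd_of_quartic {w u v : ℤ} (h : w ^ 2 = u ^ 4 - 11 * u ^ 2 * v ^ 2 - v ^ 4) :
    2 ∣ v := by
  have h8 := congrArg (fun x : ℤ => (x : ZMod 8)) h
  push_cast at h8
  have h4 : ((4 * v : ℤ) : ZMod 8) = 0 := by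
    push_cast
    rcases zmod8_v_even _ _ _ h8 with h4 | h4
    · exact h4
    · exact h4.2
  rw [ZMod.intCast_zmod_eq_zero_iff_dvd] at h4
  omega

lemma exists_fourth_of_coprime {p q r : ℤ} (hpq : IsCoprime p q) (hr : r ≠ 0)
    (h : p * q = r ^ 4) :
    ∃ a b : ℤ, IsCoprime a b ∧ (a * b) ^ 2 = r ^ 2 ∧
      ((p = a ^ 4 ∧ q = b ^ 4) ∨ (p = -a ^ 4 ∧ q = -b ^ 4)) := by
  obtain ⟨a, ha⟩ := exists_associated_pow_of_mul_eq_pow' hpq h
  obtain ⟨b, hb⟩ := exists_associated_pow_of_mul_eq_pow' hpq.symm (by rw [mul_comm, h])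
  have hpa : a ∣ p := (dvd_pow_self a (by norm_num)).trans ha.dvd
  have hqb : b ∣ q := (dvd_pow_self b (by norm_num)).trans hb.dvd
  have hab : IsCoprime a b := (hpq.of_isCoprime_of_dvd_left hpa).of_isCoprime_of_dvd_right hqb
  have hpos : 0 < r ^ 4 := Even.pow_pos (by decide) hr
  have hnn : 0 ≤ (a * b) ^ 4 := Even.pow_nonneg (by decide) _
  rcases Int.associated_iff.mp ha with ha | ha <;> rcases Int.associated_iff.mp hb with hb | hb
  · refine ⟨a, b, hab, ?_, Or.inl ⟨ha.symm, hb.symm⟩⟩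
    refine (pow_left_inj₀ (sq_nonneg _) (sq_nonneg _) (show 2 ≠ 0 by norm_num)).mp ?_
    rw [← ha, ← hb] at h; linear_combination h
  · have hq : q = -b ^ 4 := by omega
    rw [← ha, hq] at h; nlinarith
  · have hp : p = -a ^ 4 := by omega
    rw [hp, ← hb] at h; nlinarith
  · have hp : p = -a ^ 4 := by omega
    have hq : q = -b ^ 4 := by omega
    refine ⟨a, b, hab, ?_, Or.inr ⟨hp, hq⟩⟩
    refine (pow_left_inj₀ (sq_nonneg _) (sq_nonneg _) (show 2 ≠ 0 by norm_num)).mp ?_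
    rw [hp, hq] at h; linear_combination h

/-- First half of the descent step. -/
lemma exists_isogenous_point {w u v : ℤ} (huv : IsCoprime u v) (hv : v ≠ 0)
    (h : w ^ 2 = u ^ 4 - 11 * u ^ 2 * v ^ 2 - v ^ 4) :
    ∃ a b : ℤ, IsCoprime a b ∧ v ^ 2 = 4 * (a * b) ^ 2 ∧ ¬ 2 ∣ u ∧
      u ^ 2 = b ^ 4 + 22 * a ^ 2 * b ^ 2 + 125 * a ^ 4 := by
  obtain ⟨r, rfl⟩ := two_dvd_of_quartic h
  have hr : r ≠ 0 := fun hr => hv (by simp [hr])
  have hur : IsCoprime u r := huv.of_mul_right_right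
  have hu : ¬ 2 ∣ u := by
    intro hu
    have := huv.of_mul_right_left.isUnit_of_dvd' hu dvd_rfl
    rw [Int.isUnit_iff] at this
    omega
  have hu2 : (u ^ 2) % 2 = 1 := by
    rcases Int.emod_two_eq_zero_or_one u with hu' | hu'
    · omega
    · rw [pow_two, Int.mul_emod, hu']; norm_num
  have hw : w % 2 = 1 := by
    rcases Int.emod_two_eq_zero_or_one w with hw | hw
    · exfalso
      obtain ⟨i, rfl⟩ : 2 ∣ w := Int.dvd_of_emod_eq_zero hw
      obtain ⟨j, rfl⟩ : ∃ j, u = 2 * j + 1 := ⟨u / 2, by omega⟩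
      ring_nf at h
      omega
    · exact hw
  obtain ⟨p, hp⟩ : ∃ p, u ^ 2 - 22 * r ^ 2 = w + 2 * p := by
    refine ⟨(u ^ 2 - 22 * r ^ 2 - w) / 2, ?_⟩
    omega
  obtain ⟨q, rfl⟩ : ∃ q, w = q - p := ⟨w + p, by ring⟩
  have hpq : p * q = 125 * r ^ 4 := by
    have hp' : u ^ 2 - 22 * r ^ 2 = p + q := by linarith
    have h4 : 4 * (p * q) = 4 * (125 * r ^ 4) := by
      linear_combination -h - (u ^ 2 - 22 * r ^ 2 + p + q) * hp'
    exact mul_left_cancel₀ (by norm_num) h4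
  have hp5 : Prime (5 : ℤ) := Int.prime_iff_natAbs_prime.mpr (by norm_num)
  have hcop : IsCoprime p q := by
    refine isCoprime_of_prime_dvd ?_ ?_
    · rintro ⟨rfl, rfl⟩
      simp [hr] at hpq
    · intro l hl hlp hlq
      have hA : l ∣ u ^ 2 - 22 * r ^ 2 := by
        rw [show u ^ 2 - 22 * r ^ 2 = p + q by linarith]
        exact dvd_add hlp hlq
      have hprod : l ∣ (5 : ℤ) ^ 3 * r ^ 4 := by
        rw [show (5 : ℤ) ^ 3 = 125 by norm_num, ← hpq]
        exact hlp.mul_right q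
      have key : l ∣ r → False := by
        intro hlr
        have hlu : l ∣ u ^ 2 := by
          have := dvd_add hA ((dvd_pow hlr (two_ne_zero)).mul_left 22)
          simpa using this
        exact hl.not_isUnit (hur.isUnit_of_dvd' (hl.dvd_of_dvd_pow hlu) hlr)
      rcases hl.dvd_or_dvd hprod with h5 | hlr
      · have h5' : (5 : ℤ) ∣ u ^ 2 - 22 * r ^ 2 :=
          ((hl.associated_of_dvd hp5 (hl.dvd_of_dvd_pow h5)).dvd_iff_dvd_left).mp hA
        have hz : ((u ^ 2 - 22 * r ^ 2 : ℤ) : ZMod 5) = 0 :=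
          (ZMod.intCast_zmod_eq_zero_iff_dvd _ 5).mpr h5'
        push_cast at hz
        obtain ⟨hu5, hr5⟩ := zmod5_both_zero _ _ hz
        have := hur.isUnit_of_dvd' ((ZMod.intCast_zmod_eq_zero_iff_dvd _ 5).mp hu5)
          ((ZMod.intCast_zmod_eq_zero_iff_dvd _ 5).mp hr5)
        exact hp5.not_isUnit this
      · exact key (hl.dvd_of_dvd_pow hlr)
  suffices H : ∀ p q : ℤ, IsCoprime p q → p * q = 125 * r ^ 4 → (5 : ℤ) ∣ p →
      ∃ a b : ℤ, IsCoprime a b ∧ (a * b) ^ 2 = r ^ 2 ∧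
        (p + q = 125 * a ^ 4 + b ^ 4 ∨ p + q = -(125 * a ^ 4 + b ^ 4)) by
    have h5 : (5 : ℤ) ∣ p * q := by rw [hpq]; exact (by norm_num : (5 : ℤ) ∣ 125).mul_right _
    obtain ⟨a, b, hab, habr, hsum⟩ : ∃ a b : ℤ, IsCoprime a b ∧ (a * b) ^ 2 = r ^ 2 ∧
        (p + q = 125 * a ^ 4 + b ^ 4 ∨ p + q = -(125 * a ^ 4 + b ^ 4)) := by
      rcases hp5.dvd_or_dvd h5 with h5 | h5
      · exact H p q hcop hpq h5
      · rw [add_comm p q]; exact H q p hcop.symm (by rw [mul_comm, hpq]) h5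
    refine ⟨a, b, hab, by linear_combination -4 * habr, hu, ?_⟩
    rcases hsum with hs | hs
    · linear_combination hp + hs - 22 * habr
    · exfalso
      have : u ^ 2 + (b ^ 2 - 11 * a ^ 2) ^ 2 + 4 * a ^ 4 = 0 := by
        linear_combination hp + hs - 22 * habr
      have hu0 : u ^ 2 = 0 := by
        nlinarith [sq_nonneg (b ^ 2 - 11 * a ^ 2), sq_nonneg (a ^ 2), sq_nonneg u]
      omega
  intro p q hcop hpq h5
  have h125 : (125 : ℤ) ∣ p := by
    have h5q : IsCoprime (5 : ℤ) q := hcop.of_isCoprime_of_dvd_left h5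
    have : IsCoprime ((5 : ℤ) ^ 3) q := h5q.pow_left
    exact (IsCoprime.dvd_of_dvd_mul_right (by simpa using this) ⟨r ^ 4, hpq⟩)
  obtain ⟨p', rfl⟩ := h125
  obtain ⟨a, b, hab, habr, hs⟩ := exists_fourth_of_coprime hcop.of_mul_left_right hr
    (mul_left_cancel₀ (show (125 : ℤ) ≠ 0 by norm_num) (by linear_combination hpq))
  refine ⟨a, b, hab, habr, ?_⟩
  rcases hs with ⟨rfl, rfl⟩ | ⟨rfl, rfl⟩
  · left; ring
  · right; ring

/-- Second half of the descent step. -/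
lemma exists_smaller_point {a b u : ℤ} (hab : IsCoprime a b) (ha : a ≠ 0) (hu : ¬ 2 ∣ u)
    (h : u ^ 2 = b ^ 4 + 22 * a ^ 2 * b ^ 2 + 125 * a ^ 4) :
    ∃ c d : ℤ, IsCoprime c d ∧ d ≠ 0 ∧ d ^ 2 ≤ a ^ 2 ∧
      b ^ 2 = c ^ 4 - 11 * c ^ 2 * d ^ 2 - d ^ 4 := by
  have h' : (b ^ 2 + 11 * a ^ 2) ^ 2 + (2 * a ^ 2) ^ 2 = u ^ 2 := by rw [h]; ring
  have hX : (b ^ 2 + 11 * a ^ 2) % 2 = 1 := by
    rcases Int.emod_two_eq_zero_or_one (b ^ 2 + 11 * a ^ 2) with hX | hX
    · exfalso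
      apply hu
      have : (2 : ℤ) ∣ u ^ 2 := by
        rw [← h']
        exact dvd_add (dvd_pow (Int.dvd_of_emod_eq_zero hX) two_ne_zero)
          (dvd_pow (dvd_mul_right 2 _) two_ne_zero)
      exact Int.prime_two.dvd_of_dvd_pow this
    · exact hX
  have hcop : IsCoprime (b ^ 2 + 11 * a ^ 2) (2 * a ^ 2) := by
    refine IsCoprime.mul_right ?_ ?_
    · exact ((Int.prime_two.coprime_iff_not_dvd).mpr (by omega)).symm
    · have h1 : IsCoprime (b ^ 2) (a ^ 2) := hab.symm.pow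
      exact h1.add_mul_right_left 11
  have ht : PythagoreanTriple (b ^ 2 + 11 * a ^ 2) (2 * a ^ 2) |u| := by
    show _ * _ + _ * _ = _ * _
    rw [abs_mul_abs_self]; linear_combination h'
  obtain ⟨m, n, hm, hmn, -, hgcd, -, hm0⟩ :=
    ht.coprime_classification' (Int.isCoprime_iff_gcd_eq_one.mp hcop) hX
      (abs_pos.mpr (fun hu0 => hu (by simp [hu0])))
  have hmn' : m * n = a ^ 2 := by linarith
  have hmpos : 0 < m := by
    refine lt_of_le_of_ne hm0 (fun hm0 => ha ?_)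
    simpa [← hm0] using hmn'.symm
  have hnpos : 0 < n := by nlinarith [sq_pos_of_ne_zero ha]
  obtain ⟨c, hc⟩ := Int.sq_of_gcd_eq_one hgcd hmn'
  obtain ⟨d, hd⟩ := Int.sq_of_gcd_eq_one (by rwa [Int.gcd_comm]) (by rw [mul_comm]; exact hmn')
  have hc' : m = c ^ 2 := hc.resolve_right (fun hc => by nlinarith [sq_nonneg c])
  have hd' : n = d ^ 2 := hd.resolve_right (fun hd => by nlinarith [sq_nonneg d])
  subst hc' hd'
  have hcd : IsCoprime c d :=
    ((IsCoprime.pow_iff (by norm_num) (by norm_num)).mp (Int.isCoprime_iff_gcd_eq_one.mpr hgcd))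
  refine ⟨c, d, hcd, fun hd0 => by simp [hd0] at hnpos, ?_, ?_⟩
  · rw [← hmn']; exact le_mul_of_one_le_left hnpos.le (by omega)
  · linear_combination hm + 11 * hmn'

lemma quartic_trivial_aux : ∀ (N : ℕ) (w u v : ℤ), v.natAbs ≤ N → IsCoprime u v →
    w ^ 2 = u ^ 4 - 11 * u ^ 2 * v ^ 2 - v ^ 4 → v = 0 := by
  intro N
  induction N using Nat.strong_induction_on with
  | _ N ih =>
    intro w u v hN huv h
    by_contra hv
    obtain ⟨a, b, hab, hvab, hu, h'⟩ := exists_isogenous_point huv hv h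
    have hb : b ≠ 0 := fun hb => hv (by simpa [hb] using hvab)
    have ha : a ≠ 0 := fun ha => hv (by simpa [ha] using hvab)
    obtain ⟨c, d, hcd, hd, hda, h''⟩ := exists_smaller_point hab ha hu h'
    have hlt : d.natAbs < v.natAbs := by
      rw [Int.natAbs_lt_iff_sq_lt, hvab]
      have hb1 : 1 ≤ b ^ 2 := pow_two_pos_of_ne_zero hb
      nlinarith [pow_two_pos_of_ne_zero hd]
    exact hd (ih d.natAbs (lt_of_lt_of_le hlt hN) b c d le_rfl hcd h'')

/-- The only coprime solutions of `w ^ 2 = u ^ 4 - 11 u ^ 2 v ^ 2 - v ^ 4` have `v = 0`. -/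
theorem quartic_trivial {w u v : ℤ} (huv : IsCoprime u v)
    (h : w ^ 2 = u ^ 4 - 11 * u ^ 2 * v ^ 2 - v ^ 4) : v = 0 :=
  quartic_trivial_aux _ w u v le_rfl huv h

/-- The elliptic curve `y ^ 2 = t ^ 3 - 11 t ^ 2 - t` has no rational point with `t ≠ 0`. -/
theorem eq_zero_of_cubic_isSquare {t : ℚ} (h : IsSquare (t * (t ^ 2 - 11 * t - 1))) : t = 0 := by
  by_contra ht
  set m := t.num with hm
  set e : ℤ := (t.den : ℤ) with he
  have he0 : 0 < e := by rw [he]; exact_mod_cast t.den_pos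
  have hm0 : m ≠ 0 := fun h0 => ht (Rat.num_eq_zero.mp h0)
  have hme : IsCoprime m e := by
    rw [Int.isCoprime_iff_gcd_eq_one, hm, he]
    simpa [Int.gcd] using t.reduced
  have hte : t = (m : ℚ) / e := by rw [hm, he]; exact_mod_cast (Rat.num_div_den t).symm
  have hsq : IsSquare (((m * e * (m ^ 2 - 11 * m * e - e ^ 2) : ℤ)) : ℚ) := by
    obtain ⟨y, hy⟩ := h
    refine ⟨y * (e : ℚ) ^ 2, ?_⟩
    have he' : (e : ℚ) ≠ 0 := by exact_mod_cast he0.ne'
    rw [hte] at hy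
    field_simp at hy
    push_cast
    linear_combination (e : ℚ) * hy
  rw [Rat.isSquare_intCast_iff] at hsq
  obtain ⟨z, hz⟩ := hsq
  set Q := m ^ 2 - 11 * m * e - e ^ 2 with hQ
  have hmQ : IsCoprime m Q := by
    have h1 : IsCoprime m (-e ^ 2) := (hme.pow_right).neg_right
    have h2 := h1.add_mul_left_right (m - 11 * e)
    rwa [show -e ^ 2 + m * (m - 11 * e) = Q by rw [hQ]; ring] at h2
  have heQ : IsCoprime e Q := by
    have h1 : IsCoprime e (m ^ 2) := hme.symm.pow_right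
    have h2 := h1.add_mul_left_right (-11 * m - e)
    rwa [show m ^ 2 + e * (-11 * m - e) = Q by rw [hQ]; ring] at h2
  have hz2 : m * e * Q = z ^ 2 := by rw [hz]; ring
  obtain ⟨s, hs⟩ := Int.sq_of_isCoprime (IsCoprime.mul_right hme.symm heQ)
    (show e * (m * Q) = z ^ 2 by linear_combination hz2)
  have hs' : e = s ^ 2 := hs.resolve_right (fun hs => by nlinarith [sq_nonneg s])
  obtain ⟨i, hi⟩ := Int.sq_of_isCoprime (IsCoprime.mul_right hme hmQ)
    (show m * (e * Q) = z ^ 2 by linear_combination hz2)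
  obtain ⟨k, hk⟩ := Int.sq_of_isCoprime ((hmQ.mul_left heQ).symm)
    (show Q * (m * e) = z ^ 2 by linear_combination hz2)
  have hzz : 0 ≤ m * e * Q := by rw [hz2]; positivity
  have hQ0 : Q ≠ 0 := by
    intro hQ0
    have hu := hmQ
    rw [hQ0, isCoprime_zero_right, Int.isUnit_iff] at hu
    have hu' := heQ
    rw [hQ0, isCoprime_zero_right, Int.isUnit_iff] at hu'
    rw [hQ] at hQ0
    rcases hu with hu | hu <;> rcases hu' with hu' | hu' <;> rw [hu, hu'] at hQ0 <;> norm_num at hQ0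
  have his : IsCoprime i s := by
    have h1 : IsCoprime (i ^ 2) (s ^ 2) := by
      rcases hi with hi | hi
      · rw [← hi, ← hs']; exact hme
      · have : i ^ 2 = -m := by omega
        rw [this, ← hs']; exact hme.neg_left
    exact (IsCoprime.pow_iff (by norm_num) (by norm_num)).mp h1
  have hs0 : s ≠ 0 := fun h0 => by simp [h0] at hs'; omega
  have hi0 : i ≠ 0 := fun h0 => hm0 (by rcases hi with hi | hi <;> simp [h0] at hi <;> exact hi)
  rcases hi with hi | hi <;> rcases hk with hk | hk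
  · exact hs0 (quartic_trivial (w := k) his (by rw [← hk, hQ, hi, hs']; ring))
  · have : Q < 0 := lt_of_le_of_ne (by rw [hk]; nlinarith [sq_nonneg k]) hQ0
    have : 0 < m := lt_of_le_of_ne (by rw [hi]; positivity) (Ne.symm hm0)
    nlinarith [mul_pos this he0]
  · have : 0 < Q := lt_of_le_of_ne (by rw [hk]; positivity) (Ne.symm hQ0)
    have : m < 0 := lt_of_le_of_ne (by rw [hi]; nlinarith [sq_nonneg i]) hm0
    nlinarith [mul_pos (neg_pos.mpr this) he0]
  · exact hi0 (quartic_trivial (w := k) his.symm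
      (by rw [show k ^ 2 = -Q by omega, hQ, hi, hs']; ring))

end FLTA.EllPoints.Five
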