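import Fermat.Agent.EllPoints.SevenTate
import Mathlib.AlgebraicGeometry.EllipticCurve.Affine.Point
import Mathlib.AlgebraicGeometry.EllipticCurve.VariableChange

/-!
# No rational point of order 14

A Weierstrass curve over `ℚ` cannot have both a point of order `7` and a point of order `2`.
In particular there is no elliptic curve with full rational `2`-torsion and a point of order `7`.
-/

set_option autoImplicit false

namespace FLTA.EllPoints.Seven

open WeierstrassCurve

variable {F : Type*} [Field F] [DecidableEq F]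

/-- Tate normal form of order 7: after a change of coordinates putting the point at the origin
with horizontal tangent, the coefficients are given by one parameter `t`. -/
theorem exists_tate_param {W : WeierstrassCurve F} {P : W.toAffine.Point}
    (hP : P ≠ 0) (h7 : (7 : ℕ) • P = 0) :
    ∃ (u : Fˣ) (C : VariableChange F) (t : F), t ≠ 0 ∧ t ≠ 1 ∧
      (C • W).a₁ = (u : F) * (1 + t - t ^ 2) ∧ (C • W).a₂ = -((u : F) ^ 2 * (t ^ 3 - t ^ 2)) ∧
      (C • W).a₃ = -((u : F) ^ 3 * (t ^ 3 - t ^ 2)) ∧ (C • W).a₄ = 0 ∧ (C • W).a₆ = 0 ∧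
      C.u = 1 := by
  rcases P with _ | ⟨x, y, h⟩
  · exact absurd rfl hP
  set P := Affine.Point.some x y h with hPdef
  haveI : Fact (Nat.Prime 7) := ⟨by norm_num⟩
  have hord : addOrderOf P = 7 := addOrderOf_eq_prime h7 hP
  have hn : ∀ n : ℕ, 0 < n → n < 7 → n • P ≠ 0 := fun n h1 h2 h0 => by
    have := hord ▸ addOrderOf_dvd_of_nsmul_eq_zero h0
    exact absurd (Nat.le_of_dvd h1 this) (by omega)
  have hy : y ≠ W.toAffine.negY x y := fun hy =>
    hn 2 (by norm_num) (by norm_num) (by rw [two_nsmul]; exact Affine.Point.add_self_of_Y_eq hy)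
  set l := W.toAffine.slope x x y y with hl
  set x2 := W.toAffine.addX x x l with hx2
  set y2 := W.toAffine.addY x x y l with hy2
  obtain ⟨h2, hP2⟩ : ∃ h2, P + P = Affine.Point.some x2 y2 h2 :=
    ⟨_, Affine.Point.add_self_of_Y_ne hy⟩
  have hx : x ≠ x2 := by
    intro hx
    rcases (Affine.Point.X_eq_iff (h₁ := h) (h₂ := h2)).mp hx with he | he <;>
      rw [← hP2, ← hPdef] at he
    · refine hn 1 (by norm_num) (by norm_num) ?_
      rw [one_nsmul]; exact add_eq_left.mp he.symm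
    · refine hn 3 (by norm_num) (by norm_num) ?_
      rw [show (3 : ℕ) • P = P + (P + P) by abel, add_eq_zero_iff_eq_neg]
      exact he
  set m := W.toAffine.slope x x2 y y2 with hm
  obtain ⟨h3, hP3⟩ : ∃ h3, P + (P + P) = Affine.Point.some (W.toAffine.addX x x2 m)
      (W.toAffine.addY x x2 y m) h3 := by
    rw [hP2]; exact ⟨_, Affine.Point.add_of_X_ne hx⟩
  have hy2n : y2 ≠ W.toAffine.negY x2 y2 := fun he => by
    refine hn 4 (by norm_num) (by norm_num) ?_
    rw [show (4 : ℕ) • P = (P + P) + (P + P) by abel, hP2]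
    exact Affine.Point.add_self_of_Y_eq he
  set n := W.toAffine.slope x2 x2 y2 y2 with hndef
  obtain ⟨h4, hP4⟩ : ∃ h4, (P + P) + (P + P) = Affine.Point.some (W.toAffine.addX x2 x2 n)
      (W.toAffine.addY x2 x2 y2 n) h4 := by
    rw [hP2]; exact ⟨_, Affine.Point.add_self_of_Y_ne hy2n⟩
  have hx34 : W.toAffine.addX x x2 m = W.toAffine.addX x2 x2 n := by
    refine (Affine.Point.X_eq_iff (h₁ := h3) (h₂ := h4)).mpr (Or.inr ?_)
    rw [← hP3, ← hP4, ← add_eq_zero_iff_eq_neg]
    rw [← h7]; abel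
  -- the curve translated so that `P = (0, 0)` with horizontal tangent
  set C : VariableChange F := ⟨1, x, l, y⟩ with hC
  set a1 := (C • W).a₁ with ha1
  set a2 := (C • W).a₂ with ha2
  set a3 := (C • W).a₃ with ha3
  have hyd : y - W.toAffine.negY x y ≠ 0 := sub_ne_zero.mpr hy
  have ha3' : a3 = y - W.toAffine.negY x y := by
    simp only [ha3, hC, variableChange_a₃, inv_one, Units.val_one, Affine.negY]
    ring
  have hleq : l * (y - W.toAffine.negY x y) =
      3 * x ^ 2 + 2 * W.a₂ * x + W.a₄ - W.a₁ * y := by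
    rw [hl, Affine.slope_of_Y_ne rfl hy, div_mul_cancel₀ _ hyd]
  have ha4 : (C • W).a₄ = 0 := by
    simp only [hC, variableChange_a₄, inv_one, Units.val_one]
    simp only [Affine.negY] at hleq
    linear_combination -hleq
  have ha6 : (C • W).a₆ = 0 := by
    have he := (Affine.equation_iff (W := W.toAffine) x y).mp h.1
    simp only [hC, variableChange_a₆, inv_one, Units.val_one]
    linear_combination -he
  have ha2' : a2 = x - x2 := by
    simp only [ha2, hC, variableChange_a₂, inv_one, Units.val_one, hx2, Affine.addX]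
    ring
  have hy2' : y - y2 = a3 + (a1 - l) * (x2 - x) := by
    simp only [hy2, ha3, ha1, hC, Affine.addY, Affine.negAddY, Affine.negY, variableChange_a₁,
      variableChange_a₃, inv_one, Units.val_one, ← hx2]
    ring
  have ha2ne : a2 ≠ 0 := by rw [ha2']; exact sub_ne_zero.mpr hx
  have ha3ne : a3 ≠ 0 := by rw [ha3']; exact hyd
  have ha1e : a1 = W.a₁ + 2 * l := by
    simp only [ha1, hC, variableChange_a₁, inv_one, Units.val_one]; ring
  have hmeq : (m - l) * a2 = a3 - a1 * a2 := by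
    have : m * (x - x2) = y - y2 := by
      rw [hm, Affine.slope_of_X_ne hx, div_mul_cancel₀ _ (sub_ne_zero.mpr hx)]
    rw [hy2'] at this
    rw [ha2']
    linear_combination this
  -- `w` is the `y`-difference of `± 2 • P`
  obtain ⟨w, hw⟩ : ∃ w, w = a1 * a2 - a3 := ⟨_, rfl⟩
  have hwy : y2 - W.toAffine.negY x2 y2 = w := by
    simp only [hw, ha3', Affine.negY] at hy2' ⊢
    rw [ha2']
    rw [ha1e] at hy2' ⊢
    linear_combination -2 * hy2'
  have hwne : w ≠ 0 := hwy ▸ sub_ne_zero.mpr hy2n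
  have hneq : (n - l) * w = a2 ^ 2 - a1 * w := by
    have hn' : n * (y2 - W.toAffine.negY x2 y2) =
        3 * x2 ^ 2 + 2 * W.a₂ * x2 + W.a₄ - W.a₁ * y2 := by
      rw [hndef, Affine.slope_of_Y_ne rfl hy2n, div_mul_cancel₀ _ (sub_ne_zero.mpr hy2n)]
    rw [hwy] at hn'
    have ha2e : a2 = W.a₂ - l * W.a₁ + 3 * x - l ^ 2 := by
      simp only [ha2, hC, variableChange_a₂, inv_one, Units.val_one]; ring
    rw [hw, ha1e, ha3'] at hn' ⊢
    rw [ha1e, ha3'] at hy2'
    simp only [Affine.negY] at hn' hy2' hleq ⊢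
    have hx2e : x2 = x - a2 := by rw [ha2']; ring
    clear_value x2 y2
    subst hx2e
    linear_combination hn' - hleq + W.a₁ * hy2' + 2 * a2 * ha2e
  have hkey : (m - l) ^ 2 + a1 * (m - l) = (n - l) ^ 2 + a1 * (n - l) + a2 := by
    rw [ha2', ha1e]
    simp only [Affine.addX] at hx34
    linear_combination hx34
  -- the parameters `b`, `c` of the Tate normal form
  obtain ⟨b, hb⟩ : ∃ b, b = -a2 ^ 3 / a3 ^ 2 := ⟨_, rfl⟩
  obtain ⟨c, hc⟩ : ∃ c, c = -w / a3 := ⟨_, rfl⟩
  have hcne : c ≠ 0 := by rw [hc]; exact div_ne_zero (neg_ne_zero.mpr hwne) ha3ne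
  have hbne : b ≠ 0 := by
    rw [hb]; exact div_ne_zero (neg_ne_zero.mpr (pow_ne_zero 3 ha2ne)) (pow_ne_zero 2 ha3ne)
  obtain ⟨t, ht⟩ : ∃ t, t = b / c := ⟨_, rfl⟩
  have htc : c = t ^ 2 - t := by
    have h1 : m - l = -w / a2 := by rw [eq_div_iff ha2ne]; linear_combination hmeq + hw
    have h2 : n - l = a2 ^ 2 / w - a1 := by
      rw [eq_sub_iff_add_eq, eq_div_iff hwne]; linear_combination hneq
    rw [h1, h2] at hkey
    rw [ht, hb, hc]
    field_simp at hkey ⊢
    subst hw
    linear_combination hkey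
  have htb : b = t ^ 3 - t ^ 2 := by
    have : b = t * c := by rw [ht, div_mul_cancel₀ _ hcne]
    rw [this, htc]; ring
  have ht0 : t ≠ 0 := by rintro rfl; simp at htc; exact hcne htc
  have ht1 : t ≠ 1 := by rintro rfl; simp at htc; exact hcne htc
  refine ⟨Units.mk0 (a3 / a2) (div_ne_zero ha3ne ha2ne), C, t, ht0, ht1, ?_, ?_, ?_, ha4, ha6,
    rfl⟩ <;> simp only [Units.val_mk0, ← ha1, ← ha2, ← ha3, ← htb]
  · rw [show 1 + t - t ^ 2 = 1 - c by rw [htc]; ring, hc, hw]
    field_simp; ring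
  · rw [hb]; field_simp
  · rw [hb]; field_simp

/-- An affine point of order two gives a root of the `2`-division polynomial. -/
lemma twoTorsion_root {W : WeierstrassCurve ℚ} {T : W.toAffine.Point}
    (hT : T ≠ 0) (h2 : (2 : ℕ) • T = 0) :
    ∃ x : ℚ, 4 * x ^ 3 + W.b₂ * x ^ 2 + 2 * W.b₄ * x + W.b₆ = 0 := by
  rcases T with _ | ⟨x, y, h⟩
  · exact absurd rfl hT
  rw [two_nsmul] at h2
  have hy : y = W.toAffine.negY x y := by
    by_contra hy
    rw [Affine.Point.add_self_of_Y_ne hy] at h2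
    exact Affine.Point.some_ne_zero _ h2
  have he := (Affine.equation_iff (W := W.toAffine) x y).mp h.1
  simp only [Affine.negY] at hy
  refine ⟨x, ?_⟩
  simp only [b₂, b₄, b₆]
  linear_combination (2 * y + W.a₁ * x + W.a₃) * hy - 4 * he

/-- If a Weierstrass curve over `ℚ` has a point of order `7`, its `2`-division polynomial
has no rational root. -/
theorem twoTorsion_ne_root {W : WeierstrassCurve ℚ} {P : W.toAffine.Point}
    (hP : P ≠ 0) (h7 : (7 : ℕ) • P = 0) (x : ℚ) :
    4 * x ^ 3 + W.b₂ * x ^ 2 + 2 * W.b₄ * x + W.b₆ ≠ 0 := by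
  intro hx
  obtain ⟨u, C, t, ht0, ht1, h1, h2, h3, h4, h6, hCu⟩ := exists_tate_param hP h7
  have hu : (u : ℚ) ≠ 0 := u.ne_zero
  obtain ⟨Cu, r, s, τ⟩ := C
  dsimp only at hCu
  subst hCu
  have e2 := variableChange_b₂ W (⟨1, r, s, τ⟩ : VariableChange ℚ)
  have e4 := variableChange_b₄ W (⟨1, r, s, τ⟩ : VariableChange ℚ)
  have e6 := variableChange_b₆ W (⟨1, r, s, τ⟩ : VariableChange ℚ)
  simp only [b₂, b₄, b₆, h1, h2, h3, h4, h6, inv_one, Units.val_one, one_pow, one_mul] at e2 e4 e6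
  refine tate_seven_no_two_torsion ht0 ht1 (x := (x - r) / (u : ℚ) ^ 2) ?_
  field_simp
  simp only [b₂, b₄, b₆] at hx
  linear_combination hx + (x - r) ^ 2 * e2 + 2 * (x - r) * e4 + e6

/-- No Weierstrass curve over `ℚ` has rational points of order `2` and of order `7`. -/
theorem no_two_seven {W : WeierstrassCurve ℚ} {P T : W.toAffine.Point}
    (hP : P ≠ 0) (h7 : (7 : ℕ) • P = 0) (hT : T ≠ 0) (h2 : (2 : ℕ) • T = 0) : False := by
  obtain ⟨x, hx⟩ := twoTorsion_root hT h2
  exact twoTorsion_ne_root hP h7 x hx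

end FLTA.EllPoints.Seven
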