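import Mathlib.Algebra.GCDMonoid.Nat
import Mathlib.Data.Int.NatPrime
import Mathlib.Data.Nat.Squarefree
import Mathlib.Data.ZMod.Basic
import Mathlib.Tactic

/-!
# Rational points of `Y² = X (X² - 11 X + 32)` (a model of `X₁(14)`)

Two-step infinite descent between the quartics
`w² = u⁴ - 11 u² e² + 32 e⁴` and `w² = p⁴ + 22 p² q² - 7 q⁴`.
-/

set_option autoImplicit false

namespace FLTA.EllPoints.Seven

private lemma coprime_congr {x y x' y' : ℤ} (h : IsCoprime x y) (hx : x = x') (hy : y = y') :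
    IsCoprime x' y' := hx ▸ hy ▸ h

/-- The quartic coming from the square class `1`. -/
def QuarticF (u e : ℤ) : Prop := IsSquare (u ^ 4 - 11 * u ^ 2 * e ^ 2 + 32 * e ^ 4)

/-- The quartic coming from the square class `-7` on the isogenous curve. -/
def QuarticG (p q : ℤ) : Prop := IsSquare (p ^ 4 + 22 * p ^ 2 * q ^ 2 - 7 * q ^ 4)

/-- Coprime factors of a prime power times a fourth power. -/
lemma split_prime_pow_mul_fourth {π j α β q : ℕ} (hπ : π.Prime) (hc : Nat.Coprime α β)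
    (h : α * β = π ^ j * q ^ 4) :
    ∃ a b : ℕ, a * b = q ∧
      ((α = a ^ 4 ∧ β = π ^ j * b ^ 4) ∨ (β = a ^ 4 ∧ α = π ^ j * b ^ 4)) := by
  have key : ∀ x y : ℕ, Nat.Coprime x y → x * y = π ^ j * q ^ 4 → ¬ π ∣ x →
      ∃ a b : ℕ, a * b = q ∧ x = a ^ 4 ∧ y = π ^ j * b ^ 4 := by
    intro x y hxy hmul hx
    have hcp : Nat.Coprime (π ^ j) x := ((hπ.coprime_iff_not_dvd).2 hx).pow_left _
    obtain ⟨y', rfl⟩ : π ^ j ∣ y := hcp.dvd_of_dvd_mul_left ⟨q ^ 4, hmul⟩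
    have hxy' : Nat.Coprime x y' := hxy.coprime_mul_left_right
    have hm : x * y' = q ^ 4 := by
      apply Nat.eq_of_mul_eq_mul_left (pow_pos hπ.pos j)
      rw [← hmul]; ring
    obtain ⟨a, rfl⟩ := exists_eq_pow_of_mul_eq_pow
      (Nat.isUnit_iff.2 hxy' : IsUnit (gcd x y')) hm
    obtain ⟨b, rfl⟩ := exists_eq_pow_of_mul_eq_pow
      (Nat.isUnit_iff.2 hxy'.symm : IsUnit (gcd y' (a ^ 4))) (by rw [← hm]; ring)
    exact ⟨a, b, Nat.pow_left_injective (by norm_num : (4 : ℕ) ≠ 0) (by simp only [mul_pow, hm]),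
      rfl, rfl⟩
  by_cases hx : π ∣ α
  · have hy : ¬ π ∣ β := fun hy ↦ hπ.not_dvd_one (hc ▸ Nat.dvd_gcd hx hy)
    obtain ⟨a, b, h1, h2, h3⟩ := key β α hc.symm (by rw [← h]; ring) hy
    exact ⟨a, b, h1, Or.inr ⟨h2, h3⟩⟩
  · obtain ⟨a, b, h1, h2, h3⟩ := key α β hc h hx
    exact ⟨a, b, h1, Or.inl ⟨h2, h3⟩⟩

lemma quarticG_one {p : ℤ} (h : QuarticG p 1) : p ^ 2 = 1 := by
  obtain ⟨w, hw⟩ := h
  have hlt : |w| < p ^ 2 + 11 := by
    apply abs_lt_of_sq_lt_sq _ (by positivity)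
    linarith [show (p ^ 2 + 11) ^ 2 = p ^ 4 + 22 * p ^ 2 + 121 by ring, pow_two w]
  have hR : p ^ 2 + 11 ≤ 64 := by
    have h1 : |w| ≤ p ^ 2 + 10 := by omega
    have h2 := mul_self_le_mul_self (abs_nonneg w) h1
    rw [abs_mul_abs_self] at h2
    nlinarith
  have hp : |p| ≤ 7 := by
    by_contra hp
    nlinarith [sq_abs p, abs_nonneg p]
  have hw' : |w| ≤ 63 := by omega
  obtain ⟨hp1, hp2⟩ := abs_le.1 hp
  have hn : ∃ n : ℕ, n < 64 ∧ p ^ 4 + 22 * p ^ 2 * 1 ^ 2 - 7 * 1 ^ 4 = (n : ℤ) * n := by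
    refine ⟨w.natAbs, by rw [Int.abs_eq_natAbs] at hw'; omega, ?_⟩
    rw [hw, Int.natCast_natAbs, abs_mul_abs_self]
  revert hn
  interval_cases p <;> decide +kernel

lemma quarticG_one_left {q : ℤ} (h : QuarticG 1 q) (hq : q ≠ 0) : q ^ 2 = 1 := by
  have h0 := h.nonneg
  have h1 : 0 < q ^ 2 := by positivity
  have h2 : q ^ 2 < 4 := by nlinarith
  have hq1 : -2 < q := by nlinarith
  have hq2 : q < 2 := by nlinarith
  interval_cases q <;> simp_all

lemma neg_quarticG {p q : ℤ} (hc : IsCoprime p q) :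
    ¬ IsSquare (-p ^ 4 + 22 * p ^ 2 * q ^ 2 + 7 * q ^ 4) := by
  rintro ⟨w, hw⟩
  have key : ∀ p q : ZMod 16, p * 8 ≠ 0 ∨ q * 8 ≠ 0 →
      ∀ w : ZMod 16, -p ^ 4 + 22 * p ^ 2 * q ^ 2 + 7 * q ^ 4 ≠ w * w := by decide +kernel
  refine key p q ?_ w (by exact_mod_cast congrArg (Int.cast : ℤ → ZMod 16) hw)
  by_contra! hh
  have h2 : ∀ n : ℤ, (n : ZMod 16) * 8 = 0 → (2 : ℤ) ∣ n := by
    intro n hn
    have := (ZMod.intCast_zmod_eq_zero_iff_dvd (n * 8) 16).1 (by exact_mod_cast hn)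
    omega
  exact absurd (hc.isUnit_of_dvd' (h2 p hh.1) (h2 q hh.2))
    (by simp [Int.isUnit_iff])

/-- Coprime positive factors of seven times a fourth power. -/
lemma split_seven {α β k : ℤ} (hk : k ≠ 0) (hs : 0 ≤ α + β) (hc : IsCoprime k (β - α))
    (h : α * β = 7 * k ^ 4) :
    ∃ p q : ℤ, IsCoprime p q ∧ p ≠ 0 ∧ q ≠ 0 ∧ k ^ 2 = p ^ 2 * q ^ 2 ∧
      (β - α = 7 * q ^ 4 - p ^ 4 ∨ β - α = p ^ 4 - 7 * q ^ 4) := by
  have hpos : 0 < α * β := by rw [h]; positivity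
  rcases mul_pos_iff.1 hpos with ⟨hα, hβ⟩ | ⟨hα, hβ⟩
  swap
  · linarith
  lift α to ℕ using hα.le
  lift β to ℕ using hβ.le
  have hn : α * β = 7 ^ 1 * k.natAbs ^ 4 := by
    have := congrArg Int.natAbs h
    simpa [Int.natAbs_mul, Int.natAbs_pow] using this
  have hcn : Nat.Coprime α β := by
    refine Nat.coprime_of_dvd fun r hr hra hrb ↦ ?_
    have hrk : r ∣ k.natAbs := by
      by_contra hrk
      have h2 : r * r ∣ 7 ^ 1 * k.natAbs ^ 4 := hn ▸ mul_dvd_mul hra hrb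
      have hcp : Nat.Coprime (r * r) (k.natAbs ^ 4) := by
        have := ((hr.coprime_iff_not_dvd).2 hrk).pow_right 4
        exact this.mul_left this
      have h7 := Nat.le_of_dvd (by norm_num) (hcp.dvd_of_dvd_mul_right h2)
      have : r = 2 := by
        have := hr.two_le
        by_contra hne
        have : 3 ≤ r := by omega
        nlinarith
      subst this
      have := hcp.dvd_of_dvd_mul_right h2
      norm_num at this
    have h1 : (r : ℤ) ∣ k := Int.natCast_dvd.2 hrk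
    have h2 : (r : ℤ) ∣ (β : ℤ) - α :=
      dvd_sub (Int.natCast_dvd_natCast.2 hrb) (Int.natCast_dvd_natCast.2 hra)
    exact hr.ne_one (by simpa [Int.isUnit_iff] using hc.isUnit_of_dvd' h1 h2)
  obtain ⟨a, b, hab, hh⟩ := split_prime_pow_mul_fourth (by norm_num : Nat.Prime 7) hcn hn
  have hne : a * b ≠ 0 := by rw [hab]; simpa using hk
  have hcab : Nat.Coprime a b := by
    rcases hh with ⟨rfl, rfl⟩ | ⟨rfl, rfl⟩
    · exact (Nat.coprime_pow_left_iff (by norm_num) _ _).1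
        ((Nat.coprime_pow_right_iff (by norm_num) _ _).1 hcn.coprime_mul_left_right)
    · exact (Nat.coprime_pow_left_iff (by norm_num) _ _).1
        ((Nat.coprime_pow_right_iff (by norm_num) _ _).1 hcn.symm.coprime_mul_left_right)
  refine ⟨a, b, Int.isCoprime_iff_gcd_eq_one.2 hcab, ?_, ?_, ?_, ?_⟩
  · exact_mod_cast left_ne_zero_of_mul hne
  · exact_mod_cast right_ne_zero_of_mul hne
  · rw [← sq_abs k, Int.abs_eq_natAbs, ← hab]; push_cast; ring
  · rcases hh with ⟨rfl, rfl⟩ | ⟨rfl, rfl⟩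
    · left; push_cast; ring
    · right; push_cast; ring

/-- From a point on `QuarticF` to a point on `QuarticG`. -/
lemma quarticF_to_quarticG {u e : ℤ} (hc : IsCoprime u e) (he : e ≠ 0) (h : QuarticF u e) :
    ∃ p q : ℤ, IsCoprime p q ∧ q ≠ 0 ∧ p ≠ 0 ∧
      ((e ^ 2 = p ^ 2 * q ^ 2 ∧ 4 * u ^ 2 = p ^ 4 + 22 * p ^ 2 * q ^ 2 - 7 * q ^ 4) ∨
       (e ^ 2 = 4 * (p ^ 2 * q ^ 2) ∧ Odd u ∧
          u ^ 2 = p ^ 4 + 22 * p ^ 2 * q ^ 2 - 7 * q ^ 4)) := by
  obtain ⟨w₀, hw₀⟩ := h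
  obtain ⟨w, hw, hw0⟩ : ∃ w : ℤ, u ^ 4 - 11 * u ^ 2 * e ^ 2 + 32 * e ^ 4 = w * w ∧ 0 ≤ w :=
    ⟨|w₀|, by rw [abs_mul_abs_self]; exact hw₀, abs_nonneg _⟩
  rcases Int.even_or_odd e with ⟨k, rfl⟩ | hodd
  · have hu : Odd u := by
      rw [← Int.not_even_iff_odd]
      intro hu
      exact absurd (hc.isUnit_of_dvd' (even_iff_two_dvd.1 hu) ⟨k, by ring⟩)
        (by simp [Int.isUnit_iff])
    have hk : k ≠ 0 := by rintro rfl; simp at he
    have hck : IsCoprime u k := (show IsCoprime u (2 * k) by rw [two_mul]; exact hc).of_mul_right_right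
    have h2 : (2 : ℤ) ∣ w - (u ^ 2 - 22 * k ^ 2) := by
      have : (2 : ℤ) ∣ (w - (u ^ 2 - 22 * k ^ 2)) * (w - (u ^ 2 - 22 * k ^ 2)) :=
        ⟨14 * k ^ 4 + (u ^ 2 - 22 * k ^ 2) ^ 2 - w * (u ^ 2 - 22 * k ^ 2),
          by linear_combination -hw⟩
      exact (Int.prime_two.dvd_or_dvd this).elim id id
    obtain ⟨α, hα⟩ := h2
    obtain ⟨p, q, hcpq, hp, hq, hk2, hd⟩ :=
      split_seven (α := α) (β := α + (u ^ 2 - 22 * k ^ 2)) hk (by linarith)
        (by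
          have := (hck.symm.pow_right (n := 2)).add_mul_left_right (-22 * k)
          exact coprime_congr this rfl (by ring))
        (by
          have h4 : 4 * (α * (α + (u ^ 2 - 22 * k ^ 2)) - 7 * k ^ 4) = 0 := by
            have hww : w = 2 * α + (u ^ 2 - 22 * k ^ 2) := by linarith
            subst hww
            linear_combination -hw
          linarith)
    refine ⟨p, q, hcpq, hq, hp, Or.inr ⟨by linear_combination 4 * hk2, hu, ?_⟩⟩
    rcases hd with hd | hd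
    · exfalso
      exact neg_quarticG hcpq ⟨u, by linear_combination -22 * hk2 - hd⟩
    · linear_combination hd + 22 * hk2
  · obtain ⟨p, q, hcpq, hp, hq, hk2, hd⟩ :=
      split_seven (α := 2 * w - (2 * u ^ 2 - 11 * e ^ 2))
        (β := 2 * w + (2 * u ^ 2 - 11 * e ^ 2)) he (by linarith)
        (by
          have h2 : IsCoprime e 4 := by
            obtain ⟨k, rfl⟩ := hodd
            exact ⟨1 - 2 * k, k ^ 2, by ring⟩
          have := (h2.mul_right (hc.symm.pow_right (n := 2))).add_mul_left_right (-22 * e)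
          exact coprime_congr this rfl (by ring))
        (by linear_combination -4 * hw)
    refine ⟨p, q, hcpq, hq, hp, Or.inl ⟨hk2, ?_⟩⟩
    rcases hd with hd | hd
    · exfalso
      exact neg_quarticG hcpq ⟨2 * u, by linear_combination -22 * hk2 - hd⟩
    · linear_combination hd + 22 * hk2

/-- Coprime factors `α β` of `2 ^ j` times a fourth power, given by their sum. -/
lemma split_two {j : ℕ} {α β q : ℤ} (hq : q ≠ 0) (hs : 0 ≤ α + β) (hodd : Odd (α + β))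
    (hc : IsCoprime q (α + β)) (h : α * β = 2 ^ j * q ^ 4) :
    ∃ a b : ℤ, IsCoprime a b ∧ a ≠ 0 ∧ b ≠ 0 ∧ q ^ 2 = a ^ 2 * b ^ 2 ∧ b ∣ q ∧
      α + β = a ^ 4 + 2 ^ j * b ^ 4 ∧ (0 < j → Odd a) := by
  have hpos : 0 < α * β := by rw [h]; positivity
  rcases mul_pos_iff.1 hpos with ⟨hα, hβ⟩ | ⟨hα, hβ⟩
  swap
  · linarith
  lift α to ℕ using hα.le
  lift β to ℕ using hβ.le
  have hn : α * β = 2 ^ j * q.natAbs ^ 4 := by
    have := congrArg Int.natAbs h
    simpa [Int.natAbs_mul, Int.natAbs_pow] using this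
  have hcn : Nat.Coprime α β := by
    refine Nat.coprime_of_dvd fun r hr hra hrb ↦ ?_
    have hrs : r ∣ α + β := Nat.dvd_add hra hrb
    have hrq : r ∣ q.natAbs := by
      have h2 : r ∣ 2 ^ j * q.natAbs ^ 4 := hn ▸ dvd_mul_of_dvd_left hra β
      rcases hr.dvd_mul.1 h2 with h3 | h3
      · have := (Nat.prime_dvd_prime_iff_eq hr Nat.prime_two).1 (hr.dvd_of_dvd_pow h3)
        subst this
        rw [Int.odd_iff] at hodd
        omega
      · exact hr.dvd_of_dvd_pow h3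
    have h1 : (r : ℤ) ∣ q := Int.natCast_dvd.2 hrq
    have h2 : (r : ℤ) ∣ (α : ℤ) + β := by exact_mod_cast hrs
    exact hr.ne_one (by simpa [Int.isUnit_iff] using hc.isUnit_of_dvd' h1 h2)
  obtain ⟨a, b, hab, hh⟩ := split_prime_pow_mul_fourth Nat.prime_two hcn hn
  have hne : a * b ≠ 0 := by rw [hab]; simpa using hq
  have hcab : Nat.Coprime (a ^ 4) (2 ^ j * b ^ 4) := by
    rcases hh with ⟨rfl, rfl⟩ | ⟨rfl, rfl⟩
    exacts [hcn, hcn.symm]
  refine ⟨a, b, Int.isCoprime_iff_gcd_eq_one.2 ?_, ?_, ?_, ?_, ?_, ?_, ?_⟩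
  · exact (Nat.coprime_pow_left_iff (by norm_num) _ _).1
      ((Nat.coprime_pow_right_iff (by norm_num) _ _).1 hcab.coprime_mul_left_right)
  · exact_mod_cast left_ne_zero_of_mul hne
  · exact_mod_cast right_ne_zero_of_mul hne
  · rw [← sq_abs q, Int.abs_eq_natAbs, ← hab]; push_cast; ring
  · exact Int.natCast_dvd.2 ⟨a, by rw [← hab]; ring⟩
  · rcases hh with ⟨rfl, rfl⟩ | ⟨rfl, rfl⟩ <;> push_cast <;> ring
  · intro hj
    rw [Int.odd_coe_nat, ← Nat.not_even_iff_odd]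
    intro ha
    exact Nat.not_coprime_of_dvd_of_dvd (by norm_num : 1 < 2)
      (dvd_pow (even_iff_two_dvd.1 ha) (by norm_num))
      (dvd_mul_of_dvd_left (dvd_pow_self 2 hj.ne') _) hcab

/-- From a point on `QuarticG` to a point on `QuarticF` with `e ∣ q`. -/
lemma quarticG_to_quarticF {p q : ℤ} (hc : IsCoprime p q) (hq : q ≠ 0) (h : QuarticG p q) :
    ∃ u e : ℤ, IsCoprime u e ∧ e ≠ 0 ∧ QuarticF u e ∧ e ∣ q ∧
      ((Odd u ∧ q ^ 2 = u ^ 2 * e ^ 2) ∨ 4 * q ^ 2 = u ^ 2 * e ^ 2) := by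
  obtain ⟨w, hw⟩ := h
  set R := p ^ 2 + 11 * q ^ 2 with hRdef
  have h2 : (2 : ℤ) ∣ R - w := by
    have : (2 : ℤ) ∣ (R - w) * (R - w) :=
      ⟨64 * q ^ 4 + w * w - R * w, by rw [hRdef]; linear_combination hw⟩
    exact (Int.prime_two.dvd_or_dvd this).elim id id
  obtain ⟨α, hα⟩ := h2
  have hab : α * (R - α) = 32 * q ^ 4 := by
    have h4 : 4 * (α * (R - α) - 32 * q ^ 4) = 0 := by
      have hww : w = R - 2 * α := by linarith
      subst hww
      rw [hRdef] at hw ⊢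
      linear_combination hw
    linarith
  have hR0 : 0 ≤ R := by rw [hRdef]; positivity
  have hcq : IsCoprime q R := by
    have := (hc.symm.pow_right (n := 2)).add_mul_left_right (11 * q)
    rw [hRdef]
    exact coprime_congr this (by ring) (by ring)
  rcases Int.even_or_odd R with hev | hodd
  · have hpq : Odd p ∧ Odd q := by
      have hh : ¬(Even p ∧ Even q) := fun hh ↦ absurd
        (hc.isUnit_of_dvd' (even_iff_two_dvd.1 hh.1) (even_iff_two_dvd.1 hh.2))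
        (by simp [Int.isUnit_iff])
      simp only [hRdef, Int.even_add, Int.even_mul, Int.even_pow] at hev
      simp only [← Int.not_even_iff_odd]
      have h11 : ¬ Even (11 : ℤ) := by decide
      tauto
    obtain ⟨⟨a, rfl⟩, ⟨b, rfl⟩⟩ := hpq
    obtain ⟨c, hc'⟩ := even_iff_two_dvd.1 (Int.even_mul_succ_self a)
    obtain ⟨d, hd'⟩ := even_iff_two_dvd.1 (Int.even_mul_succ_self b)
    obtain ⟨R', hR4, hR'⟩ : ∃ R' : ℤ, R = 4 * R' ∧ Odd R' := by
      refine ⟨2 * c + 22 * d + 3, ?_, ⟨c + 11 * d + 1, by ring⟩⟩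
      rw [hRdef]; linear_combination 4 * hc' + 44 * hd'
    have h4 : (4 : ℤ) ∣ α := by
      have h2a : (2 : ℤ) ∣ α := by
        have : (2 : ℤ) ∣ α * α := ⟨2 * R' * α - 16 * (2 * b + 1) ^ 4, by rw [hR4] at hab; linear_combination -hab⟩
        exact (Int.prime_two.dvd_or_dvd this).elim id id
      obtain ⟨α', rfl⟩ := h2a
      have : (2 : ℤ) ∣ α' * α' := ⟨R' * α' - 4 * (2 * b + 1) ^ 4, by rw [hR4] at hab; linarith⟩
      obtain ⟨α'', rfl⟩ := (Int.prime_two.dvd_or_dvd this).elim id id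
      exact ⟨α'', by ring⟩
    obtain ⟨α', rfl⟩ := h4
    obtain ⟨x, y, hxy, hx, hy, hq2, hyq, hsum, hxo⟩ :=
      split_two (j := 1) (α := α') (β := R' - α') hq (by linarith)
        (by simpa using hR') (by
          have := hcq; rw [hR4] at this
          simpa using this.of_mul_right_right)
        (by rw [hR4] at hab; linarith)
    refine ⟨2 * x, y, ?_, hy, ⟨2 * (2 * a + 1), ?_⟩, hyq, Or.inr ?_⟩
    · refine IsCoprime.mul_left ?_ hxy
      have : IsCoprime (2 : ℤ) (2 * b + 1) := ⟨-b, 1, by ring⟩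
      exact this.of_isCoprime_of_dvd_right hyq
    · rw [hRdef] at hR4
      linear_combination 44 * hq2 - 16 * hsum - 4 * hR4
    · linear_combination 4 * hq2
  · obtain ⟨x, y, hxy, hx, hy, hq2, hyq, hsum, hxo⟩ :=
      split_two (j := 5) (α := α) (β := R - α) hq (by linarith)
        (by simpa using hodd) (by simpa using hcq) (by rw [hab]; norm_num)
    refine ⟨x, y, hxy, hy, ⟨p, ?_⟩, hyq, Or.inl ⟨hxo (by norm_num), hq2⟩⟩
    rw [hRdef] at hsum
    linear_combination -hsum + 11 * hq2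

/-- The only coprime solutions with `e ≠ 0` of the first quartic. -/
theorem quarticF_solutions {u e : ℤ} (hc : IsCoprime u e) (he : e ≠ 0) (h : QuarticF u e) :
    e ^ 2 = 1 ∧ u ^ 2 = 4 := by
  induction hn : e.natAbs using Nat.strong_induction_on generalizing u e with
  | _ n IH =>
  subst hn
  obtain ⟨p, q, hcpq, hq, hp, hcase⟩ := quarticF_to_quarticG hc he h
  have hG : QuarticG p q := by
    rcases hcase with ⟨-, h2⟩ | ⟨-, -, h2⟩
    · exact ⟨2 * u, by linear_combination -h2⟩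
    · exact ⟨u, by linear_combination -h2⟩
  have hq1 : q ^ 2 = 1 := by
    by_cases hp1 : p ^ 2 = 1
    · refine quarticG_one_left ?_ hq
      unfold QuarticG at hG ⊢
      rwa [show p ^ 4 = (p ^ 2) ^ 2 by ring, hp1] at hG
    · have hlt : q ^ 2 < e ^ 2 := by
        have h1 : 1 < p ^ 2 := by
          have : 0 < p ^ 2 := by positivity
          omega
        have h2 : 0 < q ^ 2 := by positivity
        rcases hcase with ⟨h3, -⟩ | ⟨h3, -⟩ <;> nlinarith
      obtain ⟨u', e', hc', he', hF, hdvd, hrel⟩ := quarticG_to_quarticF hcpq hq hG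
      have hle : e'.natAbs ≤ q.natAbs :=
        Nat.le_of_dvd (Int.natAbs_pos.2 hq) (Int.natAbs_dvd_natAbs.2 hdvd)
      obtain ⟨h1, h2⟩ := IH _ (lt_of_le_of_lt hle (by have := sq_lt_sq.1 hlt; rw [Int.abs_eq_natAbs, Int.abs_eq_natAbs] at this; omega)) hc' he' hF rfl
      rcases hrel with ⟨hodd, -⟩ | h3
      · exfalso
        have : Odd (u' ^ 2) := hodd.pow
        rw [h2] at this
        exact absurd this (by decide)
      · rw [h1, h2] at h3; linarith
  have hp1 : p ^ 2 = 1 := by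
    apply quarticG_one
    unfold QuarticG at hG ⊢
    rw [show q ^ 4 = (q ^ 2) ^ 2 by ring, hq1] at hG
    simpa using hG
  rcases hcase with ⟨h1, h2⟩ | ⟨h1, hodd, h2⟩
  · rw [show p ^ 4 = (p ^ 2) ^ 2 by ring, show q ^ 4 = (q ^ 2) ^ 2 by ring, hp1, hq1] at h2
    exact ⟨by rw [h1, hp1, hq1]; norm_num, by linarith⟩
  · exfalso
    rw [show p ^ 4 = (p ^ 2) ^ 2 by ring, show q ^ 4 = (q ^ 2) ^ 2 by ring, hp1, hq1] at h2
    have : Odd (u ^ 2) := hodd.pow
    rw [h2] at this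
    exact absurd this (by decide)

/-- The rational points of `Y² = X (X² - 11 X + 32)`. -/
theorem rational_points {X Y : ℚ} (h : Y ^ 2 = X * (X ^ 2 - 11 * X + 32)) :
    X = 0 ∨ X = 4 ∨ X = 8 := by
  rcases eq_or_ne X 0 with hX | hX
  · exact Or.inl hX
  right
  set N := X.num with hN
  set D : ℤ := (X.den : ℤ) with hD
  have hD0 : 0 < D := by rw [hD]; exact_mod_cast X.den_pos
  have hND : IsCoprime N D := Rat.isCoprime_num_den X
  have hXeq : X * (D : ℚ) = N := by rw [hN, hD]; exact_mod_cast Rat.mul_den_eq_num X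
  have hsqQ : IsSquare ((N * (N ^ 2 - 11 * N * D + 32 * D ^ 2) * D : ℤ) : ℚ) :=
    ⟨Y * (D : ℚ) ^ 2, by push_cast; rw [← hXeq]; linear_combination -(D : ℚ) ^ 4 * h⟩
  obtain ⟨r, hr⟩ := Rat.isSquare_intCast_iff.1 hsqQ
  have hcD : IsCoprime (N * (N ^ 2 - 11 * N * D + 32 * D ^ 2)) D := by
    refine hND.mul_left ?_
    have := (hND.pow_left (m := 2)).add_mul_right_left (-11 * N + 32 * D)
    exact coprime_congr this (by ring) (by ring)
  have hQpos : 0 < N ^ 2 - 11 * N * D + 32 * D ^ 2 := by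
    nlinarith [sq_nonneg (2 * N - 11 * D)]
  obtain ⟨e, he⟩ : ∃ e : ℤ, D = e ^ 2 := by
    obtain ⟨e, he | he⟩ := Int.sq_of_isCoprime hcD.symm (show D * _ = r ^ 2 by rw [sq r, ← hr]; ring)
    · exact ⟨e, he⟩
    · nlinarith
  obtain ⟨r', hr'⟩ : ∃ r', N * (N ^ 2 - 11 * N * D + 32 * D ^ 2) = r' ^ 2 := by
    obtain ⟨r', h' | h'⟩ := Int.sq_of_isCoprime hcD (show _ * D = r ^ 2 by rw [sq r, ← hr])
    · exact ⟨r', h'⟩
    · have : r * r = -r' ^ 2 * D := by rw [← hr, h']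
      have h0 : 0 = r' ^ 2 := by nlinarith [mul_self_nonneg r, sq_nonneg r']
      exact ⟨r', by rw [h', ← h0]; norm_num⟩
  have hN0 : N ≠ 0 := Rat.num_ne_zero.2 hX
  have hNpos : 0 < N := by
    rcases lt_or_gt_of_ne hN0 with hneg | hpos
    · nlinarith [sq_nonneg r']
    · exact hpos
  have he0 : e ≠ 0 := by rintro rfl; simp at he; omega
  obtain ⟨n, hnN⟩ : ∃ n : ℕ, N = n := ⟨N.toNat, (Int.toNat_of_nonneg hNpos.le).symm⟩
  obtain ⟨d, v, hdv, hd⟩ := Nat.sq_mul_squarefree n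
  have hd32 : d ∣ 32 := by
    have hdN : (d : ℤ) ∣ N := by rw [hnN]; exact_mod_cast Dvd.intro_left _ hdv
    have hv0 : (v : ℤ) ≠ 0 := by
      rintro hv; apply hN0; rw [hnN, ← hdv]; push_cast; rw [hv]; ring
    have hsf : Squarefree (d : ℤ) := Int.squarefree_natCast.2 hd
    have hN' : N = (v : ℤ) ^ 2 * d := by rw [hnN, ← hdv]; push_cast; ring
    obtain ⟨r'', rfl⟩ : (v : ℤ) ∣ r' :=
      (Int.pow_dvd_pow_iff (n := 2) (by norm_num)).1
        ⟨d * (N ^ 2 - 11 * N * D + 32 * D ^ 2), by rw [← hr', hN']; ring⟩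
    have h' : (d : ℤ) * (N ^ 2 - 11 * N * D + 32 * D ^ 2) = r'' ^ 2 := by
      apply mul_left_cancel₀ (pow_ne_zero 2 hv0)
      linear_combination hr' - (N ^ 2 - 11 * N * D + 32 * D ^ 2) * hN'
    obtain ⟨k, rfl⟩ : (d : ℤ) ∣ r'' := hsf.isRadical 2 r'' (Dvd.intro _ h')
    have hd0 : (d : ℤ) ≠ 0 := hsf.ne_zero
    have hQ : N ^ 2 - 11 * N * D + 32 * D ^ 2 = (d : ℤ) * k ^ 2 := by
      apply mul_left_cancel₀ hd0; linear_combination h'
    have h32 : (d : ℤ) ∣ 32 * D ^ 2 :=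
      ⟨k ^ 2 - (v : ℤ) ^ 2 * N + 11 * (v : ℤ) ^ 2 * D, by
        linear_combination hQ - (N - 11 * D) * hN'⟩
    have hcop : IsCoprime (d : ℤ) (D ^ 2) := (hND.of_isCoprime_of_dvd_left hdN).pow_right
    exact_mod_cast hcop.dvd_of_dvd_mul_right h32
  have hd12 : d = 1 ∨ d = 2 := by
    obtain ⟨i, -, rfl⟩ := (Nat.dvd_prime_pow Nat.prime_two (i := d) (m := 5)).1 (by norm_num; exact hd32)
    rcases Nat.lt_or_ge i 2 with hi | hi
    · interval_cases i <;> simp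
    · exact absurd (hd 2 (dvd_trans (by norm_num) (pow_dvd_pow 2 hi))) (by simp)
  rw [he] at hND hXeq hr'
  have hcne : ∀ {w : ℤ}, w ∣ N → IsCoprime w e := fun hw ↦
    (hND.of_isCoprime_of_dvd_left hw).of_isCoprime_of_dvd_right (dvd_pow_self e two_ne_zero)
  have hvN : (v : ℤ) ∣ N := by rw [hnN, ← hdv]; push_cast; exact ⟨v * d, by ring⟩
  have hve : IsCoprime (v : ℤ) e := hcne hvN
  have hv0 : (v : ℤ) ≠ 0 := ne_zero_of_dvd_ne_zero hN0 hvN
  rcases hd12 with rfl | rfl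
  · left
    have hNv : N = (v : ℤ) ^ 2 := by rw [hnN, ← hdv]; push_cast; ring
    rw [hNv] at hr' hXeq
    obtain ⟨k, rfl⟩ : (v : ℤ) ∣ r' :=
      (Int.pow_dvd_pow_iff (n := 2) (by norm_num)).1 ⟨_, hr'.symm⟩
    obtain ⟨he1, hu4⟩ := quarticF_solutions hve he0
      ⟨k, mul_left_cancel₀ (pow_ne_zero 2 hv0) (by linear_combination hr')⟩
    rw [he1, hu4] at hXeq
    simpa using hXeq
  · right
    have hNv : N = 2 * (v : ℤ) ^ 2 := by rw [hnN, ← hdv]; push_cast; ring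
    have hodd : Odd e := by
      rw [← Int.not_even_iff_odd]; intro hev
      have h2 : IsCoprime (2 : ℤ) e := hcne ⟨(v : ℤ) ^ 2, hNv⟩
      exact absurd (h2.isUnit_of_dvd' dvd_rfl (even_iff_two_dvd.1 hev)) (by simp [Int.isUnit_iff])
    rw [hNv] at hr' hXeq
    obtain ⟨r'', rfl⟩ : (2 * v : ℤ) ∣ r' :=
      (Int.pow_dvd_pow_iff (n := 2) (by norm_num)).1
        ⟨2 * (v : ℤ) ^ 4 - 11 * (v : ℤ) ^ 2 * e ^ 2 + 16 * e ^ 4, by rw [← hr']; ring⟩
    have heq : 2 * (v : ℤ) ^ 4 - 11 * (v : ℤ) ^ 2 * e ^ 2 + 16 * e ^ 4 = r'' ^ 2 := by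
      apply mul_left_cancel₀ (mul_ne_zero (by norm_num : (4 : ℤ) ≠ 0) (pow_ne_zero 2 hv0))
      linear_combination hr'
    obtain ⟨c, hc⟩ | hvodd := Int.even_or_odd (v : ℤ)
    swap
    · exfalso
      have key : ∀ a b w : ZMod 8, a * 4 ≠ 0 → b * 4 ≠ 0 →
          2 * a ^ 4 - 11 * a ^ 2 * b ^ 2 + 16 * b ^ 4 ≠ w ^ 2 := by decide +kernel
      have h4 : ∀ n : ℤ, Odd n → (n : ZMod 8) * 4 ≠ 0 := by
        intro n hn hz
        have := (ZMod.intCast_zmod_eq_zero_iff_dvd (n * 4) 8).1 (by exact_mod_cast hz)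
        rw [Int.odd_iff] at hn
        omega
      exact key (v : ℤ) e r'' (h4 _ hvodd) (h4 _ hodd)
        (by exact_mod_cast congrArg (Int.cast : ℤ → ZMod 8) heq)
    rw [hc] at heq hve hXeq
    have hc0 : c ≠ 0 := by rintro rfl; exact hv0 hc
    have hce : IsCoprime c e := (show IsCoprime (2 * c) e by rw [two_mul]; exact hve).of_mul_left_right
    obtain ⟨k, rfl⟩ : (2 : ℤ) ∣ r'' :=
      Int.prime_two.dvd_of_dvd_pow (n := 2)
        ⟨16 * c ^ 4 - 22 * c ^ 2 * e ^ 2 + 8 * e ^ 4, by rw [← heq]; ring⟩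
    rcases Int.even_or_odd c with ⟨c', rfl⟩ | hcodd
    · exfalso
      obtain ⟨k', rfl⟩ : (2 : ℤ) ∣ k :=
        Int.prime_two.dvd_of_dvd_pow (n := 2)
          ⟨64 * c' ^ 4 - 22 * c' ^ 2 * e ^ 2 + 2 * e ^ 4, by linarith⟩
      obtain ⟨h1, h2⟩ := quarticF_solutions
        ((show IsCoprime (2 * c') e by rw [two_mul]; exact hce).of_mul_left_right.symm)
        (by rintro rfl; simp at hc0)
        (⟨k', by linarith⟩ : QuarticF e c')
      have : Odd (e ^ 2) := hodd.pow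
      rw [h2] at this
      exact absurd this (by decide)
    · have h2 : IsCoprime (2 : ℤ) c := by
        obtain ⟨m, rfl⟩ := hcodd
        exact ⟨-m, 1, by ring⟩
      obtain ⟨h1, h4⟩ := quarticF_solutions (IsCoprime.mul_left h2 hce.symm) hc0
        (⟨2 * k, by linarith⟩ : QuarticF (2 * e) c)
      have he1 : e ^ 2 = 1 := by linarith
      rw [he1, show 2 * (c + c) ^ 2 = 8 * c ^ 2 by ring, h1] at hXeq
      simpa using hXeq

end FLTA.EllPoints.Seven
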