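import Fermat.Agent.EllPoints.SevenDescent

/-!
# No rational point of order 14

The Tate normal form of a point of order `7` is
`y² + (1 - c) x y - b y = x³ - b x²` with `b = t³ - t²`, `c = t² - t`.
-/

set_option autoImplicit false

namespace FLTA.EllPoints.Seven

/-- The plane model of `X₁(14)` has no non-cuspidal rational points. -/
lemma cusp_of_quadratic {t m : ℚ}
    (h : t ^ 2 * m ^ 2 * (1 + 2 * m) - t * (1 + 2 * m) * (1 + m ^ 2) - m ^ 2 = 0) :
    t = 0 ∨ t = 1 := by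
  by_cases hm : m + 1 = 0
  · obtain rfl : m = -1 := eq_neg_of_add_eq_zero_left hm
    exact Or.inr (by nlinarith [sq_nonneg (t - 1)])
  obtain ⟨W, hWdef⟩ : ∃ W : ℚ, W = 2 * t * m ^ 2 * (1 + 2 * m) - (1 + 2 * m) * (1 + m ^ 2) :=
    ⟨_, rfl⟩
  have hW : W ^ 2 = (1 + 2 * m) * (m + 1) ^ 3 * (2 * m ^ 2 - m + 1) := by
    rw [hWdef]; linear_combination (4 * m ^ 2 * (1 + 2 * m)) * h
  have hX := rational_points (X := 4 * (2 * m + 1) / (m + 1))
    (Y := 4 * W / (m + 1) ^ 3) (by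
      field_simp
      linear_combination 4 * hW)
  rcases hX with h0 | h4 | h8
  · rw [div_eq_iff hm] at h0
    obtain rfl : m = -1 / 2 := by linarith
    norm_num at h
  · rw [div_eq_iff hm] at h4
    obtain rfl : m = 0 := by linarith
    left; linarith
  · rw [div_eq_iff hm] at h8
    linarith

/-- Tate's normal form with a point of order `7` has no rational root of the
`2`-division polynomial, away from the degenerate parameters `t = 0, 1`. -/
theorem tate_seven_no_two_torsion {t x : ℚ} (h0 : t ≠ 0) (h1 : t ≠ 1) :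
    4 * x ^ 3 + ((1 + t - t ^ 2) ^ 2 - 4 * (t ^ 3 - t ^ 2)) * x ^ 2
      - 2 * (1 + t - t ^ 2) * (t ^ 3 - t ^ 2) * x + (t ^ 3 - t ^ 2) ^ 2 ≠ 0 := by
  intro h
  have hb : t ^ 3 - t ^ 2 ≠ 0 := by
    have : t ^ 2 * (t - 1) ≠ 0 := mul_ne_zero (pow_ne_zero _ h0) (sub_ne_zero.2 h1)
    intro hh; apply this; linear_combination hh
  have hx : x ≠ 0 := by
    rintro rfl; apply hb; simpa using h
  set b : ℚ := t ^ 3 - t ^ 2 with hbdef
  obtain ⟨s, hsdef⟩ : ∃ s : ℚ, s = ((1 + t - t ^ 2) * x - b) / (2 * x) := ⟨_, rfl⟩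
  have hs1 : 2 * s * x = (1 + t - t ^ 2) * x - b := by rw [hsdef]; field_simp
  have hs2 : s ^ 2 = b - x := by
    have : 4 * x ^ 2 * (s ^ 2 - (b - x)) = 0 := by
      linear_combination h + (2 * s * x + ((1 + t - t ^ 2) * x - b)) * hs1
    simpa [hx, sub_eq_zero] using this
  have ht1 : t - 1 ≠ 0 := sub_ne_zero.2 h1
  obtain ⟨m, hm⟩ : ∃ m : ℚ, s = m * (t * (t - 1)) :=
    ⟨s / (t * (t - 1)), (div_mul_cancel₀ _ (mul_ne_zero h0 ht1)).symm⟩
  have hrel : (1 + t - t ^ 2 - 2 * s) * (b - s ^ 2) = b := by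
    rw [hs2]; linear_combination -hs1
  rw [hm, hbdef] at hrel
  have key : t ^ 2 * (t - 1) ^ 2 *
      (t ^ 2 * m ^ 2 * (1 + 2 * m) - t * (1 + 2 * m) * (1 + m ^ 2) - m ^ 2) = 0 := by
    linear_combination hrel
  have := cusp_of_quadratic
    (by simpa [h0, ht1] using key :
      t ^ 2 * m ^ 2 * (1 + 2 * m) - t * (1 + 2 * m) * (1 + m ^ 2) - m ^ 2 = 0)
  tauto

end FLTA.EllPoints.Seven
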