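import Mathlib.NumberTheory.PythagoreanTriples
import Mathlib.Data.ZMod.Basic
import Mathlib.Tactic

/-!
# The rank zero descent for `y² = x (x² + 6 x + 13)`

Main result: `not_isSquare_mul_quadratic`: for a nonzero rational `h`, the number
`h * (h ^ 2 + 6 * h + 13)` is not a square.
-/

set_option autoImplicit false

namespace FLTA.EllPoints.Thirteen

lemma exists_sq_of_coprime_mul {x y z : ℤ} (hx : 0 < x) (h : IsCoprime x y)
    (heq : x * y = z ^ 2) : ∃ a : ℤ, 0 < a ∧ x = a ^ 2 := by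
  obtain ⟨a, ha | ha⟩ := Int.sq_of_isCoprime h heq
  · refine ⟨|a|, abs_pos.2 ?_, by rw [sq_abs]; exact ha⟩
    rintro rfl
    simp [ha] at hx
  · nlinarith [sq_nonneg a]

lemma quartic_v_even {u v w : ℤ} (hw : w ^ 2 = u ^ 4 + 6 * u ^ 2 * v ^ 2 + 13 * v ^ 4) :
    Even v := by
  by_contra hv
  rw [Int.not_even_iff_odd] at hv
  obtain ⟨j, rfl⟩ := hv
  obtain ⟨a, ha⟩ := Int.even_mul_succ_self j
  rcases Int.even_or_odd u with ⟨i, rfl⟩ | ⟨i, rfl⟩
  · have key : ∀ z : ZMod 8, z ^ 2 ≠ 5 := by decide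
    refine key w ?_
    have h8 : ((8 : ℤ) : ZMod 8) = 0 := rfl
    have : w ^ 2 = 5 + 8 * (2 * i ^ 4 + 3 * i ^ 2 * (8 * a + 1) + 13 * 2 * a * (4 * a + 1) + 1) := by
      have hv2 : (2 * j + 1) ^ 2 = 8 * a + 1 := by linear_combination 4 * ha
      linear_combination hw + (24 * i ^ 2 + 13 * ((2 * j + 1) ^ 2 + (8 * a + 1))) * hv2
    have := congrArg (fun t : ℤ => (t : ZMod 8)) this
    push_cast at this h8
    rw [this, h8]
    ring
  · have key : ∀ z : ZMod 32, z ^ 2 ≠ 20 := by decide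
    refine key w ?_
    obtain ⟨b, hb⟩ := Int.even_mul_succ_self i
    have h32 : ((32 : ℤ) : ZMod 32) = 0 := rfl
    have : w ^ 2 = 20 + 32 * (2 * b ^ 2 + 2 * b + 12 * a * b + 26 * a ^ 2 + 8 * a) := by
      have hu2 : (2 * i + 1) ^ 2 = 8 * b + 1 := by linear_combination 4 * hb
      have hv2 : (2 * j + 1) ^ 2 = 8 * a + 1 := by linear_combination 4 * ha
      rw [hw, show (2 * i + 1) ^ 4 = ((2 * i + 1) ^ 2) ^ 2 by ring,
        show (2 * j + 1) ^ 4 = ((2 * j + 1) ^ 2) ^ 2 by ring, hu2, hv2]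
      ring
    have := congrArg (fun t : ℤ => (t : ZMod 32)) this
    push_cast at this h32
    rw [this, h32]
    ring

/-- `u⁴ + 6u²v² + 13v⁴` is not a square for coprime `u, v` with `v ≠ 0`. -/
theorem quartic_ne_sq : ∀ n : ℕ, ∀ u v w : ℤ, w.natAbs = n → IsCoprime u v → v ≠ 0 →
    w ^ 2 ≠ u ^ 4 + 6 * u ^ 2 * v ^ 2 + 13 * v ^ 4 := by
  intro n
  induction n using Nat.strong_induction_on with
  | _ n ih =>
  intro u v w hn huv hv0 hw
  wlog hw0 : 0 ≤ w generalizing w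
  · exact this (-w) (by simpa using hn) (by rw [neg_sq]; exact hw) (by omega)
  have hv2pos : 0 < v ^ 2 := by positivity
  have hwne : w ≠ 0 := by
    rintro rfl
    nlinarith [sq_nonneg (u ^ 2 + 3 * v ^ 2), pow_pos hv2pos 2]
  have hwpos : 0 < w := lt_of_le_of_ne hw0 (Ne.symm hwne)
  have hve : Even v := quartic_v_even hw
  have huo : Odd u := by
    rw [← Int.not_even_iff_odd]
    intro hue
    have := huv.isUnit_of_dvd' hue.two_dvd hve.two_dvd
    simp [Int.isUnit_iff] at this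
  have hA : Odd (u ^ 2 + 3 * v ^ 2) := huo.pow.add_even ((hve.pow_of_ne_zero two_ne_zero).mul_left 3)
  have htri : PythagoreanTriple (u ^ 2 + 3 * v ^ 2) (2 * v ^ 2) w := by
    unfold PythagoreanTriple
    linear_combination -hw
  have hcop : Int.gcd (u ^ 2 + 3 * v ^ 2) (2 * v ^ 2) = 1 := by
    rw [← Int.isCoprime_iff_gcd_eq_one]
    refine IsCoprime.mul_right ?_ ?_
    · obtain ⟨k, hk⟩ := hA
      exact ⟨1, -k, by linear_combination hk⟩
    · exact (huv.pow (m := 2) (n := 2)).add_mul_right_left 3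
  obtain ⟨m, nn, hm1, hm2, hm3, hmn, -, hm0⟩ :=
    htri.coprime_classification' hcop (Int.odd_iff.1 hA) hwpos
  have hvmn : m * nn = v ^ 2 := by linarith
  have hmpos : 0 < m := by
    rcases hm0.lt_or_eq with h | rfl
    · exact h
    · simp at hvmn; exact absurd hvmn.symm (by simpa using hv0)
  have hnpos : 0 < nn := pos_of_mul_pos_right (hvmn ▸ hv2pos) hm0
  have hcmn : IsCoprime m nn := Int.isCoprime_iff_gcd_eq_one.2 hmn
  obtain ⟨a, ha0, rfl⟩ := exists_sq_of_coprime_mul hmpos hcmn hvmn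
  obtain ⟨b, hb0, rfl⟩ := exists_sq_of_coprime_mul hnpos hcmn.symm (by rw [mul_comm]; exact hvmn)
  have hab : IsCoprime a b := (IsCoprime.pow_iff two_pos two_pos).1 hcmn
  have he : u ^ 2 + 3 * a ^ 2 * b ^ 2 + b ^ 4 = a ^ 4 := by linear_combination hm1 + 3 * hvmn
  have hbe : Even b := by
    by_contra hb
    rw [Int.not_even_iff_odd] at hb
    obtain ⟨j, rfl⟩ := hb
    obtain ⟨i, rfl⟩ := huo
    rcases Int.even_or_odd a with ⟨k, rfl⟩ | ⟨k, rfl⟩
    · have key : ((2 : ℤ) : ZMod 4) = 0 → False := by decide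
      apply key
      have h4 : ((4 : ℤ) : ZMod 4) = 0 := rfl
      have : (2 : ℤ) = 4 * (4 * k ^ 4 - i ^ 2 - i - 3 * k ^ 2 * (2 * j + 1) ^ 2
          - 4 * j ^ 4 - 8 * j ^ 3 - 6 * j ^ 2 - 2 * j) := by linear_combination he
      rw [this, Int.cast_mul, h4, zero_mul]
    · have h2 : Even (v ^ 2) := hve.pow_of_ne_zero two_ne_zero
      rw [← hvmn] at h2
      exact Int.not_even_iff_odd.2 ((odd_two_mul_add_one k).pow.mul (odd_two_mul_add_one j).pow) h2
  obtain ⟨k, rfl⟩ := hbe.two_dvd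
  have hk0 : 0 < k := by linarith
  have hao : Odd a := by
    rw [← Int.not_even_iff_odd]
    intro h
    have := hab.isUnit_of_dvd' h.two_dvd (dvd_mul_right 2 k)
    simp [Int.isUnit_iff] at this
  obtain ⟨α, hα⟩ := hao
  obtain ⟨ι, hι⟩ := huo
  -- the two factors
  obtain ⟨e, hedef⟩ : ∃ e, a ^ 2 - 6 * k ^ 2 - u = 2 * e :=
    ⟨2 * α ^ 2 + 2 * α - 3 * k ^ 2 - ι, by rw [hα, hι]; ring⟩
  obtain ⟨f, hfdef⟩ : ∃ f, a ^ 2 - 6 * k ^ 2 + u = 2 * f :=
    ⟨e + u, by linear_combination hedef⟩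
  have hef : e * f = 13 * k ^ 4 := by
    have : (2 * e) * (2 * f) = 4 * (13 * k ^ 4) := by
      rw [← hedef, ← hfdef]; linear_combination -he
    exact mul_left_cancel₀ (by norm_num : (4 : ℤ) ≠ 0) (by linear_combination this)
  have ha2 : 0 < a ^ 2 - 6 * k ^ 2 := by
    have h12 : a ^ 2 * (12 * k ^ 2) < a ^ 2 * a ^ 2 := by
      nlinarith [sq_nonneg u, pow_pos hk0 4]
    nlinarith [lt_of_mul_lt_mul_left h12 (sq_nonneg a), sq_nonneg k]
  have hepos : 0 < e ∧ 0 < f := by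
    have h13 : 0 < e * f := by rw [hef]; positivity
    rcases pos_and_pos_or_neg_and_neg_of_mul_pos h13 with h | h
    · exact h
    · exact absurd h (by omega)
  have hpef : ∀ z : ℤ, Prime z → z ∣ e → ¬ z ∣ f := by
    intro z hz hze hzf
    have hzA : z ∣ a ^ 2 - 6 * k ^ 2 := by
      have : a ^ 2 - 6 * k ^ 2 = e + f := by linarith
      exact this ▸ dvd_add hze hzf
    have hzz : z * z ∣ 13 * k ^ 4 := hef ▸ mul_dvd_mul hze hzf
    by_cases hzk : z ∣ k
    · have hza : z ∣ a := by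
        refine hz.dvd_of_dvd_pow (n := 2) ?_
        have := dvd_add hzA ((hzk.pow two_ne_zero).mul_left 6)
        simpa using this
      exact hz.not_isUnit (hab.isUnit_of_dvd' hza (hzk.mul_left 2))
    · have hc : IsCoprime (z * z) (k ^ 4) :=
        ((hz.coprime_iff_not_dvd.2 hzk).mul_left (hz.coprime_iff_not_dvd.2 hzk)).pow_right
      have h13 : Squarefree (13 : ℤ) :=
        (Int.prime_iff_natAbs_prime.2 (by norm_num)).squarefree
      exact hz.not_isUnit (h13 z (hc.dvd_of_dvd_mul_right hzz))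
  have hcef : IsCoprime e f := isCoprime_of_prime_dvd (by omega) hpef
  have hdesc : ∀ e' f' : ℤ, 0 < e' → 0 < f' → IsCoprime e' f' → e' * f' = k ^ 4 →
      13 * e' + f' = a ^ 2 - 6 * k ^ 2 → False := by
    intro e' f' he' hf' hc hp hs
    obtain ⟨p, hp0, rfl⟩ := exists_sq_of_coprime_mul he' hc (show e' * f' = (k ^ 2) ^ 2 by
      rw [hp]; ring)
    obtain ⟨q, hq0, rfl⟩ := exists_sq_of_coprime_mul hf' hc.symm (show f' * p ^ 2 = (k ^ 2) ^ 2 by
      rw [mul_comm, hp]; ring)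
    have hpq : p * q = k ^ 2 := by
      have : (p * q) ^ 2 = (k ^ 2) ^ 2 := by rw [mul_pow, hp]; ring
      exact (pow_left_inj₀ (mul_pos hp0 hq0).le (sq_nonneg k) two_ne_zero).1 this
    have hcpq : IsCoprime p q := (IsCoprime.pow_iff two_pos two_pos).1 hc
    obtain ⟨h, hh0, rfl⟩ := exists_sq_of_coprime_mul hp0 hcpq hpq
    obtain ⟨g, hg0, rfl⟩ := exists_sq_of_coprime_mul hq0 hcpq.symm (by rw [mul_comm]; exact hpq)
    have hlt : a.natAbs < n := by
      rw [← hn]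
      have h1 : a ^ 1 ≤ a ^ 4 := pow_le_pow_right₀ (by omega) (by norm_num)
      have h2 : 0 < (2 * k) ^ 4 := by positivity
      have : a < w := by
        rw [hm3]; nlinarith
      omega
    refine ih _ hlt g h a rfl ((IsCoprime.pow_iff two_pos two_pos).1 hcpq.symm) hh0.ne' ?_
    linear_combination -hs - 6 * hpq
  rcases (Int.prime_iff_natAbs_prime.2 (by norm_num) : Prime (13 : ℤ)).dvd_or_dvd
      (hef ▸ dvd_mul_right 13 (k ^ 4)) with ⟨e', rfl⟩ | ⟨f', rfl⟩
  · exact hdesc e' f (by linarith) hepos.2 (hcef.of_mul_left_right) (by linarith) (by linarith)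
  · exact hdesc f' e (by linarith) hepos.1 (hcef.of_mul_right_right).symm (by linarith) (by linarith)

/-- For `h ≠ 0` the number
`h (h² + 6h + 13)` is not a rational square. -/
theorem not_isSquare_mul_quadratic {h : ℚ} (h0 : h ≠ 0) :
    ¬ IsSquare (h * (h ^ 2 + 6 * h + 13)) := by
  intro hsq
  obtain ⟨n, hn⟩ : ∃ n : ℤ, h.num = n := ⟨_, rfl⟩
  obtain ⟨d, hd⟩ : ∃ d : ℤ, (h.den : ℤ) = d := ⟨_, rfl⟩
  have hd0 : 0 < d := by simp [← hd, h.den_pos]
  have hn0 : n ≠ 0 := hn ▸ Rat.num_ne_zero.2 h0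
  have hcop : IsCoprime n d := hn ▸ hd ▸ Int.isCoprime_iff_gcd_eq_one.2 h.reduced
  have hdQ : (d : ℚ) ≠ 0 := by exact_mod_cast hd0.ne'
  have hnd : h = (n : ℚ) / d := by rw [← hn, ← hd]; push_cast; exact (h.num_div_den).symm
  have hsqZ : IsSquare (n * d * (n ^ 2 + 6 * n * d + 13 * d ^ 2)) := by
    rw [← Rat.isSquare_intCast_iff]
    have : ((n * d * (n ^ 2 + 6 * n * d + 13 * d ^ 2) : ℤ) : ℚ) =
        h * (h ^ 2 + 6 * h + 13) * ((d : ℚ) ^ 2 * (d : ℚ) ^ 2) := by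
      rw [hnd]; push_cast; field_simp
    rw [this]
    exact hsq.mul ((IsSquare.sq _).mul (IsSquare.sq _))
  obtain ⟨z, hz⟩ := hsqZ
  obtain ⟨q, hq⟩ : ∃ q, n ^ 2 + 6 * n * d + 13 * d ^ 2 = q := ⟨_, rfl⟩
  rw [hq] at hz
  have hq0 : 0 < q := by rw [← hq]; nlinarith [sq_nonneg (n + 3 * d)]
  have hnq0 : 0 < n * q := by
    rcases lt_or_gt_of_ne hn0 with hneg | hpos
    · nlinarith [mul_self_nonneg z, mul_pos (mul_pos (neg_pos.2 hneg) hd0) hq0]
    · positivity
  have hnpos : 0 < n := pos_of_mul_pos_left hnq0 hq0.le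
  have hcdq : IsCoprime d q := by
    have : IsCoprime d (n ^ 2) := hcop.symm.pow_right
    have := this.add_mul_left_right (6 * n + 13 * d)
    rwa [← hq, show n ^ 2 + 6 * n * d + 13 * d ^ 2 = n ^ 2 + d * (6 * n + 13 * d) by ring]
  obtain ⟨v, hv0, hv⟩ := exists_sq_of_coprime_mul hd0 (hcop.symm.mul_right hcdq)
    (show d * (n * q) = z ^ 2 by linear_combination hz)
  have hzv : ∃ y, n * q = y ^ 2 := by
    obtain ⟨y, hy0, hy⟩ := exists_sq_of_coprime_mul hnq0 (hcop.symm.mul_right hcdq).symm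
      (show n * q * d = z ^ 2 by linear_combination hz)
    exact ⟨y, hy⟩
  obtain ⟨y, hy⟩ := hzv
  have h13p : Prime (13 : ℤ) := Int.prime_iff_natAbs_prime.2 (by norm_num)
  by_cases h13 : (13 : ℤ) ∣ n
  · obtain ⟨m, rfl⟩ := h13
    have hy13 : (13 : ℤ) ∣ y := h13p.dvd_of_dvd_pow (hy ▸ (dvd_mul_right 13 m).mul_right q)
    obtain ⟨y', rfl⟩ := hy13
    have hy' : m * (13 * m ^ 2 + 6 * m * d + d ^ 2) = y' ^ 2 := by
      rw [← hq] at hy
      exact mul_left_cancel₀ (by norm_num : (169 : ℤ) ≠ 0) (by linear_combination hy)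
    have hcm : IsCoprime m (13 * m ^ 2 + 6 * m * d + d ^ 2) := by
      have h1 : IsCoprime m (d ^ 2) := (hcop.of_mul_left_right).pow_right
      have := h1.add_mul_left_right (13 * m + 6 * d)
      rwa [show 13 * m ^ 2 + 6 * m * d + d ^ 2 = d ^ 2 + m * (13 * m + 6 * d) by ring]
    have hm : 0 < m := by linarith
    obtain ⟨u, hu0, rfl⟩ := exists_sq_of_coprime_mul hm hcm hy'
    obtain ⟨w, -, hw⟩ := exists_sq_of_coprime_mul (by nlinarith [sq_nonneg (3 * u ^ 2 + d), hm, hd0])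
      hcm.symm (by rw [mul_comm]; exact hy')
    refine quartic_ne_sq _ v u w rfl ?_ hu0.ne' ?_
    · rw [hv] at hcop
      exact ((IsCoprime.pow_iff two_pos two_pos).1 hcop.of_mul_left_right).symm
    · rw [← hw, hv]; ring
  · have hcnq : IsCoprime n q := by
      have h1 : IsCoprime n (13 * d ^ 2) :=
        ((h13p.coprime_iff_not_dvd.2 h13).symm).mul_right hcop.pow_right
      have := h1.add_mul_left_right (n + 6 * d)
      rwa [← hq, show n ^ 2 + 6 * n * d + 13 * d ^ 2 = 13 * d ^ 2 + n * (n + 6 * d) by ring]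
    obtain ⟨u, hu0, hu⟩ := exists_sq_of_coprime_mul hnpos hcnq hy
    obtain ⟨w, -, hw⟩ := exists_sq_of_coprime_mul hq0 hcnq.symm (by rw [mul_comm]; exact hy)
    refine quartic_ne_sq _ u v w rfl ?_ hv0.ne' ?_
    · rw [hu, hv] at hcop
      exact (IsCoprime.pow_iff two_pos two_pos).1 hcop
    · rw [← hw, ← hq, hu, hv]; ring

end FLTA.EllPoints.Thirteen
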