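import Fermat.Agent.EllPoints.ThirteenDescent

/-!
# The discriminant on the sextic model of `X₁(13)`

With `r = 1 - x y`, `s = 1 - x y / (y + 1)`, `b = r s (r - 1)`, `c = s (r - 1)` the
discriminant of the Tate normal form times the Hauptmodul `h` of `X₀(13)` is a square, and
`h² + 6 h + 13` is the square of `(2 y + x³ + x² + 1) / (x (x + 1))`.
-/

set_option autoImplicit false

namespace FLTA.EllPoints.Thirteen

/-- Discriminant of `y² + (1 - c) x y - b y = x³ - b x²`. -/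
def tateDisc {K : Type*} [Field K] (b c : K) : K :=
  b ^ 3 * (16 * b ^ 2 - 8 * b * c ^ 2 - 20 * b * c + b + c * (c - 1) ^ 3)

lemma no_rat_root (x : ℚ) : x ^ 3 + 4 * x ^ 2 + x - 1 ≠ 0 := by
  intro h
  have hden : (x.den : ℚ) ≠ 0 := by exact_mod_cast x.den_nz
  have hZ : x.num ^ 3 + 4 * x.num ^ 2 * x.den + x.num * x.den ^ 2 - (x.den : ℤ) ^ 3 = 0 := by
    have : ((x.num ^ 3 + 4 * x.num ^ 2 * x.den + x.num * x.den ^ 2 - (x.den : ℤ) ^ 3 : ℤ) : ℚ) = 0 := by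
      rw [← Rat.num_div_den x] at h
      push_cast
      field_simp at h
      linear_combination h
    exact_mod_cast this
  have hcop : IsCoprime x.num (x.den : ℤ) := Int.isCoprime_iff_gcd_eq_one.2 x.reduced
  have h2 : IsUnit x.num :=
    hcop.pow_right.isUnit_of_dvd' dvd_rfl
      (show x.num ∣ (x.den : ℤ) ^ 3 from ⟨x.num ^ 2 + 4 * x.num * x.den + x.den ^ 2,
        by linear_combination -hZ⟩)
  have h3 : IsUnit (x.den : ℤ) :=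
    hcop.symm.pow_right.isUnit_of_dvd' dvd_rfl
      (show (x.den : ℤ) ∣ x.num ^ 3 from ⟨(x.den : ℤ) ^ 2 - 4 * x.num ^ 2 - x.num * x.den,
        by linear_combination hZ⟩)
  rcases Int.isUnit_iff.1 h2 with h2 | h2 <;> rcases Int.isUnit_iff.1 h3 with h3 | h3 <;>
    simp [h2, h3] at hZ

/-- A non-cuspidal rational point of `X₁(13)` has non-square discriminant. -/
theorem not_isSquare_tateDisc {x y : ℚ} (hF : y * (y + 1) = x * (x + 1) * (1 - x * y))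
    (hx : x ≠ 0) (hu : y + 1 ≠ 0) (hy : y ≠ 0) {b c : ℚ}
    (hb : b * (y + 1) = -((1 - x * y) * (y + 1 - x * y) * x * y))
    (hc : c * (y + 1) = -((y + 1 - x * y) * x * y))
    (hd : tateDisc b c ≠ 0) : ¬ IsSquare (tateDisc b c) := by
  rintro ⟨D, hD⟩
  have hD0 : D ≠ 0 := fun h => hd (by rw [hD, h, mul_zero])
  have hx1 : x + 1 ≠ 0 := fun h => mul_ne_zero hy hu (by rw [hF, h, mul_zero, zero_mul])
  obtain ⟨C, hC⟩ : ∃ C, x ^ 3 + 4 * x ^ 2 + x - 1 = C := ⟨_, rfl⟩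
  obtain ⟨S, hS⟩ : ∃ S, y + 1 - x * y = S := ⟨_, rfl⟩
  obtain ⟨R, hR⟩ : ∃ R, 1 - x * y = R := ⟨_, rfl⟩
  obtain ⟨bn, hbn⟩ : ∃ bn, -(R * S * x * y) = bn := ⟨_, rfl⟩
  obtain ⟨cn, hcn⟩ : ∃ cn, -(S * x * y) = cn := ⟨_, rfl⟩
  have hb' : b = bn / (y + 1) := by rw [eq_div_iff hu, hb, hR, hS, hbn]
  have hc' : c = cn / (y + 1) := by rw [eq_div_iff hu, hc, hS, hcn]
  obtain ⟨K, hK⟩ : ∃ K, 16 * bn ^ 2 * (y + 1) ^ 2 - 8 * bn * cn ^ 2 * (y + 1)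
      - 20 * bn * cn * (y + 1) ^ 2 + bn * (y + 1) ^ 3 + cn * (cn - (y + 1)) ^ 3 = K := ⟨_, rfl⟩
  have hdisc : tateDisc b c * (y + 1) ^ 7 = bn ^ 3 * K := by
    rw [← hK, hb', hc', tateDisc]; field_simp
  have hkey : K * (y + 1) ^ 2 = y ^ 6 * S ^ 3 * C * x * (x + 1) ^ 4 := by
    subst hK hbn hcn hR hS hC
    linear_combination (x^8*y^8 + 4*x^7*y^8 - 2*x^7*y^7 - 2*x^6*y^8 - 11*x^6*y^7 + x^6*y^6
      - 12*x^5*y^8 - 10*x^5*y^7 + 7*x^5*y^6 + 9*x^4*y^8 + 31*x^4*y^7 + 21*x^4*y^6 - 9*x^3*y^7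
      - 18*x^3*y^6 - 8*x^3*y^5 + 3*x^2*y^6 + 4*x^2*y^5 + x^2*y^4 + x*y^7 + 2*x*y^6 + x*y^5) * hF
  -- the Hauptmodul of `X₀(13)`
  obtain ⟨h, hh⟩ : ∃ h, -C / (x * (x + 1)) = h := ⟨_, rfl⟩
  have hxx : x * (x + 1) ≠ 0 := mul_ne_zero hx hx1
  have h0 : h ≠ 0 := by
    rw [← hh, Ne, div_eq_zero_iff, not_or]
    refine ⟨?_, hxx⟩
    rw [neg_eq_zero, ← hC]
    exact no_rat_root x
  have hG : tateDisc b c * h = (y ^ 6 * S ^ 3 * C / (y + 1) ^ 3) ^ 2 := by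
    refine mul_right_cancel₀ (mul_ne_zero (pow_ne_zero 9 hu) hxx) ?_
    have hhx : h * (x * (x + 1)) = -C := by rw [← hh, div_mul_cancel₀ _ hxx]
    have hRx : R * (x * (x + 1)) = y * (y + 1) := by rw [← hR]; linear_combination -hF
    rw [div_pow, ← pow_mul, div_mul_eq_mul_div, eq_div_iff (pow_ne_zero _ hu)]
    linear_combination (tateDisc b c * (y + 1) ^ 15) * hhx + (-C * (y + 1) ^ 8) * hdisc
      + (-C * bn ^ 3 * (y + 1) ^ 6) * hkey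
      + (C ^ 2 * S ^ 3 * y ^ 6 * (y + 1) ^ 6 * x * (x + 1) ^ 4
          * (bn ^ 2 + bn * (-(R * S * x * y)) + (R * S * x * y) ^ 2)) * hbn
      + (C ^ 2 * S ^ 6 * y ^ 9 * (y + 1) ^ 6 * x * (x + 1) *
          ((R * (x * (x + 1))) ^ 2 + R * (x * (x + 1)) * (y * (y + 1)) + (y * (y + 1)) ^ 2)) * hRx
  have hq : h ^ 2 + 6 * h + 13 = ((2 * y + (x ^ 3 + x ^ 2 + 1)) / (x * (x + 1))) ^ 2 := by
    rw [← hh, ← hC]; field_simp
    linear_combination -4 * hF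
  refine not_isSquare_mul_quadratic h0
    ⟨(2 * y + (x ^ 3 + x ^ 2 + 1)) / (x * (x + 1)) * (y ^ 6 * S ^ 3 * C / (y + 1) ^ 3) / D, ?_⟩
  have hh2 : h = (y ^ 6 * S ^ 3 * C / (y + 1) ^ 3) ^ 2 / (D * D) := by
    rw [eq_div_iff (mul_ne_zero hD0 hD0), ← hG, hD]; ring
  rw [hq, hh2]
  ring

end FLTA.EllPoints.Thirteen
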