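import Fermat.Agent.EllIsogeny.TateOrder
import Fermat.Agent.EllPoints.ThirteenModel

/-!
# No rational point of order `13` on a curve with square discriminant
-/

set_option autoImplicit false

namespace FLTA.EllPoints.Thirteen

open WeierstrassCurve

/-- An elliptic curve over `ℚ` with a rational point of order `13` has non-square
discriminant. -/
theorem not_isSquare_discriminant {W : WeierstrassCurve ℚ} (hΔ : W.Δ ≠ 0)
    {P : W.toAffine.Point} (hord : addOrderOf P = 13) : ¬ IsSquare W.Δ := by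
  rintro ⟨D, hD⟩
  have hn : ∀ k : ℕ, 0 < k → k < 13 → k • P ≠ 0 := fun k h1 h2 h0 => by
    have := Nat.le_of_dvd h1 (hord ▸ addOrderOf_dvd_of_nsmul_eq_zero h0)
    omega
  obtain ⟨b, c, hb, e, C, hC, heP⟩ :=
    EllIsogeny.exists_tateNF W.toAffine P (hn 2 (by norm_num) (by norm_num))
      (hn 3 (by norm_num) (by norm_num))
  have hord' : addOrderOf (EllIsogeny.tatePoint hb c) = 13 := by
    rw [← e.addOrderOf_eq, heP, hord]
  obtain ⟨r, s, hbrs, hcs, hr0, hr1, -, hs1, hrs, hm⟩ :=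
    EllIsogeny.tate_order_thirteen hb hord'
  have hT : (EllIsogeny.tateCurve b c).Δ = tateDisc b c := EllIsogeny.tateCurve_Δ b c
  have hCΔ : (EllIsogeny.tateCurve b c).Δ = (C.u⁻¹ : ℚˣ) ^ 12 * W.Δ := by
    rw [← hC]; exact variableChange_Δ W C
  have h1s : (1 : ℚ) - s ≠ 0 := sub_ne_zero.2 (Ne.symm hs1)
  have hrs' : r - s ≠ 0 := sub_ne_zero.2 hrs
  have hr1' : r - 1 ≠ 0 := sub_ne_zero.2 hr1
  refine not_isSquare_tateDisc (b := b) (c := c) (x := (r - 1) * (1 - s) / (r - s))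
    (y := (s - r) / (1 - s)) ?_ ?_ ?_ ?_ ?_ ?_ ?_
    ⟨(C.u⁻¹ : ℚˣ) ^ 6 * D, by rw [← hT, hCΔ, hD]; ring⟩
  · field_simp
    linear_combination (-r ^ 2 + r * s + r - s) * hm
  · exact div_ne_zero (mul_ne_zero hr1' h1s) hrs'
  · rw [div_add_one h1s]
    exact div_ne_zero (fun h => hr1' (by linear_combination -h)) h1s
  · exact div_ne_zero (fun h => hrs' (by linear_combination -h)) h1s
  · rw [hbrs, hcs]; field_simp; ring
  · rw [hcs]; field_simp; ring
  · rw [← hT, hCΔ]
    exact mul_ne_zero (pow_ne_zero _ (Units.ne_zero _)) hΔ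

end FLTA.EllPoints.Thirteen
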