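import Mathlib.AlgebraicGeometry.EllipticCurve.Affine.Point
import Mathlib.GroupTheory.OrderOfElement
import Mathlib.Tactic.LinearCombination

/-!
# Full rational `2`-torsion makes the discriminant a square
-/

set_option autoImplicit false

namespace FLTA.EllPoints

open WeierstrassCurve

variable {F : Type*} [Field F] [DecidableEq F]

/-- A point of order two is affine, fixed by negation, and its abscissa is a root of the
`2`-division polynomial. -/
lemma exists_coords_of_addOrderOf_two {W : WeierstrassCurve F} {T : W.toAffine.Point}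
    (hT : addOrderOf T = 2) : ∃ x y h, T = Affine.Point.some x y h ∧
      2 * y + W.a₁ * x + W.a₃ = 0 ∧
      4 * x ^ 3 + W.b₂ * x ^ 2 + 2 * W.b₄ * x + W.b₆ = 0 := by
  rcases T with _ | ⟨x, y, h⟩
  · simp [← Affine.Point.zero_def] at hT
  have h2 : (2 : ℕ) • Affine.Point.some x y h = 0 := by rw [← hT]; exact addOrderOf_nsmul_eq_zero _
  rw [two_nsmul] at h2
  have hy : y = W.toAffine.negY x y := by
    by_contra hy
    rw [Affine.Point.add_self_of_Y_ne hy] at h2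
    exact Affine.Point.some_ne_zero _ h2
  have he := (Affine.equation_iff (W := W.toAffine) x y).mp h.1
  simp only [Affine.negY] at hy
  refine ⟨x, y, h, rfl, by linear_combination hy, ?_⟩
  simp only [b₂, b₄, b₆]
  linear_combination (2 * y + W.a₁ * x + W.a₃) * hy - 4 * he

/-- Full rational `2`-torsion makes the discriminant a square. -/
theorem isSquare_discriminant_of_two_torsion [CharZero F] {W : WeierstrassCurve F}
    {T₁ T₂ : W.toAffine.Point} (h₁ : addOrderOf T₁ = 2) (h₂ : addOrderOf T₂ = 2)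
    (hne : T₁ ≠ T₂) : IsSquare W.Δ := by
  obtain ⟨x₁, y₁, n₁, rfl, e₁, r₁⟩ := exists_coords_of_addOrderOf_two h₁
  obtain ⟨x₂, y₂, n₂, rfl, e₂, r₂⟩ := exists_coords_of_addOrderOf_two h₂
  have hx : x₁ ≠ x₂ := fun hx => hne <| by
    subst hx
    have : (2 : F) * (y₁ - y₂) = 0 := by linear_combination e₁ - e₂
    obtain rfl : y₁ = y₂ := sub_eq_zero.1 ((mul_eq_zero.1 this).resolve_left two_ne_zero)
    rfl
  obtain ⟨x₃, h₃⟩ : ∃ x₃, -W.b₂ / 4 - x₁ - x₂ = x₃ := ⟨_, rfl⟩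
  have hb2 : W.b₂ = -4 * (x₁ + x₂ + x₃) := by
    rw [← h₃]; field_simp; ring
  have hb4 : W.b₄ = 2 * (x₁ * x₂ + x₁ * x₃ + x₂ * x₃) := by
    refine mul_left_cancel₀ (mul_ne_zero two_ne_zero (sub_ne_zero.2 hx)) ?_
    linear_combination r₁ - r₂ - (x₁ ^ 2 - x₂ ^ 2) * hb2
  have hb6 : W.b₆ = -4 * (x₁ * x₂ * x₃) := by
    linear_combination r₁ - x₁ ^ 2 * hb2 - 2 * x₁ * hb4
  have h8 := W.b_relation
  refine ⟨4 * ((x₁ - x₂) * (x₁ - x₃) * (x₂ - x₃)), ?_⟩
  refine mul_left_cancel₀ (OfNat.ofNat_ne_zero 4 : (4 : F) ≠ 0) ?_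
  have hD : 4 * W.Δ = -W.b₂ ^ 2 * (W.b₂ * W.b₆ - W.b₄ ^ 2) - 32 * W.b₄ ^ 3 - 108 * W.b₆ ^ 2
      + 36 * W.b₂ * W.b₄ * W.b₆ := by
    simp only [WeierstrassCurve.Δ]; linear_combination -W.b₂ ^ 2 * h8
  rw [hD, hb2, hb4, hb6]
  ring

end FLTA.EllPoints
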